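import Fermat.Agent.S23.Basic
import Fermat.Agent.S23.Unbundled
import Fermat.Agent.S23.LevelOneConj
import Mathlib.NumberTheory.ModularForms.LevelOne.GradedRing

set_option autoImplicit false

open UpperHalfPlane ModularForm EisensteinSeries
open scoped MatrixGroups ModularForm Manifold

namespace Fermat.Agent.S20FM

open Fermat.Agent.S23

local notation "Δ" => ModularForm.discriminant

theorem isMF_E4 : IsMF 𝒮ℒ 4 (E₄ : ℍ → ℂ) := ⟨E₄, rfl⟩

theorem isMF_E6 : IsMF 𝒮ℒ 6 (E₆ : ℍ → ℂ) := ⟨E₆, rfl⟩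

theorem isMF_Delta : IsMF 𝒮ℒ 12 (Δ : ℍ → ℂ) :=
  (CuspForm.isCF (Γ := 𝒮ℒ) (k := 12) CuspForm.discriminant).isMF

theorem levelOne_neg {a : ℤ} (ha : a < 0) {r : ℍ → ℂ} (hr : IsMF 𝒮ℒ a r) : r = 0 := by
  obtain ⟨F, rfl⟩ := hr
  exact ModularFormClass.levelOne_neg_weight_eq_zero ha F

theorem levelOne_odd {a : ℤ} (ha : Odd a) {r : ℍ → ℂ} (hr : IsMF 𝒮ℒ a r) : r = 0 := by
  obtain ⟨F, rfl⟩ := hr
  rw [ModularForm.levelOne_odd_weight_eq_zero ha F]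
  rfl

theorem levelOne_two {r : ℍ → ℂ} (hr : IsMF 𝒮ℒ 2 r) : r = 0 := by
  obtain ⟨F, rfl⟩ := hr
  have := rank_zero_iff_forall_zero.mp ModularForm.levelOne_weight_two_rank_zero F
  rw [this]
  rfl

theorem levelOne_zero {r : ℍ → ℂ} (hr : IsMF 𝒮ℒ 0 r) : ∃ c : ℂ, r = fun _ => c := by
  obtain ⟨F, rfl⟩ := hr
  obtain ⟨c, hc⟩ := ModularFormClass.levelOne_weight_zero_const F
  exact ⟨c, hc⟩

theorem coeff_zero_E4 : (qExpansion 1 (E₄ : ℍ → ℂ)).coeff 0 = 1 :=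
  E_qExpansion_coeff_zero (by norm_num) ⟨2, rfl⟩

theorem coeff_zero_E6 : (qExpansion 1 (E₆ : ℍ → ℂ)).coeff 0 = 1 :=
  E_qExpansion_coeff_zero (by norm_num) ⟨3, rfl⟩

/-- The monomial `E₄^x E₆^y` is a level one form of weight `4x + 6y` with constant term `1`. -/
theorem isMF_monomial (x y : ℕ) :
    IsMF 𝒮ℒ (4 * x + 6 * y) ((E₄ : ℍ → ℂ) ^ x * (E₆ : ℍ → ℂ) ^ y) := by
  have h1 := (isMF_E4.pow x).mul (isMF_E6.pow y)
  exact h1.congr_weight (by ring)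

theorem coeff_zero_monomial (x y : ℕ) :
    (qExpansion 1 ((E₄ : ℍ → ℂ) ^ x * (E₆ : ℍ → ℂ) ^ y)).coeff 0 = 1 := by
  have n4 : Nice (E₄ : ℍ → ℂ) := isMF_E4.nice_levelOne
  have n6 : Nice (E₆ : ℍ → ℂ) := isMF_E6.nice_levelOne
  rw [qExp_mul (n4.pow x) (n6.pow y), qExp_pow n4, qExp_pow n6]
  simp only [PowerSeries.coeff_zero_eq_constantCoeff, map_mul, map_pow]
  have h4 := coeff_zero_E4
  have h6 := coeff_zero_E6
  simp only [PowerSeries.coeff_zero_eq_constantCoeff] at h4 h6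
  rw [h4, h6]
  simp

/-- A level one form with vanishing constant term is `Δ` times a form of weight `a - 12`. -/
theorem exists_eq_Delta_mul {a : ℤ} {g : ℍ → ℂ} (hg : IsMF 𝒮ℒ a g)
    (h0 : (qExpansion 1 g).coeff 0 = 0) : ∃ r', IsMF 𝒮ℒ (a - 12) r' ∧ g = Δ * r' := by
  obtain ⟨G, rfl⟩ := hg.isCF_of_coeff_zero h0
  refine ⟨CuspForm.discriminantEquiv G, ⟨_, rfl⟩, ?_⟩
  exact (ModularForm.discriminant_mul_discriminantEquiv G).symm

theorem Delta_eq : (Δ : ℍ → ℂ) = (1 / 1728 : ℂ) • ((E₄ : ℍ → ℂ) ^ 3 - (E₆ : ℍ → ℂ) ^ 2) := by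
  funext z
  simp only [Pi.smul_apply, Pi.sub_apply, Pi.pow_apply, smul_eq_mul]
  rw [ModularForm.discriminant_eq_E₄_cube_sub_E₆_sq z]
  ring

/-- Every level one form of positive weight lies in the ideal generated by `E₄` and `E₆`. -/
theorem levelOne_pos_decomp {a : ℤ} (ha : 0 < a) {r : ℍ → ℂ} (hr : IsMF 𝒮ℒ a r) :
    ∃ s t : ℍ → ℂ, IsMF 𝒮ℒ (a - 4) s ∧ IsMF 𝒮ℒ (a - 6) t ∧
      r = (E₄ : ℍ → ℂ) * s + (E₆ : ℍ → ℂ) * t := by
  rcases Int.even_or_odd a with hev | hodd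
  swap
  · refine ⟨0, 0, IsMF.zero, IsMF.zero, ?_⟩
    rw [levelOne_odd hodd hr]; simp
  by_cases h2 : a = 2
  · subst h2
    refine ⟨0, 0, IsMF.zero, IsMF.zero, ?_⟩
    rw [levelOne_two hr]; simp
  -- `a ≥ 4` even
  have ha4 : 4 ≤ a := by
    obtain ⟨m, hm⟩ := hev
    omega
  -- choose the monomial
  obtain ⟨x, y, hxy, hne⟩ : ∃ x y : ℕ, (4 * (x : ℤ) + 6 * y = a) ∧ (x ≠ 0 ∨ y ≠ 0) := by
    obtain ⟨m, hm⟩ := hev
    rcases Int.even_or_odd m with hm2 | hm2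
    · obtain ⟨t, ht⟩ := hm2
      refine ⟨t.toNat, 0, ?_, Or.inl ?_⟩
      · have : 0 ≤ t := by omega
        rw [Int.toNat_of_nonneg this]; push_cast; omega
      · intro h0
        have : t ≤ 0 := Int.toNat_eq_zero.mp h0
        omega
    · obtain ⟨t, ht⟩ := hm2
      refine ⟨(t - 1).toNat, 1, ?_, Or.inr one_ne_zero⟩
      have : 0 ≤ t - 1 := by omega
      rw [Int.toNat_of_nonneg this]; push_cast; omega
  set mono : ℍ → ℂ := (E₄ : ℍ → ℂ) ^ x * (E₆ : ℍ → ℂ) ^ y with hmono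
  have hmonoMF : IsMF 𝒮ℒ a mono := (isMF_monomial x y).congr_weight hxy
  set a0 : ℂ := (qExpansion 1 r).coeff 0 with ha0
  have hg : IsMF 𝒮ℒ a (r - a0 • mono) := hr.sub (hmonoMF.smul a0)
  have hg0 : (qExpansion 1 (r - a0 • mono)).coeff 0 = 0 := by
    rw [qExp_sub hr.nice_levelOne (hmonoMF.nice_levelOne.smul a0),
      qExp_smul a0 hmonoMF.nice_levelOne]
    simp only [map_sub, PowerSeries.coeff_smul, smul_eq_mul]
    rw [hmono, coeff_zero_monomial x y]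
    simp [ha0]
  obtain ⟨r', hr', hgr'⟩ := exists_eq_Delta_mul hg hg0
  have hr_eq : r = a0 • mono + Δ * r' := by
    rw [← hgr']; ring
  -- decompose the monomial
  obtain ⟨s0, t0, hs0, ht0, hmono_eq⟩ : ∃ s0 t0 : ℍ → ℂ, IsMF 𝒮ℒ (a - 4) s0 ∧
      IsMF 𝒮ℒ (a - 6) t0 ∧ mono = (E₄ : ℍ → ℂ) * s0 + (E₆ : ℍ → ℂ) * t0 := by
    rcases Nat.eq_zero_or_pos x with hx | hx
    · -- `x = 0`, so `y ≠ 0`
      have hy : y ≠ 0 := by
        rcases hne with h | h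
        · exact absurd hx h
        · exact h
      obtain ⟨y', rfl⟩ := Nat.exists_eq_succ_of_ne_zero hy
      refine ⟨0, (E₆ : ℍ → ℂ) ^ y', IsMF.zero, ?_, ?_⟩
      · have := isMF_monomial 0 y'
        simp only [pow_zero, one_mul] at this
        refine this.congr_weight ?_
        subst hx
        push_cast at hxy ⊢
        omega
      · rw [hmono, hx, pow_zero, one_mul, pow_succ]
        ring
    · obtain ⟨x', rfl⟩ := Nat.exists_eq_succ_of_ne_zero hx.ne'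
      refine ⟨(E₄ : ℍ → ℂ) ^ x' * (E₆ : ℍ → ℂ) ^ y, 0, ?_, IsMF.zero, ?_⟩
      · refine (isMF_monomial x' y).congr_weight ?_
        push_cast at hxy ⊢
        omega
      · rw [hmono, pow_succ]
        ring
  have hE4sq : IsMF 𝒮ℒ 8 ((E₄ : ℍ → ℂ) ^ 2) := (isMF_E4.pow 2).congr_weight (by norm_num)
  refine ⟨a0 • s0 + (1 / 1728 : ℂ) • ((E₄ : ℍ → ℂ) ^ 2 * r'),
    a0 • t0 - (1 / 1728 : ℂ) • ((E₆ : ℍ → ℂ) * r'), ?_, ?_, ?_⟩
  · refine (hs0.smul a0).add (IsMF.smul _ ?_)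
    exact (hE4sq.mul hr').congr_weight (by ring)
  · refine (ht0.smul a0).sub (IsMF.smul _ ?_)
    exact (isMF_E6.mul hr').congr_weight (by ring)
  · rw [hr_eq, hmono_eq, Delta_eq]
    funext z
    simp only [Pi.add_apply, Pi.mul_apply, Pi.smul_apply, Pi.sub_apply, Pi.pow_apply,
      smul_eq_mul]
    ring

/-- Every level one form is `E₄ * s + c • E₆ ^ n`. -/
theorem levelOne_decomp : ∀ (a : ℤ) (r : ℍ → ℂ), IsMF 𝒮ℒ a r →
    ∃ s, IsMF 𝒮ℒ (a - 4) s ∧ ∃ (c : ℂ) (n : ℕ), (c ≠ 0 → (6 : ℤ) * n = a) ∧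
      r = (E₄ : ℍ → ℂ) * s + c • (E₆ : ℍ → ℂ) ^ n := by
  have key : ∀ N : ℕ, ∀ a : ℤ, a < N → ∀ r : ℍ → ℂ, IsMF 𝒮ℒ a r →
      ∃ s, IsMF 𝒮ℒ (a - 4) s ∧ ∃ (c : ℂ) (n : ℕ), (c ≠ 0 → (6 : ℤ) * n = a) ∧
        r = (E₄ : ℍ → ℂ) * s + c • (E₆ : ℍ → ℂ) ^ n := by
    intro N
    induction N with
    | zero =>
      intro a ha r hr
      refine ⟨0, IsMF.zero, 0, 0, fun h => absurd rfl h, ?_⟩
      rw [levelOne_neg (by simpa using ha) hr]; simp
    | succ N ih =>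
      intro a ha r hr
      rcases lt_trichotomy a 0 with hneg | hzero | hpos
      · refine ⟨0, IsMF.zero, 0, 0, fun h => absurd rfl h, ?_⟩
        rw [levelOne_neg hneg hr]; simp
      · subst hzero
        obtain ⟨c, hc⟩ := levelOne_zero hr
        refine ⟨0, IsMF.zero, c, 0, fun _ => by simp, ?_⟩
        rw [hc]; funext z; simp
      · obtain ⟨s, t, hs, ht, hrst⟩ := levelOne_pos_decomp hpos hr
        obtain ⟨s', hs', c, n, hcn, hts'⟩ := ih (a - 6) (by push_cast at ha; omega) t ht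
        refine ⟨s + (E₆ : ℍ → ℂ) * s', hs.add ?_, c, n + 1, ?_, ?_⟩
        · exact (isMF_E6.mul hs').congr_weight (by ring)
        · intro hc
          have := hcn hc
          push_cast; omega
        · rw [hrst, hts', pow_succ]
          funext z
          simp only [Pi.add_apply, Pi.mul_apply, Pi.smul_apply, Pi.pow_apply, smul_eq_mul]
          ring
  intro a r hr
  exact key (a + 1).toNat a (by
    rcases le_or_gt 0 (a + 1) with h | h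
    · rw [Int.toNat_of_nonneg h]; omega
    · rw [Int.toNat_of_nonpos h.le]; push_cast; omega) r hr

end Fermat.Agent.S20FM
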