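import Fermat.Agent.S20FM.Basis

set_option autoImplicit false

open UpperHalfPlane ModularForm EisensteinSeries Filter Topology
open scoped MatrixGroups ModularForm Manifold

namespace Fermat.Agent.S20FM

open Fermat.Agent.S23 CongruenceSubgroup GradedAlg

variable {N : ℕ} [NeZero N]

theorem neg_one_mem_G0 (N : ℕ) : (-1 : GL (Fin 2) ℝ) ∈ G0 N := by
  refine ⟨-1, ?_, by ext; simp⟩
  show (-1 : SL(2, ℤ)) ∈ Gamma0 N
  rw [Gamma0_mem]
  simp

omit [NeZero N] in
theorem G0_isMF_odd {k : ℤ} (hk : Odd k) {f : ℍ → ℂ} (hf : IsMF (G0 N) k f) : f = 0 := by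
  obtain ⟨F, rfl⟩ := hf
  rw [ModularForm.eq_zero_of_neg_one_mem (neg_one_mem_G0 N) hk F]
  rfl

instance finiteDimensional_Msub_SL (a : ℤ) : FiniteDimensional ℂ (Msub 𝒮ℒ a) := by
  unfold Msub
  infer_instance

section Family

variable {m : ℕ} {d : Fin m → ℤ} {b : Fin m → ℍ → ℂ}

theorem ne_zero_of_modW (hW : (setup N).ModW d b) (i : Fin m) : b i ≠ 0 := by
  classical
  intro h0
  have := hW (d i) (Pi.single i 1) (fun j hj => by
    by_cases hji : j = i
    · rw [hji]
    · simp [hji] at hj) (by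
    have : ∑ j, (Pi.single i (1 : ℂ) : Fin m → ℂ) j • b j = 0 := by
      rw [Finset.sum_eq_single i]
      · simp [h0]
      · intro j _ hji; simp [hji]
      · intro h; exact absurd (Finset.mem_univ i) h
    rw [this]
    exact (setup N).inW_zero _) i
  simp at this

theorem weight_nonneg_of_modW (hb : ∀ i, IsMF (G0 N) (d i) (b i)) (hW : (setup N).ModW d b)
    (i : Fin m) : 0 ≤ d i := by
  by_contra h
  exact ne_zero_of_modW hW i (G0_isMF_neg (not_le.mp h) (hb i))

theorem weight_even_of_modW (hb : ∀ i, IsMF (G0 N) (d i) (b i)) (hW : (setup N).ModW d b)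
    (i : Fin m) : Even (d i) := by
  by_contra h
  exact ne_zero_of_modW hW i (G0_isMF_odd (Int.not_even_iff_odd.mp h) (hb i))

/-- The linear map `(r_i) ↦ ∑ r_i b_i`. -/
noncomputable def combMap (hb : ∀ i, IsMF (G0 N) (d i) (b i)) (K : ℤ) :
    (∀ i, Msub 𝒮ℒ (K - d i)) →ₗ[ℂ] Msub (G0 N) K where
  toFun r := ⟨∑ i, (r i : ℍ → ℂ) * b i, by
    refine Submodule.sum_mem _ fun i _ => ?_
    have := IsMF.mul (IsMF.levelOne_to_G0 (N := N) (r i).2) (hb i)
    exact this.congr_weight (by ring)⟩
  map_add' r s := by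
    ext1
    simp only [Pi.add_apply, Submodule.coe_add, add_mul, Finset.sum_add_distrib]
  map_smul' c r := by
    ext1
    simp only [Pi.smul_apply, Submodule.coe_smul, RingHom.id_apply, smul_mul_assoc,
      Finset.smul_sum]

theorem combMap_injective (hb : ∀ i, IsMF (G0 N) (d i) (b i)) (hI : (setup N).Indep d b)
    (K : ℤ) : Function.Injective (combMap hb K) := by
  refine (injective_iff_map_eq_zero _).mpr fun r hr => ?_
  have h1 : ∑ i, (r i : ℍ → ℂ) * b i = 0 := congrArg Subtype.val hr
  have := hI K (fun i => (r i : ℍ → ℂ)) (fun i => (r i).2) h1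
  funext i
  exact Subtype.ext (this i)

theorem card_le_index_of_indep (hb : ∀ i, IsMF (G0 N) (d i) (b i))
    (hI : (setup N).Indep d b) (hnn : ∀ i, 0 ≤ d i) (hev : ∀ i, Even (d i)) :
    m ≤ (Gamma0 N).index := by
  classical
  set μ := (Gamma0 N).index with hμ
  -- `D i` bounds `d i / 12` from above
  let D : Fin m → ℕ := fun i => (d i).toNat / 12 + 1
  set C : ℕ := ∑ i, D i + 1 with hC
  by_contra hlt
  push Not at hlt
  -- choose `t` large
  set t : ℕ := C + ∑ i, (d i).toNat + 1 with ht
  have hKd : ∀ i, (0 : ℤ) ≤ 12 * (t : ℤ) - d i := by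
    intro i
    have h1 : (d i).toNat ≤ ∑ j, (d j).toNat :=
      Finset.single_le_sum (f := fun j => (d j).toNat) (fun j _ => Nat.zero_le _)
        (Finset.mem_univ i)
    have h2 : ((d i).toNat : ℤ) = d i := Int.toNat_of_nonneg (hnn i)
    have : (d i) ≤ t := by
      rw [← h2]; exact_mod_cast (by omega : (d i).toNat ≤ t)
    omega
  have hinj := combMap_injective hb hI (12 * (t : ℤ))
  have hle := LinearMap.finrank_le_finrank_of_injective hinj
  rw [Module.finrank_pi_fintype] at hle
  have hM : Module.finrank ℂ (Msub (G0 N) (12 * (t : ℤ))) ≤ t * μ + 1 := by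
    rw [finrank_Msub]
    refine (finrank_G0_le N _).trans ?_
    have : (12 * (t : ℤ) * (μ : ℤ)).toNat / 12 = t * μ := by
      have h1 : (12 * (t : ℤ) * (μ : ℤ)) = ((12 * (t * μ) : ℕ) : ℤ) := by push_cast; ring
      rw [h1, Int.toNat_natCast]
      omega
    rw [this]
  have hR : ∀ i, t - D i ≤ Module.finrank ℂ (Msub 𝒮ℒ (12 * (t : ℤ) - d i)) := by
    intro i
    rw [finrank_Msub]
    obtain ⟨a, ha⟩ : ∃ a : ℕ, (a : ℤ) = 12 * (t : ℤ) - d i :=
      ⟨(12 * (t : ℤ) - d i).toNat, Int.toNat_of_nonneg (hKd i)⟩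
    rw [← ha]
    have haev : Even a := by
      have : Even ((a : ℤ)) := by
        rw [ha]
        exact Even.sub (Even.mul_right (by decide) _) (hev i)
      exact_mod_cast this
    refine le_trans ?_ (finrank_levelOne_ge a haev)
    have h2 : ((d i).toNat : ℤ) = d i := Int.toNat_of_nonneg (hnn i)
    have ha' : a = 12 * t - (d i).toNat := by
      have : (a : ℤ) = 12 * (t : ℤ) - ((d i).toNat : ℤ) := by rw [h2]; exact ha
      omega
    simp only [D]
    omega
  have hsum : ∑ i : Fin m, (t - D i) ≤ t * μ + 1 :=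
    (Finset.sum_le_sum fun i _ => hR i).trans (hle.trans hM)
  have hsum2 : m * t ≤ ∑ i : Fin m, (t - D i) + ∑ i, D i := by
    rw [← Finset.sum_add_distrib]
    calc m * t = ∑ _i : Fin m, t := by simp
      _ ≤ ∑ i : Fin m, (t - D i + D i) := Finset.sum_le_sum fun i _ => by omega
  have h3 : m * t ≤ t * μ + C := by omega
  have h4 : (μ + 1) * t ≤ m * t := Nat.mul_le_mul_right t hlt
  have h5 : C < t := by omega
  nlinarith

theorem card_le_index (hb : ∀ i, IsMF (G0 N) (d i) (b i)) (hW : (setup N).ModW d b) :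
    m ≤ (Gamma0 N).index :=
  card_le_index_of_indep hb ((setup N).indep_of_modW hb hW) (weight_nonneg_of_modW hb hW)
    (weight_even_of_modW hb hW)

end Family

/-- **Free module theorem**: the graded module of modular forms on `Γ₀(N)` is free over the
graded ring of level one modular forms, with a homogeneous basis. -/
theorem exists_freeBasis (N : ℕ) [NeZero N] : Nonempty (FreeBasis (G0 N)) := by
  obtain ⟨m, d, b, hb, hI, hG⟩ := (setup N).exists_basis (Gamma0 N).index
    (fun m d b hb hW => card_le_index hb hW)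
  exact ⟨{ m := m, d := d, b := b, isMF := hb
           gen := fun k f hf => hG k f hf
           indep := fun k r hr h => hI k r hr h }⟩

end Fermat.Agent.S20FM
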