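import Fermat.Agent.S23.Defs
import Mathlib.NumberTheory.ModularForms.EisensteinSeries.Basic
import Mathlib.NumberTheory.ModularForms.Discriminant

set_option autoImplicit false

open UpperHalfPlane ModularForm
open scoped MatrixGroups ModularForm Manifold

namespace Fermat.Agent.S20FM

open Fermat.Agent.S23

/-- A homogeneous basis of the graded module of modular forms of level `Γ` over the graded
ring of level one modular forms. -/
structure FreeBasis (Γ : Subgroup (GL (Fin 2) ℝ)) where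
  m : ℕ
  d : Fin m → ℤ
  b : Fin m → ℍ → ℂ
  isMF : ∀ i, IsMF Γ (d i) (b i)
  gen : ∀ (k : ℤ) (f : ℍ → ℂ), IsMF Γ k f →
    ∃ r : Fin m → ℍ → ℂ, (∀ i, IsMF 𝒮ℒ (k - d i) (r i)) ∧ f = ∑ i, r i * b i
  indep : ∀ (k : ℤ) (r : Fin m → ℍ → ℂ), (∀ i, IsMF 𝒮ℒ (k - d i) (r i)) →
    ∑ i, r i * b i = 0 → ∀ i, r i = 0

/-- The vector of all `SL(2, ℤ)`-conjugates of `f` (weight `k`) evaluated at `τ`. -/
noncomputable def vec (k : ℤ) (f : ℍ → ℂ) (τ : ℍ) : SL(2, ℤ) → ℂ := fun γ => (f ∣[k] γ) τ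

end Fermat.Agent.S20FM
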