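/-
T20 / FM6 (helper10): the inverse of the matrix of conjugates of a pointwise basis.

Input: forms `b i` of weights `d i` on `Γ₀(N)`, `i : Fin m`, `m = [SL(2,ℤ) : Γ₀(N)]`, whose
conjugate vectors are linearly independent at every point of `ℍ` (FM3), together with the growth
bound of FM4.  Output: `d i ≤ 10` for all `i`, and `#{i | d i = 10} ≤ dim S₂(Γ₀(N))`.
-/
import Mathlib
import Fermat.Agent.S20.Defs
import Fermat.Agent.S20FM.Defs

set_option autoImplicit false

open UpperHalfPlane ModularForm MatrixGroups Filter Topology CongruenceSubgroup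
open scoped Manifold

namespace Fermat.Agent.S20FM.Inverse

open Fermat.Agent.S23 (G0 IsMF IsCF)
open Fermat.Agent.S20 (X cj cj_mk cj_apply_smul mdiff_cj)

local notation "Δ" => ModularForm.discriminant

/-! ### Generalities on matrices of holomorphic functions -/

theorem mdiff_det {n : Type} [Fintype n] [DecidableEq n] (B : ℍ → Matrix n n ℂ)
    (hB : ∀ i j, MDiff (fun τ => B τ i j)) : MDiff (fun τ => (B τ).det) := by
  have h : (fun τ => (B τ).det) = ∑ σ : Equiv.Perm n,
      (fun _ : ℍ => (((Equiv.Perm.sign σ : ℤ)) : ℂ)) * ∏ i, (fun τ => B τ (σ i) i) := by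
    ext τ
    simp only [Matrix.det_apply', Finset.sum_apply, Pi.mul_apply, Finset.prod_apply]
  rw [h]
  apply MDifferentiable.sum
  intro σ _
  apply MDifferentiable.mul mdifferentiable_const
  apply MDifferentiable.prod
  intro i _
  exact hB _ _

theorem mdiff_inv_apply {n : Type} [Fintype n] [DecidableEq n] (B : ℍ → Matrix n n ℂ)
    (hB : ∀ i j, MDiff (fun τ => B τ i j)) (hdet : ∀ τ, (B τ).det ≠ 0) (i j : n) :
    MDiff (fun τ => (B τ)⁻¹ i j) := by
  have h : (fun τ => (B τ)⁻¹ i j)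
      = (fun τ => ((B τ).det)⁻¹) * (fun τ => ((B τ).updateRow j (Pi.single i 1)).det) := by
    ext τ
    rw [Matrix.inv_def, Ring.inverse_eq_inv', Matrix.smul_apply, Matrix.adjugate_apply]
    rfl
  rw [h]
  refine MDifferentiable.mul ?_ ?_
  · have h1 : (fun τ => ((B τ).det)⁻¹) = (1 : ℍ → ℂ) / (fun τ => (B τ).det) := by
      ext τ; simp
    rw [h1]
    exact (mdifferentiable_const (c := (1 : ℂ))).div (mdiff_det B hB) hdet
  · refine mdiff_det _ fun r c => ?_
    by_cases hr : r = j
    · subst hr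
      simp only [Matrix.updateRow_self]
      exact mdifferentiable_const
    · simp only [Matrix.updateRow_ne hr]
      exact hB r c

/-! ### The matrix of conjugates and its inverse -/

set_option linter.unusedSectionVars false

section Main

variable {N : ℕ} [NeZero N] {m : ℕ} (d : Fin m → ℤ) (b : Fin m → ℍ → ℂ) (e : Fin m ≃ X N)

/-- The matrix of conjugates: rows = forms, columns = cosets (via `e`). -/
noncomputable def conjA (τ : ℍ) : Matrix (Fin m) (Fin m) ℂ :=
  Matrix.of fun i j => cj (d i) (b i) (e j) τ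

/-- The permutation of the column index induced by `γ⁻¹` acting on cosets. -/
noncomputable def colPerm (γ : SL(2, ℤ)) : Equiv.Perm (Fin m) :=
  e.trans ((MulAction.toPerm γ⁻¹ : Equiv.Perm (X N)).trans e.symm)

theorem colPerm_apply (γ : SL(2, ℤ)) (j : Fin m) : e (colPerm e γ j) = γ⁻¹ • e j := by
  simp [colPerm]

variable {d b}

theorem invariant_of_isMF (hb : ∀ i, IsMF (G0 N) (d i) (b i)) (i : Fin m) :
    ∀ γ ∈ Gamma0 N, b i ∣[d i] γ = b i :=
  fun _ hγ => Fermat.Agent.S20.IsMF.slash_eq_SL (hb i) hγ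

theorem conjA_smul (hb : ∀ i, IsMF (G0 N) (d i) (b i)) (γ : SL(2, ℤ)) (τ : ℍ) (i j : Fin m) :
    conjA d b e (γ • τ) i j = denom γ τ ^ (d i) * conjA d b e τ i (colPerm e γ j) := by
  simp only [conjA, Matrix.of_apply, colPerm_apply]
  exact cj_apply_smul (invariant_of_isMF hb i) (e j) γ τ

theorem mdiff_conjA (hb : ∀ i, IsMF (G0 N) (d i) (b i)) (i j : Fin m) :
    MDiff (fun τ => conjA d b e τ i j) := by
  simp only [conjA, Matrix.of_apply]
  exact mdiff_cj (hb i).mdiff (e j)

/-- FM3 gives invertibility of the matrix of conjugates at every point. -/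
theorem det_conjA_ne_zero (hb : ∀ i, IsMF (G0 N) (d i) (b i))
    (hPW : ∀ τ : ℍ, LinearIndependent ℂ (fun i => vec (d i) (b i) τ)) (τ : ℍ) :
    (conjA d b e τ).det ≠ 0 := by
  intro hdet
  obtain ⟨v, hv, hvA⟩ := Matrix.exists_vecMul_eq_zero_iff.mpr hdet
  apply hv
  have hli := Fintype.linearIndependent_iff.mp (hPW τ) v
  funext i
  refine hli ?_ i
  funext γ
  have hx : ∃ j, e j = ((γ⁻¹ : SL(2, ℤ)) : X N) := ⟨e.symm _, e.apply_symm_apply _⟩
  obtain ⟨j, hj⟩ := hx
  have h1 := congrFun hvA j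
  simp only [Matrix.vecMul, dotProduct, conjA, Matrix.of_apply, Pi.zero_apply] at h1
  simp only [Finset.sum_apply, Pi.smul_apply, smul_eq_mul, Pi.zero_apply, vec]
  rw [← h1]
  refine Finset.sum_congr rfl fun i _ => ?_
  rw [hj, cj_mk (invariant_of_isMF hb i), inv_inv]

variable (d b)

/-- The inverse matrix `Ψ = A⁻¹`: rows = cosets (via `e`), columns = forms. -/
noncomputable def conjInv (τ : ℍ) : Matrix (Fin m) (Fin m) ℂ := (conjA d b e τ)⁻¹

variable {d b}

theorem conjA_mul_conjInv (hb : ∀ i, IsMF (G0 N) (d i) (b i))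
    (hPW : ∀ τ : ℍ, LinearIndependent ℂ (fun i => vec (d i) (b i) τ)) (τ : ℍ) :
    conjA d b e τ * conjInv d b e τ = 1 :=
  Matrix.mul_nonsing_inv _ (isUnit_iff_ne_zero.mpr (det_conjA_ne_zero e hb hPW τ))

theorem conjInv_mul_conjA (hb : ∀ i, IsMF (G0 N) (d i) (b i))
    (hPW : ∀ τ : ℍ, LinearIndependent ℂ (fun i => vec (d i) (b i) τ)) (τ : ℍ) :
    conjInv d b e τ * conjA d b e τ = 1 :=
  Matrix.nonsing_inv_mul _ (isUnit_iff_ne_zero.mpr (det_conjA_ne_zero e hb hPW τ))

theorem mdiff_conjInv (hb : ∀ i, IsMF (G0 N) (d i) (b i))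
    (hPW : ∀ τ : ℍ, LinearIndependent ℂ (fun i => vec (d i) (b i) τ)) (j i : Fin m) :
    MDiff (fun τ => conjInv d b e τ j i) :=
  mdiff_inv_apply (conjA d b e) (mdiff_conjA e hb) (det_conjA_ne_zero e hb hPW) j i

/-- Transformation law of the inverse matrix. -/
theorem conjInv_smul (hb : ∀ i, IsMF (G0 N) (d i) (b i))
    (hPW : ∀ τ : ℍ, LinearIndependent ℂ (fun i => vec (d i) (b i) τ))
    (γ : SL(2, ℤ)) (τ : ℍ) (j i : Fin m) :
    conjInv d b e (γ • τ) j i = conjInv d b e τ (colPerm e γ j) i * denom γ τ ^ (-(d i)) := by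
  have hd : denom γ τ ≠ 0 := denom_ne_zero γ τ
  -- candidate inverse
  let B : Matrix (Fin m) (Fin m) ℂ :=
    Matrix.of fun j i => conjInv d b e τ (colPerm e γ j) i * denom γ τ ^ (-(d i))
  have hB : conjA d b e (γ • τ) * B = 1 := by
    ext i i'
    simp only [Matrix.mul_apply, B, Matrix.of_apply]
    have h1 : ∀ j, conjA d b e (γ • τ) i j
          * (conjInv d b e τ (colPerm e γ j) i' * denom γ τ ^ (-(d i')))
        = denom γ τ ^ (d i) * denom γ τ ^ (-(d i'))
          * (conjA d b e τ i (colPerm e γ j) * conjInv d b e τ (colPerm e γ j) i') := by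
      intro j
      rw [conjA_smul e hb]
      ring
    simp_rw [h1]
    rw [← Finset.mul_sum, Equiv.sum_comp (colPerm e γ)
      (fun j' => conjA d b e τ i j' * conjInv d b e τ j' i')]
    have h2 := congrFun (congrFun (conjA_mul_conjInv e hb hPW τ) i) i'
    simp only [Matrix.mul_apply] at h2
    rw [h2]
    by_cases hii : i = i'
    · subst hii
      rw [← zpow_add₀ hd]
      simp
    · simp [Matrix.one_apply_ne hii]
  have := Matrix.inv_eq_right_inv hB
  have h3 : conjInv d b e (γ • τ) = B := this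
  rw [h3]
  rfl

/-! ### Growth -/

variable (N d b)

/-- The output of FM4: `‖Φ(τ)⁻¹‖ = O(|q|^{-(N-1)/N})`, in lower-bound form. -/
def GrowthBound : Prop :=
  ∃ A C : ℝ, 0 < C ∧ ∀ τ : ℍ, A ≤ τ.im → ∀ c : Fin m → ℂ,
    (∑ i, ‖c i‖) ≤ C * Real.exp (2 * Real.pi * τ.im * (1 - 1 / N)) *
      ∑ x : X N, ‖∑ i, c i * ((b i) ∣[d i] (Quotient.out x)⁻¹) τ‖

variable {N d b}

theorem norm_conjInv_le (hb : ∀ i, IsMF (G0 N) (d i) (b i))
    (hPW : ∀ τ : ℍ, LinearIndependent ℂ (fun i => vec (d i) (b i) τ))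
    {A C : ℝ} (hAC : ∀ τ : ℍ, A ≤ τ.im → ∀ c : Fin m → ℂ,
      (∑ i, ‖c i‖) ≤ C * Real.exp (2 * Real.pi * τ.im * (1 - 1 / N)) *
        ∑ x : X N, ‖∑ i, c i * ((b i) ∣[d i] (Quotient.out x)⁻¹) τ‖)
    (τ : ℍ) (hτ : A ≤ τ.im) (j i : Fin m) :
    ‖conjInv d b e τ j i‖ ≤ C * Real.exp (2 * Real.pi * τ.im * (1 - 1 / N)) := by
  have h1 := hAC τ hτ (fun i => conjInv d b e τ j i)
  have h2 : ∑ x : X N, ‖∑ i, conjInv d b e τ j i * ((b i) ∣[d i] (Quotient.out x)⁻¹) τ‖ = 1 := by
    rw [← Equiv.sum_comp e]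
    have h3 : ∀ j', (∑ i, conjInv d b e τ j i * ((b i) ∣[d i] (Quotient.out (e j'))⁻¹) τ)
        = (1 : Matrix (Fin m) (Fin m) ℂ) j j' := by
      intro j'
      rw [← conjInv_mul_conjA e hb hPW τ, Matrix.mul_apply]
      rfl
    simp_rw [h3]
    rw [Finset.sum_eq_single j]
    · simp
    · intro j' _ hj'
      simp [Matrix.one_apply_ne hj'.symm]
    · intro h; exact absurd (Finset.mem_univ j) h
  rw [h2, mul_one] at h1
  refine le_trans ?_ h1
  exact Finset.single_le_sum (f := fun i => ‖conjInv d b e τ j i‖)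
    (fun i _ => norm_nonneg _) (Finset.mem_univ i)

theorem tendsto_discriminant_mul_conjInv (hb : ∀ i, IsMF (G0 N) (d i) (b i))
    (hPW : ∀ τ : ℍ, LinearIndependent ℂ (fun i => vec (d i) (b i) τ))
    (hgrowth : GrowthBound N d b) (j i : Fin m) :
    Tendsto (fun τ : ℍ => Δ τ * conjInv d b e τ j i) atImInfty (𝓝 0) := by
  obtain ⟨A, C, hC, hAC⟩ := hgrowth
  have hΔ := CuspFormClass.exp_decay_atImInfty CuspForm.discriminant one_pos
    one_mem_strictPeriods_SL
  obtain ⟨C₂, hC₂⟩ := hΔ.bound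
  have hNpos : (0 : ℝ) < N := by exact_mod_cast Nat.pos_of_ne_zero (NeZero.ne N)
  have hlim : Tendsto (fun τ : ℍ => C₂ * C * Real.exp (-(2 * Real.pi / N) * τ.im)) atImInfty
      (𝓝 0) := by
    have h1 : Tendsto (fun τ : ℍ => τ.im) atImInfty atTop := tendsto_comap
    have h2 : Tendsto (fun y : ℝ => Real.exp (-(2 * Real.pi / N) * y)) atTop (𝓝 0) := by
      have hpos : 0 < 2 * Real.pi / N := by positivity
      have := (Real.tendsto_exp_neg_atTop_nhds_zero).comp
        (tendsto_id.const_mul_atTop hpos)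
      refine this.congr (fun y => ?_)
      simp [Function.comp]
    have h3 := (h2.comp h1).const_mul (C₂ * C)
    simpa using h3
  refine squeeze_zero_norm' ?_ hlim
  have hev : ∀ᶠ τ : ℍ in atImInfty, A ≤ τ.im :=
    (tendsto_comap (f := UpperHalfPlane.im) (x := atTop)).eventually (eventually_ge_atTop A)
  filter_upwards [hC₂, hev] with τ h1 h2
  have h3 := norm_conjInv_le e hb hPW hAC τ h2 j i
  rw [norm_mul]
  have h4 : ‖Δ τ‖ ≤ C₂ * Real.exp (-2 * Real.pi * τ.im) := by
    have := h1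
    simp only [CuspForm.coe_discriminant, div_one, Real.norm_eq_abs, abs_of_pos (Real.exp_pos _)]
      at this
    exact this
  have hC₂nn : 0 ≤ C₂ * Real.exp (-2 * Real.pi * τ.im) := le_trans (norm_nonneg _) h4
  calc ‖Δ τ‖ * ‖conjInv d b e τ j i‖
      ≤ (C₂ * Real.exp (-2 * Real.pi * τ.im))
          * (C * Real.exp (2 * Real.pi * τ.im * (1 - 1 / N))) :=
        mul_le_mul h4 h3 (norm_nonneg _) hC₂nn
    _ = C₂ * C * (Real.exp (-2 * Real.pi * τ.im) * Real.exp (2 * Real.pi * τ.im * (1 - 1 / N))) := by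
        ring
    _ = C₂ * C * Real.exp (-(2 * Real.pi / N) * τ.im) := by
        rw [← Real.exp_add]
        congr 2
        field_simp
        ring

/-! ### The rows of the inverse matrix as cusp forms -/

/-- Constructor for `IsCF (G0 N) k f`. -/
theorem isCF_mk {k : ℤ} {f : ℍ → ℂ} (hf : MDiff f)
    (hinv : ∀ γ ∈ Gamma0 N, f ∣[k] γ = f)
    (hzero : ∀ δ : SL(2, ℤ), IsZeroAtImInfty (f ∣[k] δ)) : IsCF (G0 N) k f := by
  refine ⟨{ toFun := f
            slash_action_eq' := ?_
            holo' := hf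
            zero_at_cusps' := fun {cusp} hcusp => ?_ }, rfl⟩
  · rintro γ ⟨δ, hδ, rfl⟩
    exact hinv δ hδ
  · have hc' := (Subgroup.IsArithmetic.isCusp_iff_isCusp_SL2Z (G0 N)).mp hcusp
    rw [OnePoint.isZeroAt_iff_forall_SL2Z hc']
    exact fun δ _ => hzero δ

variable (d b)

/-- The index of the trivial coset. -/
noncomputable def j0 : Fin m := e.symm (((1 : SL(2, ℤ)) : SL(2, ℤ)) : X N)

/-- `Δ` times the entry of the inverse matrix in the row of the trivial coset. -/
noncomputable def rowFun (i : Fin m) : ℍ → ℂ := fun τ => Δ τ * conjInv d b e τ (j0 e) i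

variable {d b}

theorem colPerm_j0_of_mem {γ : SL(2, ℤ)} (hγ : γ ∈ Gamma0 N) : colPerm e γ (j0 e) = j0 e := by
  apply e.injective
  rw [colPerm_apply, j0, Equiv.apply_symm_apply]
  show (((γ⁻¹ * 1 : SL(2, ℤ)) : SL(2, ℤ)) : X N) = ((1 : SL(2, ℤ)) : X N)
  rw [QuotientGroup.eq]
  simpa using hγ

theorem exists_colPerm_j0_eq (j : Fin m) : ∃ γ : SL(2, ℤ), colPerm e γ (j0 e) = j := by
  refine ⟨(Quotient.out (e j))⁻¹, ?_⟩
  apply e.injective
  rw [colPerm_apply, j0, Equiv.apply_symm_apply, inv_inv]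
  show (((Quotient.out (e j) * 1 : SL(2, ℤ)) : SL(2, ℤ)) : X N) = e j
  rw [mul_one]
  exact QuotientGroup.out_eq' (e j)

theorem rowFun_slash (hb : ∀ i, IsMF (G0 N) (d i) (b i))
    (hPW : ∀ τ : ℍ, LinearIndependent ℂ (fun i => vec (d i) (b i) τ))
    (i : Fin m) (γ : SL(2, ℤ)) :
    rowFun d b e i ∣[12 - d i] γ = fun τ => Δ τ * conjInv d b e τ (colPerm e γ (j0 e)) i := by
  funext τ
  have hd : denom γ τ ≠ 0 := denom_ne_zero γ τ
  rw [SL_slash_apply]
  unfold rowFun
  rw [Fermat.Agent.S20.discriminant_smul', conjInv_smul e hb hPW]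
  have h1 : denom γ τ ^ (12 : ℤ) * denom γ τ ^ (-(d i)) * denom γ τ ^ (-(12 - d i)) = 1 := by
    rw [← zpow_add₀ hd, ← zpow_add₀ hd]
    have : (12 : ℤ) + -(d i) + -(12 - d i) = 0 := by ring
    rw [this, zpow_zero]
  calc denom γ τ ^ (12 : ℤ) * Δ τ
        * (conjInv d b e τ (colPerm e γ (j0 e)) i * denom γ τ ^ (-(d i)))
        * denom γ τ ^ (-(12 - d i))
      = Δ τ * conjInv d b e τ (colPerm e γ (j0 e)) i
        * (denom γ τ ^ (12 : ℤ) * denom γ τ ^ (-(d i)) * denom γ τ ^ (-(12 - d i))) := by ring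
    _ = _ := by rw [h1, mul_one]

theorem mdiff_rowFun (hb : ∀ i, IsMF (G0 N) (d i) (b i))
    (hPW : ∀ τ : ℍ, LinearIndependent ℂ (fun i => vec (d i) (b i) τ)) (i : Fin m) :
    MDiff (rowFun d b e i) :=
  CuspForm.discriminant.holo'.mul (mdiff_conjInv e hb hPW (j0 e) i)

/-- Each row function is a cusp form of weight `12 - d i` on `Γ₀(N)`. -/
theorem isCF_rowFun (hb : ∀ i, IsMF (G0 N) (d i) (b i))
    (hPW : ∀ τ : ℍ, LinearIndependent ℂ (fun i => vec (d i) (b i) τ))
    (hgrowth : GrowthBound N d b) (i : Fin m) : IsCF (G0 N) (12 - d i) (rowFun d b e i) := by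
  refine isCF_mk (mdiff_rowFun e hb hPW i) (fun γ hγ => ?_) (fun δ => ?_)
  · rw [rowFun_slash e hb hPW, colPerm_j0_of_mem e hγ]
    rfl
  · rw [rowFun_slash e hb hPW]
    exact tendsto_discriminant_mul_conjInv e hb hPW hgrowth _ i

/-- If a row function vanishes identically, the inverse matrix has a zero column: impossible. -/
theorem rowFun_ne_zero (hb : ∀ i, IsMF (G0 N) (d i) (b i))
    (hPW : ∀ τ : ℍ, LinearIndependent ℂ (fun i => vec (d i) (b i) τ)) (i : Fin m) :
    rowFun d b e i ≠ 0 := by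
  intro h0
  have hcol : ∀ j, conjInv d b e UpperHalfPlane.I j i = 0 := by
    intro j
    obtain ⟨γ, hγ⟩ := exists_colPerm_j0_eq e j
    have h1 := congrFun (rowFun_slash e hb hPW i γ) UpperHalfPlane.I
    rw [h0, SlashAction.zero_slash, hγ] at h1
    have h2 : Δ UpperHalfPlane.I ≠ 0 := discriminant_ne_zero _
    simp only [Pi.zero_apply] at h1
    exact (mul_eq_zero.mp h1.symm).resolve_left h2
  have hdet : (conjInv d b e UpperHalfPlane.I).det = 0 :=
    Matrix.det_eq_zero_of_column_eq_zero i hcol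
  have h3 := congrArg Matrix.det (conjInv_mul_conjA e hb hPW UpperHalfPlane.I)
  rw [Matrix.det_mul, hdet, zero_mul, Matrix.det_one] at h3
  exact zero_ne_one h3

include e in
/-- **FM6, first half**: all generator weights are at most `10`. -/
theorem weight_le_ten_aux (hb : ∀ i, IsMF (G0 N) (d i) (b i))
    (hPW : ∀ τ : ℍ, LinearIndependent ℂ (fun i => vec (d i) (b i) τ))
    (heven : ∀ i, Even (d i)) (hgrowth : GrowthBound N d b) (i : Fin m) : d i ≤ 10 := by
  by_contra hlt
  push Not at hlt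
  have hcf := isCF_rowFun e hb hPW hgrowth i
  apply rowFun_ne_zero e hb hPW i
  obtain ⟨κ, hκ⟩ := heven i
  have hw : 12 - d i ≤ 0 := by omega
  rcases hw.lt_or_eq with hneg | hzero
  · obtain ⟨F, hF⟩ := hcf.isMF
    have := ModularForm.isZero_of_neg_weight hneg F
    rw [← hF, this]
    rfl
  · have hcf0 : IsCF (G0 N) 0 (rowFun d b e i) := hzero ▸ hcf
    obtain ⟨F, hF⟩ := hcf0.isMF
    obtain ⟨c, hc⟩ := ModularForm.eq_const_of_weight_zero F
    have hz : IsZeroAtImInfty (rowFun d b e i) := hcf0.isZeroAtImInfty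
    rw [← hF, hc] at hz
    have hc0 : c = 0 := tendsto_nhds_unique tendsto_const_nhds hz
    rw [← hF, hc, hc0]
    rfl

include e in
/-- **FM6, second half**: the generators of weight `10` inject into `S₂(Γ₀(N))`. -/
theorem card_weight_ten_le_aux (hb : ∀ i, IsMF (G0 N) (d i) (b i))
    (hPW : ∀ τ : ℍ, LinearIndependent ℂ (fun i => vec (d i) (b i) τ))
    (hgrowth : GrowthBound N d b) [FiniteDimensional ℂ (CuspForm (G0 N) 2)] :
    Fintype.card {i // d i = 10} ≤ Module.finrank ℂ (CuspForm (G0 N) 2) := by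
  classical
  -- the cusp forms
  have hcf : ∀ s : {i // d i = 10}, IsCF (G0 N) 2 (rowFun d b e s.1) := by
    intro s
    have h := isCF_rowFun e hb hPW hgrowth s.1
    have hw : 12 - d s.1 = 2 := by rw [s.2]; norm_num
    exact hw ▸ h
  choose G hG using hcf
  have hli : LinearIndependent ℂ G := by
    rw [Fintype.linearIndependent_iff]
    intro c hc
    -- pointwise vanishing of the combination of row functions
    have h1 : ∑ s, c s • rowFun d b e s.1 = 0 := by
      have := congrArg (fun F : CuspForm (G0 N) 2 => (F : ℍ → ℂ)) hc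
      change ((∑ s, c s • G s : CuspForm (G0 N) 2) : ℍ → ℂ) = ((0 : CuspForm (G0 N) 2) : ℍ → ℂ)
        at this
      rw [show ((0 : CuspForm (G0 N) 2) : ℍ → ℂ) = 0 from rfl] at this
      rw [← this]
      funext τ
      simp only [Finset.sum_apply, Pi.smul_apply]
      have h2 : ((∑ s, c s • G s : CuspForm (G0 N) 2) : ℍ → ℂ) τ = ∑ s, c s • (G s : ℍ → ℂ) τ := by
        rw [show ((∑ s, c s • G s : CuspForm (G0 N) 2) : ℍ → ℂ)
            = ∑ s, ((c s • G s : CuspForm (G0 N) 2) : ℍ → ℂ) from by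
          induction (Finset.univ : Finset {i // d i = 10}) using Finset.induction_on with
          | empty => simp
          | insert a t ha ih => rw [Finset.sum_insert ha, Finset.sum_insert ha, ← ih]; rfl]
        simp only [Finset.sum_apply]
        rfl
      rw [h2]
      refine Finset.sum_congr rfl fun s _ => ?_
      rw [hG s]
    -- slash by every `γ`
    have h3 : ∀ (j : Fin m) (τ : ℍ), ∑ s : {i // d i = 10}, c s * conjInv d b e τ j s.1 = 0 := by
      intro j τ
      obtain ⟨γ, hγ⟩ := exists_colPerm_j0_eq e j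
      have h4 : (∑ s, c s • rowFun d b e s.1) ∣[(2 : ℤ)] γ = 0 := by
        rw [h1, SlashAction.zero_slash]
      rw [SlashAction.sum_slash] at h4
      have h5 : ∀ s : {i // d i = 10}, (c s • rowFun d b e s.1) ∣[(2 : ℤ)] γ
          = c s • fun τ => Δ τ * conjInv d b e τ j s.1 := by
        intro s
        rw [SL_smul_slash]
        have hw : (2 : ℤ) = 12 - d s.1 := by rw [s.2]; norm_num
        rw [hw, rowFun_slash e hb hPW, hγ]
      simp_rw [h5] at h4
      have h6 := congrFun h4 τ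
      simp only [Finset.sum_apply, Pi.smul_apply, smul_eq_mul, Pi.zero_apply] at h6
      have hΔ : Δ τ ≠ 0 := discriminant_ne_zero τ
      have h7 : Δ τ * ∑ s : {i // d i = 10}, c s * conjInv d b e τ j s.1 = 0 := by
        rw [Finset.mul_sum, ← h6]
        refine Finset.sum_congr rfl fun s _ => ?_
        ring
      exact (mul_eq_zero.mp h7).resolve_left hΔ
    -- extension by zero
    let ct : Fin m → ℂ := fun i => if h : d i = 10 then c ⟨i, h⟩ else 0
    have h8 : (conjInv d b e UpperHalfPlane.I).mulVec ct = 0 := by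
      funext j
      simp only [Matrix.mulVec, dotProduct, Pi.zero_apply]
      rw [← h3 j UpperHalfPlane.I]
      calc ∑ i, conjInv d b e UpperHalfPlane.I j i * ct i
          = ∑ i ∈ Finset.univ.filter (fun i => d i = 10),
              conjInv d b e UpperHalfPlane.I j i * ct i := by
            rw [Finset.sum_filter]
            refine Finset.sum_congr rfl fun i _ => ?_
            by_cases h : d i = 10
            · simp [h]
            · simp [ct, h]
        _ = ∑ s : {i // d i = 10}, conjInv d b e UpperHalfPlane.I j s.1 * ct s.1 :=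
            Finset.sum_subtype _ (by simp) _
        _ = ∑ s : {i // d i = 10}, c s * conjInv d b e UpperHalfPlane.I j s.1 := by
            refine Finset.sum_congr rfl fun s _ => ?_
            simp only [ct, dif_pos s.2]
            ring
    have h9 : ct = 0 := by
      have := congrArg (fun v => (conjA d b e UpperHalfPlane.I).mulVec v) h8
      simp only [Matrix.mulVec_mulVec, conjA_mul_conjInv e hb hPW, Matrix.one_mulVec,
        Matrix.mulVec_zero] at this
      exact this
    intro s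
    have := congrFun h9 s.1
    simp only [ct, dif_pos s.2, Pi.zero_apply] at this
    exact this
  exact hli.fintype_card_le_finrank

end Main

end Fermat.Agent.S20FM.Inverse
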