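import Fermat.Agent.S20FM.LevelOneRing
import Mathlib.NumberTheory.ModularForms.BoundedAtCusp

set_option autoImplicit false

open UpperHalfPlane ModularForm EisensteinSeries Filter Topology
open scoped MatrixGroups ModularForm Manifold

namespace Fermat.Agent.S20FM

open Fermat.Agent.S23

local notation "Δ" => ModularForm.discriminant

/-- A level one modular form tends to the constant term of its `q`-expansion at `i∞`. -/
theorem tendsto_levelOne {a : ℤ} {P : ℍ → ℂ} (hP : IsMF 𝒮ℒ a P) :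
    Tendsto P atImInfty (𝓝 ((qExpansion 1 P).coeff 0)) := by
  obtain ⟨F, rfl⟩ := hP
  have han : AnalyticAt ℂ (cuspFunction 1 F) 0 :=
    ModularFormClass.analyticAt_cuspFunction_zero F one_pos one_mem_strictPeriods_SL
  have hval : (qExpansion 1 F).coeff 0 = cuspFunction 1 F 0 := by
    rw [qExpansion_coeff]; simp
  have hcomp : (F : ℍ → ℂ) =
      (cuspFunction 1 F) ∘ (fun τ : ℍ => Function.Periodic.qParam 1 (τ : ℂ)) := by
    funext τ
    exact (SlashInvariantFormClass.eq_cuspFunction F τ one_mem_strictPeriods_SL one_ne_zero).symm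
  rw [hval]
  refine Tendsto.congr (fun τ => (congrFun hcomp τ).symm) ?_
  exact han.continuousAt.tendsto.comp (qParam_tendsto_atImInfty one_pos)

theorem tendsto_E4 : Tendsto (E₄ : ℍ → ℂ) atImInfty (𝓝 1) := by
  have := tendsto_levelOne isMF_E4
  rwa [coeff_zero_E4] at this

theorem tendsto_E6 : Tendsto (E₆ : ℍ → ℂ) atImInfty (𝓝 1) := by
  have := tendsto_levelOne isMF_E6
  rwa [coeff_zero_E6] at this

theorem eventually_norm_ge_of_tendsto {P : ℍ → ℂ} {c : ℂ} (hc : c ≠ 0)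
    (hP : Tendsto P atImInfty (𝓝 c)) : ∀ᶠ τ in atImInfty, ‖c‖ / 2 ≤ ‖P τ‖ := by
  have h1 : Tendsto (fun τ => ‖P τ‖) atImInfty (𝓝 ‖c‖) := hP.norm
  have h2 : ‖c‖ / 2 < ‖c‖ := by
    have : 0 < ‖c‖ := norm_pos_iff.mpr hc
    linarith
  exact (h1.eventually (lt_mem_nhds h2)).mono fun τ h => h.le

theorem mul_slash_SL {h : GL (Fin 2) ℝ} (hh : h ∈ 𝒮ℒ) (f g : ℍ → ℂ) (k₁ k₂ : ℤ) :
    (f * g) ∣[k₁ + k₂] h = (f ∣[k₁] h) * (g ∣[k₂] h) := by
  rw [ModularForm.mul_slash, Subgroup.HasDetPlusMinusOne.abs_det hh, one_smul]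

/-- If `F = P * h` with `F` modular of level `Γ`, `P` modular of level one bounded away from zero
near `i∞`, and `h` holomorphic, then `h` is modular of level `Γ`. -/
theorem isMF_of_mul_eq {Γ : Subgroup (GL (Fin 2) ℝ)} [Γ.IsArithmetic] (hΓ : Γ ≤ 𝒮ℒ) {K a : ℤ}
    {F P h : ℍ → ℂ} (hF : IsMF Γ K F) (hP : IsMF 𝒮ℒ a P) (hh : MDiff h) (hmul : F = P * h)
    {c : ℝ} (hc : 0 < c) (hPc : ∀ᶠ τ in atImInfty, c ≤ ‖P τ‖) : IsMF Γ (K - a) h := by
  have hP0 : P ≠ 0 := by
    obtain ⟨τ, hτ⟩ := hPc.exists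
    intro h0
    rw [h0] at hτ
    simp at hτ
    linarith
  have hKa : a + (K - a) = K := by ring
  have hslash : ∀ γ : GL (Fin 2) ℝ, γ ∈ 𝒮ℒ → P * (h ∣[K - a] γ) = F ∣[K] γ := by
    intro γ hγ
    have h1 := mul_slash_SL hγ P h a (K - a)
    rw [hP.slash_eq hγ] at h1
    rw [← h1, hmul]
    congr 1
  refine ⟨{ toFun := h
            slash_action_eq' := ?_
            holo' := hh
            bdd_at_cusps' := ?_ }, rfl⟩
  · intro γ hγ
    have h1 := hslash γ (hΓ hγ)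
    rw [hF.slash_eq hγ, hmul] at h1
    have h2 : P * (h ∣[K - a] γ - h) = 0 := by
      rw [mul_sub, h1, sub_self]
    rcases (UpperHalfPlane.mul_eq_zero_iff hP.mdiff ((hh.slash _ _).sub hh)).mp h2 with h3 | h3
    · exact absurd h3 hP0
    · exact sub_eq_zero.mp h3
  · intro c' hc'
    rw [Subgroup.IsArithmetic.isCusp_iff_isCusp_SL2Z] at hc'
    rw [OnePoint.isBoundedAt_iff_forall_SL2Z hc']
    intro γ _
    have hγ : (Matrix.SpecialLinearGroup.mapGL ℝ γ : GL (Fin 2) ℝ) ∈ 𝒮ℒ := ⟨γ, rfl⟩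
    have h1 := hslash _ hγ
    have hbd : IsBoundedAtImInfty (F ∣[K] γ) := hF.isBoundedAtImInfty_slash γ
    rw [IsBoundedAtImInfty, BoundedAtFilter] at hbd ⊢
    refine Asymptotics.IsBigO.trans ?_ hbd
    refine Asymptotics.IsBigO.of_bound c⁻¹ ?_
    filter_upwards [hPc] with τ hτ
    have h2 : (F ∣[K] γ) τ = P τ * (h ∣[K - a] γ) τ := (congrFun h1 τ).symm
    rw [h2, norm_mul]
    have : 0 ≤ ‖(h ∣[K - a] γ) τ‖ := norm_nonneg _
    rw [inv_mul_eq_div, le_div_iff₀ hc]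
    nlinarith

theorem E4_E6_no_common_zero (τ : ℍ) (h4 : E₄ τ = 0) : E₆ τ ≠ 0 := by
  intro h6
  have := ModularForm.discriminant_eq_E₄_cube_sub_E₆_sq τ
  rw [h4, h6] at this
  have hne := ModularForm.discriminant_ne_zero τ
  apply hne
  rw [this]; norm_num

theorem E4_ne_zero_fun : (E₄ : ℍ → ℂ) ≠ 0 := by
  intro h
  have h1 := tendsto_E4
  rw [h] at h1
  have h2 : Tendsto (0 : ℍ → ℂ) atImInfty (𝓝 0) := tendsto_const_nhds
  have := tendsto_nhds_unique h1 h2
  norm_num at this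

/-- `E₄` is a non-zero-divisor on holomorphic functions. -/
theorem e4_reg {f : ℍ → ℂ} (hf : MDiff f) (h : (E₄ : ℍ → ℂ) * f = 0) : f = 0 := by
  rcases (UpperHalfPlane.mul_eq_zero_iff isMF_E4.mdiff hf).mp h with h1 | h1
  · exact absurd h1 E4_ne_zero_fun
  · exact h1

/-- `E₆` is a non-zero-divisor modulo `E₄` on modular forms of level `Γ`. -/
theorem e6_reg {Γ : Subgroup (GL (Fin 2) ℝ)} [Γ.IsArithmetic] (hΓ : Γ ≤ 𝒮ℒ) {k : ℤ}
    {f g : ℍ → ℂ} (hf : IsMF Γ k f) (hg : IsMF Γ (k + 2) g)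
    (hrel : (E₆ : ℍ → ℂ) * f = (E₄ : ℍ → ℂ) * g) :
    ∃ h, IsMF Γ (k - 4) h ∧ f = (E₄ : ℍ → ℂ) * h := by
  classical
  let h : ℍ → ℂ := fun τ => if E₄ τ = 0 then g τ / E₆ τ else f τ / E₄ τ
  have hrel' : ∀ τ, E₆ τ * f τ = E₄ τ * g τ := fun τ => by
    have := congrFun hrel τ
    simpa using this
  have hmul : f = (E₄ : ℍ → ℂ) * h := by
    funext τ
    simp only [Pi.mul_apply, h]
    split_ifs with h4
    · have h6 := E4_E6_no_common_zero τ h4
      have := hrel' τ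
      rw [h4, zero_mul] at this
      rcases mul_eq_zero.mp this with h | h
      · exact absurd h h6
      · rw [h, h4, zero_mul]
    · field_simp
  have hhol : MDiff h := by
    intro τ
    by_cases h4 : E₄ τ = 0
    · have h6 := E4_E6_no_common_zero τ h4
      have hev : h =ᶠ[𝓝 τ] (g / (E₆ : ℍ → ℂ)) := by
        have hcont : ContinuousAt (E₆ : ℍ → ℂ) τ := (isMF_E6.mdiff τ).continuousAt
        filter_upwards [hcont.eventually_ne h6] with τ' h6'
        simp only [h, Pi.div_apply]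
        split_ifs with h4'
        · rfl
        · have := hrel' τ'
          field_simp
          linear_combination this
      exact ((hg.mdiff τ).div (isMF_E6.mdiff τ) h6).congr_of_eventuallyEq hev
    · have hev : h =ᶠ[𝓝 τ] (f / (E₄ : ℍ → ℂ)) := by
        have hcont : ContinuousAt (E₄ : ℍ → ℂ) τ := (isMF_E4.mdiff τ).continuousAt
        filter_upwards [hcont.eventually_ne h4] with τ' h4'
        simp only [h, Pi.div_apply, if_neg h4']
      exact ((hf.mdiff τ).div (isMF_E4.mdiff τ) h4).congr_of_eventuallyEq hev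
  refine ⟨h, ?_, hmul⟩
  exact isMF_of_mul_eq hΓ hf isMF_E4 hhol hmul (by norm_num : (0 : ℝ) < ‖(1 : ℂ)‖ / 2)
    (eventually_norm_ge_of_tendsto one_ne_zero tendsto_E4)

end Fermat.Agent.S20FM
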