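import Fermat.Agent.S20FM.Pointwise
import Fermat.Agent.S20FM.Regular
import Fermat.Agent.LevelOne_helper63.ZeroSets
import Fermat.Agent.LevelOne_helper29.JOrders
import Fermat.Agent.S20_helper25.EllipticDenom

/-!
# Pointwise basis property (FM3)

For a homogeneous basis `B` of the modular forms on `Γ ≤ SL(2, ℤ)` over the ring of level one
forms and every `τ₀ : ℍ`, the vectors of all `SL(2, ℤ)`-conjugates of the basis elements,
evaluated at `τ₀`, are linearly independent.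
-/

set_option autoImplicit false

open UpperHalfPlane ModularForm Filter Topology EisensteinSeries
open scoped MatrixGroups ModularForm Manifold

namespace Fermat.Agent.S20FM

open Fermat.Agent.S23

local notation "Δ" => ModularForm.discriminant

theorem isMF_disc : IsMF 𝒮ℒ 12 (Δ : ℍ → ℂ) :=
  IsCF.isMF ⟨CuspForm.discriminant, rfl⟩

theorem tendsto_E_atImInfty {k : ℕ} (hk : 3 ≤ k) (hk2 : Even k) :
    Tendsto (fun τ : ℍ => E hk τ) atImInfty (𝓝 1) := by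
  have han : AnalyticAt ℂ (cuspFunction 1 (E hk)) 0 :=
    ModularFormClass.analyticAt_cuspFunction_zero (E hk) one_pos one_mem_strictPeriods_SL
  have hval : cuspFunction 1 (E hk) 0 = 1 := by
    have h0 := EisensteinSeries.E_qExpansion_coeff_zero (k := k) hk hk2
    rw [qExpansion_coeff] at h0
    simpa using h0
  have hcomp : (fun τ : ℍ => E hk τ) =
      (cuspFunction 1 (E hk)) ∘ (fun τ : ℍ => Function.Periodic.qParam 1 (τ : ℂ)) := by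
    funext τ
    exact (SlashInvariantFormClass.eq_cuspFunction (E hk) τ one_mem_strictPeriods_SL
      one_ne_zero).symm
  rw [hcomp, ← hval]
  exact han.continuousAt.tendsto.comp (qParam_tendsto_atImInfty one_pos)

theorem tendsto_disc : Tendsto (Δ : ℍ → ℂ) atImInfty (𝓝 0) :=
  discriminant_isZeroAtImInfty


open Fermat.Agent.LevelOne_helper63 Fermat.Agent.LevelOne_helper29 Fermat.Agent.S20_helper25

theorem exists_form_two_mul {τ₀ : ℍ} (h4 : E₄ τ₀ ≠ 0) (h6 : E₆ τ₀ ≠ 0) (n : ℕ) (hn : 2 ≤ n) :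
    ∃ h : ℍ → ℂ, IsMF 𝒮ℒ (((2 : ℕ) : ℤ) * n) h ∧ h τ₀ ≠ 0 := by
  obtain ⟨k, rfl | rfl⟩ := Nat.even_or_odd' n
  · refine ⟨_, (isMF_monomial k 0).congr_weight (by push_cast; ring), ?_⟩
    simp [h4]
  · obtain ⟨x, rfl⟩ : ∃ x, k = x + 1 := ⟨k - 1, by omega⟩
    refine ⟨_, (isMF_monomial x 1).congr_weight (by push_cast; ring), ?_⟩
    simp [h4, h6]

theorem exists_form_four_mul {τ₀ : ℍ} (h4 : E₄ τ₀ ≠ 0) (n : ℕ) :
    ∃ h : ℍ → ℂ, IsMF 𝒮ℒ (((4 : ℕ) : ℤ) * n) h ∧ h τ₀ ≠ 0 := by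
  refine ⟨_, (isMF_monomial n 0).congr_weight (by push_cast; ring), ?_⟩
  simp [h4]

theorem exists_form_six_mul {τ₀ : ℍ} (h6 : E₆ τ₀ ≠ 0) (n : ℕ) :
    ∃ h : ℍ → ℂ, IsMF 𝒮ℒ (((6 : ℕ) : ℤ) * n) h ∧ h τ₀ ≠ 0 := by
  refine ⟨_, (isMF_monomial 0 n).congr_weight (by push_cast; ring), ?_⟩
  simp [h6]

theorem isMF_jRel (τ₀ : ℍ) : IsMF 𝒮ℒ 12 (jRel τ₀) := by
  have h1 : IsMF 𝒮ℒ 12 ((E₄ : ℍ → ℂ) ^ 3) := (isMF_E4.pow 3).congr_weight (by norm_num)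
  have h2 := (h1.smul (Δ τ₀)).sub (isMF_disc.smul (E₄ τ₀ ^ 3))
  convert h2 using 1
  funext z
  simp [jRel]

theorem tendsto_jRel (τ₀ : ℍ) : Tendsto (jRel τ₀) atImInfty (𝓝 (Δ τ₀)) := by
  have h1 := ((tendsto_E4.pow 3).const_mul (Δ τ₀)).sub (tendsto_disc.const_mul (E₄ τ₀ ^ 3))
  have h2 : jRel τ₀ = fun x => Δ τ₀ * E₄ x ^ 3 - E₄ τ₀ ^ 3 * Δ x := by
    funext z
    simp [jRel]
  rw [h2]
  simpa using h1

theorem jRel_self (τ₀ : ℍ) : jRel τ₀ τ₀ = 0 := by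
  unfold jRel
  ring

theorem order_jRel {τ₀ τ : ℍ} (h4 : E₄ τ ≠ 0) (h6 : E₆ τ ≠ 0) (hz : jRel τ₀ τ = 0) :
    analyticOrderAt (jRel τ₀ ∘ ofComplex) (τ : ℂ) = 1 := by
  have hΔ0 := discriminant_ne_zero τ₀
  have hj : jInv τ = jInv τ₀ := by
    unfold jRel at hz
    rw [jInv, jInv, div_eq_div_iff (discriminant_ne_zero τ) hΔ0]
    linear_combination hz
  have hfun : jRel τ₀ = (fun z : ℍ => Δ τ₀ * Δ z) * (fun z : ℍ => jInv z - jInv τ) := by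
    funext z
    have hΔz := discriminant_ne_zero z
    have hΔτ := discriminant_ne_zero τ
    have hj' : E₄ τ ^ 3 / Δ τ = E₄ τ₀ ^ 3 / Δ τ₀ := hj
    simp only [Pi.mul_apply, jRel, jInv]
    rw [hj']
    field_simp
  have hm1 : MDiff (fun z : ℍ => Δ τ₀ * Δ z) := by
    have h2 : MDiff (fun τ : ℍ => Δ τ) := ModularFormClass.holo CuspForm.discriminant
    exact mdifferentiable_const.mul h2
  have hm2 : MDiff (fun z : ℍ => jInv z - jInv τ) :=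
    mdifferentiable_jInv.sub mdifferentiable_const
  have h1 : ordAt (jRel τ₀) τ = 1 := by
    rw [hfun, ordAt_mul hm1 hm2, (ordAt_eq_zero_iff hm1 τ).mpr
      (mul_ne_zero hΔ0 (discriminant_ne_zero τ)), ordAt_jInv_sub_of_ne_zero h4 h6, zero_add]
  exact h1

/-- **FM3, relation form.**  A relation at `τ₀` between the vectors of conjugates of the elements
of a homogeneous basis is trivial. -/
theorem FreeBasis.eq_zero_of_forall_vec {Γ : Subgroup (GL (Fin 2) ℝ)} [Γ.IsArithmetic]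
    [Γ.HasDetOne] (hΓ : Γ ≤ 𝒮ℒ) (B : FreeBasis Γ) (τ₀ : ℍ) (c : Fin B.m → ℂ)
    (hrel : ∀ γ : SL(2, ℤ), ∑ i, c i * vec (B.d i) (B.b i) τ₀ γ = 0) : c = 0 := by
  rcases Stab_trichotomy τ₀ with ⟨hI, hρ, hst, hcard⟩ | ⟨g, hg, hst, hcard⟩ | ⟨g, hg, hst, hcard⟩
  · -- generic point
    have h6 : E₆ τ₀ ≠ 0 := fun h => by
      obtain ⟨γ, hγ⟩ := (E₆_eq_zero_iff τ₀).mp h
      exact hI γ⁻¹ (by rw [hγ, inv_smul_smul])
    have h4 : E₄ τ₀ ≠ 0 := fun h => by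
      obtain ⟨γ, hγ⟩ := (E₄_eq_zero_iff τ₀).mp h
      exact hρ γ⁻¹ (by rw [hγ, inv_smul_smul])
    have hprim := isPrimitiveRoot_den hst
    rw [hcard, den_eq_denom] at hprim
    have hfix : (-1 : SL(2, ℤ)) • τ₀ = τ₀ := mem_Stab.mp (neg_one_mem_Stab τ₀)
    refine B.eq_zero_of_relation_of_stab hΓ τ₀ (isMF_jRel τ₀) (discriminant_ne_zero τ₀)
      (tendsto_jRel τ₀) (jRel_self τ₀) (fun τ hτ => ?_) hfix (by norm_num) hprim 2
      (exists_form_two_mul h4 h6) c hrel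
    obtain ⟨γ, rfl⟩ := (jRel_eq_zero_iff τ₀ τ).mp hτ
    refine ⟨⟨γ, rfl⟩, order_jRel ?_ ?_ hτ⟩
    · rw [E₄_smul]
      exact mul_ne_zero (zpow_ne_zero _ (denom_ne_zero γ τ₀)) h4
    · rw [E₆_smul]
      exact mul_ne_zero (zpow_ne_zero _ (denom_ne_zero γ τ₀)) h6
  · -- orbit of `i`
    have h6 : E₆ τ₀ = 0 := (E₆_eq_zero_iff τ₀).mpr ⟨g⁻¹, by rw [← hg, inv_smul_smul]⟩
    have h4 : E₄ τ₀ ≠ 0 := E₄_ne_zero_of_E₆_eq_zero h6
    have hprim := isPrimitiveRoot_den hst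
    rw [hcard, den_eq_denom] at hprim
    have hfix : (g⁻¹ * ModularGroup.S * g) • τ₀ = τ₀ :=
      mem_Stab.mp (hst ▸ Subgroup.mem_zpowers _)
    refine B.eq_zero_of_relation_of_stab hΓ τ₀ isMF_E6 one_ne_zero tendsto_E6 h6
      (fun τ hτ => ?_) hfix (by norm_num) hprim 0 (fun n _ => exists_form_four_mul h4 n) c hrel
    obtain ⟨γ, rfl⟩ := (E₆_eq_zero_iff τ).mp hτ
    exact ⟨⟨γ * g, by rw [mul_smul, hg]⟩, ordAt_E6 hτ⟩
  · -- orbit of `ρ`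
    have h4 : E₄ τ₀ = 0 := (E₄_eq_zero_iff τ₀).mpr ⟨g⁻¹, by rw [← hg, inv_smul_smul]⟩
    have h6 : E₆ τ₀ ≠ 0 := E₆_ne_zero_of_E₄_eq_zero h4
    have hprim := isPrimitiveRoot_den hst
    rw [hcard, den_eq_denom] at hprim
    have hfix : (g⁻¹ * (ModularGroup.S * ModularGroup.T) * g) • τ₀ = τ₀ :=
      mem_Stab.mp (hst ▸ Subgroup.mem_zpowers _)
    refine B.eq_zero_of_relation_of_stab hΓ τ₀ isMF_E4 one_ne_zero tendsto_E4 h4
      (fun τ hτ => ?_) hfix (by norm_num) hprim 0 (fun n _ => exists_form_six_mul h6 n) c hrel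
    obtain ⟨γ, rfl⟩ := (E₄_eq_zero_iff τ).mp hτ
    exact ⟨⟨γ * g, by rw [mul_smul, hg]⟩, ordAt_E4 hτ⟩

/-- **FM3 (pointwise basis).**  The vectors of conjugates of the elements of a homogeneous basis
are linearly independent at every point of the upper half plane. -/
theorem FreeBasis.linearIndependent_vec {Γ : Subgroup (GL (Fin 2) ℝ)} [Γ.IsArithmetic]
    [Γ.HasDetOne] (hΓ : Γ ≤ 𝒮ℒ) (B : FreeBasis Γ) (τ₀ : ℍ) :
    LinearIndependent ℂ (fun i => vec (B.d i) (B.b i) τ₀) :=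
  linearIndependent_vec_of_forall B.d B.b τ₀ (B.eq_zero_of_forall_vec hΓ τ₀)

/-- FM3 for `Γ₀(N)`, in the shape of the consumers: slashes instead of `vec`. -/
theorem FreeBasis.eq_zero_of_forall_slash {N : ℕ} [NeZero N] (B : FreeBasis (G0 N)) (τ₀ : ℍ)
    (c : Fin B.m → ℂ)
    (hrel : ∀ γ : SL(2, ℤ), ∑ i, c i * (B.b i ∣[B.d i] γ) τ₀ = 0) : c = 0 :=
  B.eq_zero_of_forall_vec (G0_le N) τ₀ c hrel

theorem FreeBasis.linearIndependent_vec_G0 {N : ℕ} [NeZero N] (B : FreeBasis (G0 N)) (τ₀ : ℍ) :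
    LinearIndependent ℂ (fun i => vec (B.d i) (B.b i) τ₀) :=
  B.linearIndependent_vec (G0_le N) τ₀

end Fermat.Agent.S20FM
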