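import Fermat.Agent.S20FM.Struct

/-!
# FM2: the number of generators of a free basis is the index

(helper60, T20 FM-route.)  `B.m = [SL(2,ℤ) : Γ₀(N)]` for `B : FreeBasis (G0 N)`.
The inequality `≤` is `FreeBasis.m_le_index` (Sturm bound).  For `≥` we use the separating form
`T` of T23: its conjugates `T ∣ g_x⁻¹` (`x` running over the cosets) are pairwise distinct
holomorphic functions, so they take pairwise distinct values at some point `τ`; expanding the
powers `T ^ j` in the basis shows that the Vandermonde vectors `(T_x(τ) ^ j)_x`, `j < μ`, lie in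
the span of the `m` conjugate vectors of the generators at `τ`.
-/

set_option autoImplicit false

open UpperHalfPlane ModularForm EisensteinSeries Filter Topology
open scoped MatrixGroups ModularForm Manifold

namespace Fermat.Agent.S20FM

open Fermat.Agent.S23 CongruenceSubgroup GradedAlg

variable {N : ℕ} [NeZero N]

noncomputable local instance : Fintype (SL(2, ℤ) ⧸ Gamma0 N) :=
  @Fintype.ofFinite _ Subgroup.finite_quotient_of_finiteIndex

/-- The conjugates of the separating form, indexed by the cosets. -/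
noncomputable def sepConj (N : ℕ) [NeZero N] (x : SL(2, ℤ) ⧸ Gamma0 N) : ℍ → ℂ :=
  (Separating.sepForm N : ℍ → ℂ) ∣[(4 : ℤ)] (x.out)⁻¹

theorem sepConj_mdiff (x : SL(2, ℤ) ⧸ Gamma0 N) : MDiff (sepConj N x) := by
  unfold sepConj
  rw [ModularForm.SL_slash]
  exact (Separating.sepForm N).holo'.slash _ _

theorem sepConj_injective : Function.Injective (sepConj N) := by
  intro x y h
  have h1 : (Separating.sepForm N : ℍ → ℂ) ∣[(4 : ℤ)] ((x.out)⁻¹ * y.out) =
      Separating.sepForm N := by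
    unfold sepConj at h
    rw [SlashAction.slash_mul, h, ← SlashAction.slash_mul, inv_mul_cancel, SlashAction.slash_one]
  by_contra hxy
  refine Separating.sepForm_slash_ne N _ (fun hmem => hxy ?_) h1
  rw [← QuotientGroup.out_eq' x, ← QuotientGroup.out_eq' y]
  exact QuotientGroup.eq.mpr hmem

/-- A point where the conjugates of the separating form take pairwise distinct values. -/
theorem exists_sep_point (N : ℕ) [NeZero N] :
    ∃ τ : ℍ, Function.Injective (fun x => sepConj N x τ) := by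
  classical
  let s : Finset ((SL(2, ℤ) ⧸ Gamma0 N) × (SL(2, ℤ) ⧸ Gamma0 N)) :=
    Finset.univ.filter fun p => p.1 ≠ p.2
  have hprod : ∏ p ∈ s, (sepConj N p.1 - sepConj N p.2) ≠ 0 := by
    rw [Ne, UpperHalfPlane.prod_eq_zero_iff
      (fun p _ => (sepConj_mdiff p.1).sub (sepConj_mdiff p.2))]
    rintro ⟨p, hp, h0⟩
    exact (Finset.mem_filter.mp hp).2 (sepConj_injective (sub_eq_zero.mp h0))
  obtain ⟨τ, hτ⟩ : ∃ τ, (∏ p ∈ s, (sepConj N p.1 - sepConj N p.2)) τ ≠ 0 := by
    by_contra hall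
    push Not at hall
    exact hprod (funext hall)
  refine ⟨τ, fun x y hxy => ?_⟩
  by_contra hne
  apply hτ
  rw [Finset.prod_apply]
  refine Finset.prod_eq_zero (i := (x, y)) (Finset.mem_filter.mpr ⟨Finset.mem_univ _, hne⟩) ?_
  simp only [Pi.sub_apply]
  exact sub_eq_zero.mpr hxy

omit [NeZero N] in
/-- Conjugate of a combination `∑ r_i b_i` with level one coefficients. -/
theorem FreeBasis.slash_sum (B : FreeBasis (G0 N)) {K : ℤ} {r : Fin B.m → ℍ → ℂ}
    (hr : ∀ i, IsMF 𝒮ℒ (K - B.d i) (r i)) (g : SL(2, ℤ)) (τ : ℍ) :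
    ((∑ i, r i * B.b i) ∣[K] g) τ = ∑ i, r i τ * vec (B.d i) (B.b i) τ g := by
  have hg : (Matrix.SpecialLinearGroup.mapGL ℝ g : GL (Fin 2) ℝ) ∈ 𝒮ℒ := ⟨g, rfl⟩
  change ((∑ i, r i * B.b i) ∣[K] (Matrix.SpecialLinearGroup.mapGL ℝ g : GL (Fin 2) ℝ)) τ = _
  rw [SlashAction.sum_slash, Finset.sum_apply]
  refine Finset.sum_congr rfl fun i _ => ?_
  have h1 : (r i * B.b i) ∣[K] (Matrix.SpecialLinearGroup.mapGL ℝ g : GL (Fin 2) ℝ) =
      (r i ∣[K - B.d i] (Matrix.SpecialLinearGroup.mapGL ℝ g : GL (Fin 2) ℝ)) *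
        (B.b i ∣[B.d i] (Matrix.SpecialLinearGroup.mapGL ℝ g : GL (Fin 2) ℝ)) := by
    have := mul_slash_SL hg (r i) (B.b i) (K - B.d i) (B.d i)
    rwa [sub_add_cancel] at this
  rw [h1, (hr i).slash_eq hg]
  rfl

/-- **FM2, lower bound.** -/
theorem FreeBasis.index_le_m (B : FreeBasis (G0 N)) :
    Fintype.card (SL(2, ℤ) ⧸ Gamma0 N) ≤ B.m := by
  classical
  obtain ⟨τ, hτ⟩ := exists_sep_point N
  set μ := Fintype.card (SL(2, ℤ) ⧸ Gamma0 N) with hμ
  let w : Fin B.m → ((SL(2, ℤ) ⧸ Gamma0 N) → ℂ) :=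
    fun i x => vec (B.d i) (B.b i) τ (x.out)⁻¹
  let U : Fin μ → ((SL(2, ℤ) ⧸ Gamma0 N) → ℂ) := fun j x => (sepConj N x τ) ^ (j : ℕ)
  have hU_mem : ∀ j, U j ∈ Submodule.span ℂ (Set.range w) := by
    intro j
    obtain ⟨r, hr, hsum⟩ := B.gen (((j : ℕ) : ℤ) * 4) ((Separating.sepForm N : ℍ → ℂ) ^ (j : ℕ))
      (IsMF.pow ⟨Separating.sepForm N, rfl⟩ j)
    have hUj : U j = ∑ i, (r i τ) • w i := by
      funext x
      have hg : (Matrix.SpecialLinearGroup.mapGL ℝ (x.out)⁻¹ : GL (Fin 2) ℝ) ∈ 𝒮ℒ := ⟨_, rfl⟩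
      have h1 := B.slash_sum hr (x.out)⁻¹ τ
      rw [← hsum] at h1
      change ((⇑(Separating.sepForm N) ^ (j : ℕ)) ∣[((j : ℕ) : ℤ) * 4]
        (Matrix.SpecialLinearGroup.mapGL ℝ (x.out)⁻¹ : GL (Fin 2) ℝ)) τ = _ at h1
      rw [pow_slash_of_mem hg] at h1
      simp only [U, w, Finset.sum_apply, Pi.smul_apply, smul_eq_mul]
      rw [← h1]
      rfl
    rw [hUj]
    exact Submodule.sum_mem _ fun i _ =>
      Submodule.smul_mem _ _ (Submodule.subset_span ⟨i, rfl⟩)
  have hU_li : LinearIndependent ℂ U := by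
    rw [Fintype.linearIndependent_iff]
    intro c hc
    set p : Polynomial ℂ := ∑ j : Fin μ, Polynomial.C (c j) * Polynomial.X ^ (j : ℕ) with hp
    have hp0 : p = 0 := by
      refine Polynomial.eq_zero_of_natDegree_lt_card_of_eval_eq_zero p hτ (fun x => ?_) ?_
      · have := congrFun hc x
        simp only [Finset.sum_apply, Pi.smul_apply, smul_eq_mul, Pi.zero_apply, U] at this
        rw [hp, Polynomial.eval_finsetSum]
        simpa using this
      · have hdeg := Polynomial.degree_sum_fin_lt c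
        by_cases hpz : p = 0
        · rw [hpz, Polynomial.natDegree_zero]
          exact Fintype.card_pos_iff.mpr ⟨((1 : SL(2, ℤ)) : SL(2, ℤ) ⧸ Gamma0 N)⟩
        · exact (Polynomial.natDegree_lt_iff_degree_lt hpz).mpr hdeg
    intro j
    have := congrArg (fun q : Polynomial ℂ => q.coeff (j : ℕ)) hp0
    simp only [hp, Polynomial.finsetSum_coeff, Polynomial.coeff_C_mul_X_pow,
      Polynomial.coeff_zero] at this
    rw [Finset.sum_eq_single j] at this
    · simpa using this
    · intro i _ hij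
      rw [if_neg]
      exact fun h => hij (Fin.ext h.symm)
    · intro h
      exact absurd (Finset.mem_univ j) h
  have h1 : μ ≤ Module.finrank ℂ (Submodule.span ℂ (Set.range w)) := by
    have hli : LinearIndependent ℂ
        (fun j => (⟨U j, hU_mem j⟩ : Submodule.span ℂ (Set.range w))) :=
      LinearIndependent.of_comp (Submodule.subtype _) hU_li
    simpa using hli.fintype_card_le_finrank
  have h2 : Module.finrank ℂ (Submodule.span ℂ (Set.range w)) ≤ B.m := by
    have := finrank_range_le_card (R := ℂ) w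
    rwa [Fintype.card_fin] at this
  exact h1.trans h2

/-- **FM2.** The number of generators of a homogeneous free basis of `M_*(Γ₀(N))` over
`M_*(SL(2,ℤ))` is the index of `Γ₀(N)`. -/
theorem FreeBasis.m_eq (B : FreeBasis (G0 N)) : B.m = Nat.card (SL(2, ℤ) ⧸ Gamma0 N) := by
  refine le_antisymm B.m_le_index ?_
  rw [Nat.card_eq_fintype_card]
  exact B.index_le_m

end Fermat.Agent.S20FM
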