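/-
T20 / FM6 (helper10), final form: for a homogeneous basis `B : FreeBasis (G0 N)` of the module of
modular forms on `Γ₀(N)` over the level one ring, the growth bound of FM4 implies
`B.d i ≤ 10` for all `i` and `#{i | B.d i = 10} ≤ dim S₂(Γ₀(N))`.
-/
import Mathlib
import Fermat.Agent.S20FM.Inverse
import Fermat.Agent.S20FM.Rank
import Fermat.Agent.S20FM.PointwiseInst
import Fermat.Agent.S23.FinDim

set_option autoImplicit false

open UpperHalfPlane ModularForm MatrixGroups Filter Topology CongruenceSubgroup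
open scoped Manifold

namespace Fermat.Agent.S20FM.Inverse

open Fermat.Agent.S23 (G0 IsMF IsCF)
open Fermat.Agent.S20 (X)

variable {N : ℕ} [NeZero N]

/-- The growth statement of FM4 (helper57's `growth`), stated with an arbitrary `Fintype` instance
on the coset space, gives `GrowthBound`. -/
theorem growthBound_of_exists {m : ℕ} {d : Fin m → ℤ} {b : Fin m → ℍ → ℂ}
    [inst : Fintype (SL(2, ℤ) ⧸ Gamma0 N)]
    (h : ∃ A C : ℝ, 0 < C ∧ ∀ τ : ℍ, A ≤ τ.im → ∀ c : Fin m → ℂ,
      (∑ i, ‖c i‖) ≤ C * Real.exp (2 * Real.pi * τ.im * (1 - 1 / N)) *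
        ∑ x : SL(2, ℤ) ⧸ Gamma0 N, ‖∑ i, c i * ((b i) ∣[d i] (Quotient.out x)⁻¹) τ‖) :
    GrowthBound N d b := by
  obtain ⟨A, C, hC, hAC⟩ := h
  refine ⟨A, C, hC, fun τ hτ c => ?_⟩
  have := hAC τ hτ c
  convert this using 3
  congr 1
  exact Subsingleton.elim _ _

/-- A bijection between the index set of a free basis and the coset space. -/
noncomputable def basisEquiv (B : FreeBasis (G0 N)) : Fin B.m ≃ X N :=
  Fintype.equivOfCardEq (by
    rw [Fintype.card_fin, B.m_eq, Nat.card_eq_fintype_card])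

/-- **FM6, first half**: all generator weights of a free basis are at most `10`. -/
theorem weight_le_ten (B : FreeBasis (G0 N)) (hgrowth : GrowthBound N B.d B.b) (i : Fin B.m) :
    B.d i ≤ 10 :=
  weight_le_ten_aux (basisEquiv B) B.isMF (fun τ => B.linearIndependent_vec_G0 τ)
    (fun i => B.even i) hgrowth i

/-- **FM6, second half**: the number of generators of weight `10` is at most `dim S₂(Γ₀(N))`. -/
theorem card_weight_ten_le (B : FreeBasis (G0 N)) (hgrowth : GrowthBound N B.d B.b) :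
    Fintype.card {i // B.d i = 10}
      ≤ Module.finrank ℂ (CuspForm (CongruenceSubgroup.Gamma0 N) 2) := by
  have : FiniteDimensional ℂ (CuspForm (G0 N) 2) :=
    Fermat.Agent.S23.finiteDimensional_cuspForm N 2
  exact card_weight_ten_le_aux (basisEquiv B) B.isMF (fun τ => B.linearIndependent_vec_G0 τ)
    hgrowth

/-- FM6 in the shape consumed by the glue: from helper57's `growth` statement. -/
theorem weight_le_ten_of_growth (B : FreeBasis (G0 N)) [Fintype (SL(2, ℤ) ⧸ Gamma0 N)]
    (h : ∃ A C : ℝ, 0 < C ∧ ∀ τ : ℍ, A ≤ τ.im → ∀ c : Fin B.m → ℂ,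
      (∑ i, ‖c i‖) ≤ C * Real.exp (2 * Real.pi * τ.im * (1 - 1 / N)) *
        ∑ x : SL(2, ℤ) ⧸ Gamma0 N, ‖∑ i, c i * ((B.b i) ∣[B.d i] (Quotient.out x)⁻¹) τ‖) :
    (∀ i, B.d i ≤ 10) ∧ Fintype.card {i // B.d i = 10}
      ≤ Module.finrank ℂ (CuspForm (CongruenceSubgroup.Gamma0 N) 2) :=
  ⟨weight_le_ten B (growthBound_of_exists h), card_weight_ten_le B (growthBound_of_exists h)⟩

end Fermat.Agent.S20FM.Inverse
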