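import Fermat.Agent.S20FM.Glue
import Fermat.Agent.S20FM.Exists
import Fermat.Agent.S20FM.Rank
import Fermat.Agent.S20FM.PointwiseInst
import Fermat.Agent.S20FM.InverseFinal
import Fermat.Agent.S20FM_helper57.Growth

/-!
# FM-route: the lower bound `genusFormula N ≤ dim S₂(Γ₀(N))`, unconditionally
-/

set_option autoImplicit false

open UpperHalfPlane ModularForm CongruenceSubgroup
open scoped MatrixGroups ModularForm Manifold

namespace Fermat.Agent.S20FM

/-- **[C]** The lower bound for the dimension of `S₂(Γ₀(N))`. -/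
theorem genusFormula_le_finrank_cuspForm (N : ℕ) [NeZero N] :
    ModularCurve.genusFormula N ≤ (Module.finrank ℂ (CuspForm (Gamma0 N) 2) : ℚ) := by
  classical
  obtain ⟨B⟩ := exists_freeBasis N
  have : Fintype (SL(2, ℤ) ⧸ Gamma0 N) := Fintype.ofFinite _
  have hg := Fermat.Agent.S20FM_helper57.growth B (fun i => B.even i)
  obtain ⟨h10, hS2⟩ := Inverse.weight_le_ten_of_growth B hg
  exact Glue.lower_bound B B.m_eq (fun τ => B.linearIndependent_vec_G0 τ) h10 hS2

end Fermat.Agent.S20FM
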