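import Mathlib.Algebra.Module.Submodule.Basic
import Mathlib.Algebra.Algebra.Basic
import Mathlib.Algebra.BigOperators.Fin
import Mathlib.Algebra.BigOperators.Ring.Finset
import Mathlib.Algebra.Order.Group.Int
import Mathlib.Tactic

set_option autoImplicit false

namespace Fermat.Agent.S20FM.GradedAlg

open Finset

variable {𝕜 : Type*} [Field 𝕜] {𝒪 : Type*} [CommRing 𝒪] [Algebra 𝕜 𝒪]

/-- Abstract data: a graded ring `R` generated (in positive degrees) by `e4`, `e6`, and a graded
module `M` on which `e4, e6` is a regular sequence. Everything lives in one commutative ring. -/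
structure Setup (𝕜 : Type*) [Field 𝕜] (𝒪 : Type*) [CommRing 𝒪] [Algebra 𝕜 𝒪] where
  R : ℤ → Submodule 𝕜 𝒪
  M : ℤ → Submodule 𝕜 𝒪
  e4 : 𝒪
  e6 : 𝒪
  one_mem : (1 : 𝒪) ∈ R 0
  R_mul : ∀ {a b : ℤ} {r s : 𝒪}, r ∈ R a → s ∈ R b → r * s ∈ R (a + b)
  e4_mem : e4 ∈ R 4
  e6_mem : e6 ∈ R 6
  R_neg : ∀ {a : ℤ}, a < 0 → ∀ r ∈ R a, r = 0
  R_decomp : ∀ (a : ℤ) (r : 𝒪), r ∈ R a →
    ∃ s ∈ R (a - 4), ∃ (c : 𝕜) (n : ℕ), (c ≠ 0 → (6 : ℤ) * n = a) ∧ r = e4 * s + c • e6 ^ n
  RM_mul : ∀ {a k : ℤ} {r f : 𝒪}, r ∈ R a → f ∈ M k → r * f ∈ M (a + k)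
  e4_reg : ∀ {k : ℤ} {f : 𝒪}, f ∈ M k → e4 * f = 0 → f = 0
  e6_reg : ∀ {k : ℤ} {f g : 𝒪}, f ∈ M k → g ∈ M (k + 2) → e6 * f = e4 * g →
    ∃ h ∈ M (k - 4), f = e4 * h
  M_neg : ∀ {k : ℤ}, k < 0 → ∀ f ∈ M k, f = 0

namespace Setup

variable (S : Setup 𝕜 𝒪)

/-- The decomposable part `e4 M_{k-4} + e6 M_{k-6}` of `M_k`. -/
def InW (k : ℤ) (x : 𝒪) : Prop :=
  ∃ f' ∈ S.M (k - 4), ∃ f'' ∈ S.M (k - 6), x = S.e4 * f' + S.e6 * f''

lemma e6_pow_mem (n : ℕ) : S.e6 ^ n ∈ S.R (6 * n) := by
  induction n with
  | zero => simpa using S.one_mem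
  | succ n ih =>
    have := S.R_mul ih S.e6_mem
    rw [pow_succ]
    convert this using 2
    push_cast; ring

lemma M_cast {a b : ℤ} (h : a = b) {x : 𝒪} (hx : x ∈ S.M a) : x ∈ S.M b := h ▸ hx

lemma R_cast {a b : ℤ} (h : a = b) {x : 𝒪} (hx : x ∈ S.R a) : x ∈ S.R b := h ▸ hx

lemma inW_smul {k : ℤ} {x : 𝒪} (c : 𝕜) (hx : S.InW k x) : S.InW k (c • x) := by
  obtain ⟨f', hf', f'', hf'', rfl⟩ := hx
  refine ⟨c • f', (S.M _).smul_mem c hf', c • f'', (S.M _).smul_mem c hf'', ?_⟩
  rw [smul_add, mul_smul_comm, mul_smul_comm]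

lemma inW_add {k : ℤ} {x y : 𝒪} (hx : S.InW k x) (hy : S.InW k y) : S.InW k (x + y) := by
  obtain ⟨f', hf', f'', hf'', rfl⟩ := hx
  obtain ⟨g', hg', g'', hg'', rfl⟩ := hy
  refine ⟨f' + g', (S.M _).add_mem hf' hg', f'' + g'', (S.M _).add_mem hf'' hg'', ?_⟩
  ring

lemma inW_neg {k : ℤ} {x : 𝒪} (hx : S.InW k x) : S.InW k (-x) := by
  have := S.inW_smul (-1 : 𝕜) hx
  simpa using this

lemma inW_zero (k : ℤ) : S.InW k 0 :=
  ⟨0, (S.M _).zero_mem, 0, (S.M _).zero_mem, by simp⟩

section Family

variable {ι : Type*} [Fintype ι] (d : ι → ℤ) (b : ι → 𝒪)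

/-- In each degree the members of the family are linearly independent modulo the decomposable
part. -/
def ModW : Prop :=
  ∀ (k : ℤ) (c : ι → 𝕜), (∀ i, c i ≠ 0 → d i = k) → S.InW k (∑ i, c i • b i) → ∀ i, c i = 0

/-- In each degree the members of the family span modulo the decomposable part. -/
def SpanW : Prop :=
  ∀ (k : ℤ) (f : 𝒪), f ∈ S.M k →
    ∃ c : ι → 𝕜, (∀ i, c i ≠ 0 → d i = k) ∧ S.InW k (f - ∑ i, c i • b i)

/-- Independence over `R`. -/
def Indep : Prop :=
  ∀ (K : ℤ) (r : ι → 𝒪), (∀ i, r i ∈ S.R (K - d i)) → ∑ i, r i * b i = 0 → ∀ i, r i = 0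

/-- Generation over `R`. -/
def Gen : Prop :=
  ∀ (k : ℤ) (f : 𝒪), f ∈ S.M k → ∃ r : ι → 𝒪, (∀ i, r i ∈ S.R (k - d i)) ∧ f = ∑ i, r i * b i

variable {d b}

lemma exists_lower_bound : ∃ D : ℤ, ∀ i, D ≤ d i := by
  classical
  by_cases h : Nonempty ι
  · obtain ⟨i0⟩ := h
    refine ⟨(Finset.univ.image d).min' ⟨d i0, Finset.mem_image_of_mem _ (Finset.mem_univ _)⟩, ?_⟩
    intro i
    exact Finset.min'_le _ _ (Finset.mem_image_of_mem _ (Finset.mem_univ _))
  · exact ⟨0, fun i => (h ⟨i⟩).elim⟩

/-- Independence modulo `e4`. -/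
lemma modE4_indep (hb : ∀ i, b i ∈ S.M (d i)) (hW : S.ModW d b) :
    ∀ (K : ℤ) (c : ι → 𝕜) (n : ι → ℕ) (g : 𝒪), (∀ i, c i ≠ 0 → d i + 6 * (n i : ℤ) = K) →
      g ∈ S.M (K - 4) → ∑ i, c i • (S.e6 ^ (n i) * b i) = S.e4 * g → ∀ i, c i = 0 := by
  classical
  obtain ⟨D, hD⟩ := exists_lower_bound (d := d)
  have key : ∀ N : ℕ, ∀ K : ℤ, K < D + N → ∀ (c : ι → 𝕜) (n : ι → ℕ) (g : 𝒪),
      (∀ i, c i ≠ 0 → d i + 6 * (n i : ℤ) = K) →
      g ∈ S.M (K - 4) → ∑ i, c i • (S.e6 ^ (n i) * b i) = S.e4 * g → ∀ i, c i = 0 := by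
    intro N
    induction N with
    | zero =>
      intro K hK c n g hc _ _ i
      by_contra hci
      have := hc i hci
      have := hD i
      push_cast at hK
      omega
    | succ N ih =>
      intro K hK c n g hc hg hrel
      -- step 1: indices with `n i = 0` have `c i = 0`
      have h0 : ∀ i, n i = 0 → c i = 0 := by
        let c0 : ι → 𝕜 := fun i => if n i = 0 then c i else 0
        have hc0 : ∀ i, c0 i ≠ 0 → d i = K := by
          intro i hi
          simp only [c0] at hi
          split_ifs at hi with hn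
          · have := hc i hi
            rw [hn] at this
            simpa using this
          · exact absurd rfl hi
        let f'' : 𝒪 := ∑ i, (if n i = 0 then 0 else c i) • (S.e6 ^ (n i - 1) * b i)
        have hf'' : f'' ∈ S.M (K - 6) := by
          refine Submodule.sum_mem _ fun i _ => ?_
          split_ifs with hn
          · simp
          · by_cases hci : c i = 0
            · simp [hci]
            · refine Submodule.smul_mem _ _ ?_
              have h1 := S.RM_mul (S.e6_pow_mem (n i - 1)) (hb i)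
              refine S.M_cast ?_ h1
              have := hc i hci
              have hn1 : 1 ≤ n i := Nat.one_le_iff_ne_zero.mpr hn
              push_cast [Nat.cast_sub hn1]
              linarith
        have hsplit : ∑ i, c0 i • b i = S.e4 * g + S.e6 * (-f'') := by
          have : ∑ i, c i • (S.e6 ^ (n i) * b i)
              = ∑ i, c0 i • b i + S.e6 * f'' := by
            simp only [f'', Finset.mul_sum, ← Finset.sum_add_distrib, c0]
            refine Finset.sum_congr rfl fun i _ => ?_
            split_ifs with hn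
            · simp [hn]
            · have hn1 : n i = (n i - 1) + 1 := by omega
              rw [zero_smul, zero_add, mul_smul_comm]
              congr 1
              conv_lhs => rw [hn1, pow_succ]
              ring
          rw [this] at hrel
          rw [← hrel]; ring
        have hin : S.InW K (∑ i, c0 i • b i) :=
          ⟨g, hg, -f'', (S.M _).neg_mem hf'', hsplit⟩
        have := hW K c0 hc0 hin
        intro i hn
        have hi := this i
        simpa [c0, hn] using hi
      -- step 2: divide by e6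
      let f : 𝒪 := ∑ i, c i • (S.e6 ^ (n i - 1) * b i)
      have hf : f ∈ S.M (K - 6) := by
        refine Submodule.sum_mem _ fun i _ => ?_
        by_cases hci : c i = 0
        · simp [hci]
        · refine Submodule.smul_mem _ _ ?_
          have h1 := S.RM_mul (S.e6_pow_mem (n i - 1)) (hb i)
          refine S.M_cast ?_ h1
          have := hc i hci
          have hn1 : 1 ≤ n i := by
            rcases Nat.eq_zero_or_pos (n i) with h | h
            · exact absurd (h0 i h) hci
            · exact h
          push_cast [Nat.cast_sub hn1]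
          linarith
      have hef : S.e6 * f = S.e4 * g := by
        rw [← hrel]
        simp only [f, Finset.mul_sum]
        refine Finset.sum_congr rfl fun i _ => ?_
        by_cases hci : c i = 0
        · simp [hci]
        · have hn1 : 1 ≤ n i := by
            rcases Nat.eq_zero_or_pos (n i) with h | h
            · exact absurd (h0 i h) hci
            · exact h
          have hn2 : n i = (n i - 1) + 1 := by omega
          rw [mul_smul_comm]
          congr 1
          conv_rhs => rw [hn2, pow_succ]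
          ring
      have hg' : g ∈ S.M ((K - 6) + 2) := S.M_cast (by ring) hg
      obtain ⟨h, hh, hfh⟩ := S.e6_reg hf hg' hef
      have hh' : h ∈ S.M ((K - 6) - 4) := hh
      refine ih (K - 6) (by push_cast at hK; omega) c (fun i => n i - 1) h ?_ hh' hfh
      intro i hci
      have := hc i hci
      have hn1 : 1 ≤ n i := by
        rcases Nat.eq_zero_or_pos (n i) with h | h
        · exact absurd (h0 i h) hci
        · exact h
      push_cast [Nat.cast_sub hn1]
      linarith
  intro K
  exact key (K - D + 1).toNat K (by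
    have : (0 : ℤ) ≤ K - D + 1 ∨ K - D + 1 < 0 := le_or_gt _ _
    rcases this with h | h
    · rw [Int.toNat_of_nonneg h]; omega
    · rw [Int.toNat_of_nonpos h.le]; push_cast; omega)

/-- A family which is independent modulo the decomposable part in each degree is independent
over `R`. -/
theorem indep_of_modW (hb : ∀ i, b i ∈ S.M (d i)) (hW : S.ModW d b) : S.Indep d b := by
  classical
  obtain ⟨D, hD⟩ := exists_lower_bound (d := d)
  have key : ∀ N : ℕ, ∀ K : ℤ, K < D + N → ∀ r : ι → 𝒪, (∀ i, r i ∈ S.R (K - d i)) →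
      ∑ i, r i * b i = 0 → ∀ i, r i = 0 := by
    intro N
    induction N with
    | zero =>
      intro K hK r hr _ i
      refine S.R_neg ?_ _ (hr i)
      have := hD i
      push_cast at hK
      omega
    | succ N ih =>
      intro K hK r hr hrel
      choose s hs c n hcn hrs using fun i => S.R_decomp _ _ (hr i)
      -- the part modulo e4
      have hsum : ∑ i, s i * b i ∈ S.M (K - 4) := by
        refine Submodule.sum_mem _ fun i _ => ?_
        have := S.RM_mul (hs i) (hb i)
        exact S.M_cast (by ring) this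
      have h1 : ∑ i, c i • (S.e6 ^ (n i) * b i) = S.e4 * (-∑ i, s i * b i) := by
        have : ∑ i, r i * b i
            = S.e4 * (∑ i, s i * b i) + ∑ i, c i • (S.e6 ^ (n i) * b i) := by
          rw [Finset.mul_sum, ← Finset.sum_add_distrib]
          refine Finset.sum_congr rfl fun i _ => ?_
          rw [hrs i, add_mul, smul_mul_assoc]
          ring
        rw [this] at hrel
        linear_combination hrel
      have hc0 : ∀ i, c i = 0 := by
        refine S.modE4_indep hb hW K c n (-∑ i, s i * b i) ?_ ((S.M _).neg_mem hsum) h1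
        intro i hci
        have := hcn i hci
        linarith
      have h2 : S.e4 * (∑ i, s i * b i) = 0 := by
        have := h1
        simp only [hc0, zero_smul, Finset.sum_const_zero] at this
        linear_combination this
      have h3 : ∑ i, s i * b i = 0 := S.e4_reg hsum h2
      have hs0 : ∀ i, s i = 0 := by
        refine ih (K - 4) (by push_cast at hK; omega) s (fun i => ?_) h3
        exact S.R_cast (by ring) (hs i)
      intro i
      rw [hrs i, hs0 i, hc0 i]
      simp
  intro K
  exact key (K - D + 1).toNat K (by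
    have : (0 : ℤ) ≤ K - D + 1 ∨ K - D + 1 < 0 := le_or_gt _ _
    rcases this with h | h
    · rw [Int.toNat_of_nonneg h]; omega
    · rw [Int.toNat_of_nonpos h.le]; push_cast; omega)

/-- A family spanning modulo the decomposable part in each degree generates over `R`. -/
theorem gen_of_spanW (hspan : S.SpanW d b) : S.Gen d b := by
  classical
  have key : ∀ N : ℕ, ∀ k : ℤ, k < N → ∀ f ∈ S.M k,
      ∃ r : ι → 𝒪, (∀ i, r i ∈ S.R (k - d i)) ∧ f = ∑ i, r i * b i := by
    intro N
    induction N with
    | zero =>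
      intro k hk f hf
      refine ⟨fun _ => 0, fun i => (S.R _).zero_mem, ?_⟩
      rw [S.M_neg (by simpa using hk) f hf]
      simp
    | succ N ih =>
      intro k hk f hf
      obtain ⟨c, hc, f', hf', f'', hf'', hdec⟩ := hspan k f hf
      obtain ⟨r', hr', hfr'⟩ := ih (k - 4) (by push_cast at hk; omega) f' hf'
      obtain ⟨r'', hr'', hfr''⟩ := ih (k - 6) (by push_cast at hk; omega) f'' hf''
      refine ⟨fun i => c i • 1 + S.e4 * r' i + S.e6 * r'' i, fun i => ?_, ?_⟩
      · refine (S.R _).add_mem ((S.R _).add_mem ?_ ?_) ?_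
        · by_cases hci : c i = 0
          · simp [hci]
          · refine (S.R _).smul_mem _ ?_
            exact S.R_cast (by rw [hc i hci]; ring) S.one_mem
        · exact S.R_cast (by ring) (S.R_mul S.e4_mem (hr' i))
        · exact S.R_cast (by ring) (S.R_mul S.e6_mem (hr'' i))
      · have : f = ∑ i, c i • b i + (S.e4 * f' + S.e6 * f'') := by
          rw [← hdec]; ring
        rw [this, hfr', hfr'', Finset.mul_sum, Finset.mul_sum, ← Finset.sum_add_distrib,
          ← Finset.sum_add_distrib]
        refine Finset.sum_congr rfl fun i _ => ?_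
        rw [add_mul, add_mul, smul_mul_assoc, one_mul]
        ring
  intro k f hf
  exact key (k + 1).toNat k (by
    have : (0 : ℤ) ≤ k + 1 ∨ k + 1 < 0 := le_or_gt _ _
    rcases this with h | h
    · rw [Int.toNat_of_nonneg h]; omega
    · rw [Int.toNat_of_nonpos h.le]; push_cast; omega) f hf

end Family

/-- Existence of a homogeneous basis, given an a priori bound on the size of families which are
independent modulo the decomposable part. -/
theorem exists_basis (μ : ℕ)
    (hbound : ∀ (m : ℕ) (d : Fin m → ℤ) (b : Fin m → 𝒪), (∀ i, b i ∈ S.M (d i)) →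
      S.ModW d b → m ≤ μ) :
    ∃ (m : ℕ) (d : Fin m → ℤ) (b : Fin m → 𝒪), (∀ i, b i ∈ S.M (d i)) ∧
      S.Indep d b ∧ S.Gen d b := by
  classical
  let P : ℕ → Prop := fun m => ∃ (d : Fin m → ℤ) (b : Fin m → 𝒪),
    (∀ i, b i ∈ S.M (d i)) ∧ S.ModW d b
  have hP0 : P 0 := ⟨Fin.elim0, Fin.elim0, fun i => i.elim0, fun _ _ _ _ i => i.elim0⟩
  have hPle : ∀ m, P m → m ≤ μ := fun m ⟨d, b, hb, hW⟩ => hbound m d b hb hW
  -- a maximal `m`
  obtain ⟨m, hm, hmax⟩ : ∃ m, P m ∧ ∀ m', P m' → m' ≤ m := by
    refine ⟨Nat.findGreatest P μ, Nat.findGreatest_spec (Nat.zero_le μ) hP0, fun m' hm' => ?_⟩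
    exact Nat.le_findGreatest (hPle m' hm') hm'
  obtain ⟨d, b, hb, hW⟩ := hm
  refine ⟨m, d, b, hb, S.indep_of_modW hb hW, S.gen_of_spanW ?_⟩
  -- spanning: otherwise enlarge the family
  intro k f hf
  by_contra hcon
  push Not at hcon
  have hbad : P (m + 1) := by
    refine ⟨Fin.snoc d k, Fin.snoc b f, ?_, ?_⟩
    · intro i
      refine Fin.lastCases ?_ (fun j => ?_) i
      · simpa using hf
      · simpa using hb j
    · intro k' c hc hin
      rw [Fin.sum_univ_castSucc] at hin
      simp only [Fin.snoc_castSucc, Fin.snoc_last] at hin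
      have hlast : c (Fin.last m) = 0 := by
        by_contra hne
        have hk' : k = k' := by
          have := hc (Fin.last m) hne
          simpa using this
        subst hk'
        -- f - ∑ (-(c j)/c last) b j ∈ W
        let c' : Fin m → 𝕜 := fun j => -(c (Fin.last m))⁻¹ * c j.castSucc
        have hc' : ∀ j, c' j ≠ 0 → d j = k := by
          intro j hj
          have : c j.castSucc ≠ 0 := by
            intro h0
            apply hj
            simp [c', h0]
          have := hc j.castSucc this
          simpa using this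
        refine hcon c' hc' ?_
        have := S.inW_smul (c (Fin.last m))⁻¹ hin
        have heq : f - ∑ j, c' j • b j
            = (c (Fin.last m))⁻¹ • (∑ j : Fin m, c j.castSucc • b j + c (Fin.last m) • f) := by
          rw [smul_add, smul_smul, inv_mul_cancel₀ hne, one_smul, Finset.smul_sum]
          simp only [c', smul_smul, neg_mul, neg_smul, Finset.sum_neg_distrib, sub_neg_eq_add]
          rw [add_comm]
        rw [heq]
        exact this
      rw [hlast, zero_smul, add_zero] at hin
      have hold := hW k' (fun j => c j.castSucc) (fun j hj => by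
        have := hc j.castSucc hj
        simpa using this) hin
      intro i
      refine Fin.lastCases hlast (fun j => hold j) i
  have := hmax (m + 1) hbad
  omega

end Setup

end Fermat.Agent.S20FM.GradedAlg
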