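import Fermat.Agent.S20FM.Defs
import Fermat.Agent.S20FM.GradedAlg
import Fermat.Agent.S20FM.Regular
import Fermat.Prelude.Thm_ModularForm_sturm_bound_Gamma0
import Mathlib.NumberTheory.ModularForms.NormTrace

set_option autoImplicit false

open UpperHalfPlane ModularForm EisensteinSeries Filter Topology
open scoped MatrixGroups ModularForm Manifold

namespace Fermat.Agent.S20FM

open Fermat.Agent.S23 CongruenceSubgroup

/-- Coercion of modular forms to functions, as a linear map. -/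
noncomputable def coeLin (Γ : Subgroup (GL (Fin 2) ℝ)) [Γ.HasDetOne] (k : ℤ) :
    ModularForm Γ k →ₗ[ℂ] (ℍ → ℂ) where
  toFun F := F
  map_add' _ _ := rfl
  map_smul' _ _ := rfl

theorem coeLin_injective (Γ : Subgroup (GL (Fin 2) ℝ)) [Γ.HasDetOne] (k : ℤ) :
    Function.Injective (coeLin Γ k) := fun _ _ h => DFunLike.coe_injective h

/-- Modular forms of level `Γ` and weight `k`, as a subspace of all functions. -/
noncomputable def Msub (Γ : Subgroup (GL (Fin 2) ℝ)) [Γ.HasDetOne] (k : ℤ) :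
    Submodule ℂ (ℍ → ℂ) := LinearMap.range (coeLin Γ k)

theorem mem_Msub {Γ : Subgroup (GL (Fin 2) ℝ)} [Γ.HasDetOne] {k : ℤ} {f : ℍ → ℂ} :
    f ∈ Msub Γ k ↔ IsMF Γ k f := Iff.rfl

theorem G0_isMF_neg {N : ℕ} [NeZero N] {k : ℤ} (hk : k < 0) {f : ℍ → ℂ}
    (hf : IsMF (G0 N) k f) : f = 0 := by
  obtain ⟨F, rfl⟩ := hf
  rw [ModularForm.isZero_of_neg_weight hk F]
  rfl

/-- The abstract graded set-up for level `Γ₀(N)`. -/
noncomputable def setup (N : ℕ) [NeZero N] : GradedAlg.Setup ℂ (ℍ → ℂ) where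
  R := Msub 𝒮ℒ
  M := Msub (G0 N)
  e4 := (E₄ : ℍ → ℂ)
  e6 := (E₆ : ℍ → ℂ)
  one_mem := IsMF.one
  R_mul := fun hr hs => IsMF.mul hr hs
  e4_mem := isMF_E4
  e6_mem := isMF_E6
  R_neg := fun ha r hr => levelOne_neg ha hr
  R_decomp := fun a r hr => by
    obtain ⟨s, hs, c, n, hcn, h⟩ := levelOne_decomp a r hr
    exact ⟨s, hs, c, n, hcn, h⟩
  RM_mul := fun hr hf => IsMF.mul (IsMF.levelOne_to_G0 hr) hf
  e4_reg := fun hf h => e4_reg (IsMF.mdiff hf) h
  e6_reg := fun hf hg h => by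
    obtain ⟨h', hh', e⟩ := e6_reg (G0_le_SL N) hf hg h
    exact ⟨h', hh', e⟩
  M_neg := fun hk f hf => G0_isMF_neg hk hf

/-! ### Dimension bounds -/

/-- Truncated `q`-expansion. -/
noncomputable def coeffTrunc (N : ℕ) (K : ℤ) (B : ℕ) :
    ModularForm (G0 N) K →ₗ[ℂ] (Fin (B + 1) → ℂ) where
  toFun F i := (qExpansion 1 (F : ℍ → ℂ)).coeff i
  map_add' F G := by
    funext i
    have := qExp_add (IsMF.nice ⟨F, rfl⟩ : Nice (F : ℍ → ℂ)) (IsMF.nice ⟨G, rfl⟩ : Nice (G : ℍ → ℂ))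
    change (qExpansion 1 ((F : ℍ → ℂ) + (G : ℍ → ℂ))).coeff i = _
    rw [this]; simp
  map_smul' c F := by
    funext i
    have := qExp_smul c (IsMF.nice ⟨F, rfl⟩ : Nice (F : ℍ → ℂ))
    change (qExpansion 1 (c • (F : ℍ → ℂ))).coeff i = _
    rw [this]; simp

theorem coeffTrunc_injective (N : ℕ) [NeZero N] (K : ℤ) :
    Function.Injective (coeffTrunc N K ((K * (Gamma0 N).index).toNat / 12)) := by
  refine (injective_iff_map_eq_zero _).mpr fun F hF => ?_
  refine ModularForm.sturm_bound_Gamma0 N F fun n hn => ?_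
  have := congrFun hF ⟨n, Nat.lt_succ_iff.mpr hn⟩
  simpa [coeffTrunc] using this

instance finiteDimensional_G0 (N : ℕ) [NeZero N] (K : ℤ) :
    FiniteDimensional ℂ (ModularForm (G0 N) K) :=
  FiniteDimensional.of_injective _ (coeffTrunc_injective N K)

theorem finrank_G0_le (N : ℕ) [NeZero N] (K : ℤ) :
    Module.finrank ℂ (ModularForm (G0 N) K) ≤ (K * (Gamma0 N).index).toNat / 12 + 1 := by
  have h := LinearMap.finrank_le_finrank_of_injective (coeffTrunc_injective N K)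
  simpa using h

instance finiteDimensional_Msub_G0 (N : ℕ) [NeZero N] (K : ℤ) :
    FiniteDimensional ℂ (Msub (G0 N) K) := by
  unfold Msub
  infer_instance

theorem finrank_Msub (Γ : Subgroup (GL (Fin 2) ℝ)) [Γ.HasDetOne] (k : ℤ) :
    Module.finrank ℂ (Msub Γ k) = Module.finrank ℂ (ModularForm Γ k) :=
  LinearMap.finrank_range_of_inj (coeLin_injective Γ k)

theorem finrank_levelOne_ge (a : ℕ) (ha : Even a) :
    a / 12 ≤ Module.finrank ℂ (ModularForm 𝒮ℒ (a : ℤ)) := by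
  have h := ModularForm.dimension_level_one a ha
  have h2 : Module.finrank ℂ (ModularForm 𝒮ℒ (a : ℤ))
      = if a ≡ 2 [MOD 12] then a / 12 else a / 12 + 1 := by
    unfold Module.finrank
    rw [h]
    split_ifs <;> simp
  rw [h2]
  split_ifs <;> omega

end Fermat.Agent.S20FM
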