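import Mathlib

/-!
# FM7: counting eigenvalues of a permutation operator from a basis of eigenvectors

(helper23, T20 FM-route, pure linear algebra.)

`X` a finite type, `σ : Equiv.Perm X`, `v : ι → X → ℂ` a basis of `X → ℂ` consisting of
eigenvectors of the permutation operator `f ↦ f ∘ σ`, with eigenvalues `lam i`.  Then

* `card_eq_finrank_eigenspace` : `#{i | lam i = μ}` is the dimension of the `μ`-eigenspace;
* `card_eq_one_eq_card_orbits` : `#{i | lam i = 1}` is the number of `σ`-orbits on `X`;
* `card_eq_conj` : `#{i | lam i = μ} = #{i | lam i = conj μ}`;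
* `card_primitive_cube_root` : for a primitive cube root of unity `ζ`,
  `#{i | lam i = ζ} = #{i | lam i = ζ ^ 2}`.
-/

set_option autoImplicit false

open Module

namespace Fermat.Agent.S20FM.EigenCount

variable {X : Type*} {ι : Type*}

/-- The permutation operator `f ↦ f ∘ σ` on `X → ℂ`. -/
noncomputable def permOp (σ : Equiv.Perm X) : (X → ℂ) →ₗ[ℂ] (X → ℂ) :=
  LinearMap.funLeft ℂ ℂ σ

@[simp]
theorem permOp_apply (σ : Equiv.Perm X) (f : X → ℂ) (x : X) : permOp σ f x = f (σ x) := rfl

theorem mem_eigenspace_iff (σ : Equiv.Perm X) (μ : ℂ) (f : X → ℂ) :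
    f ∈ Module.End.eigenspace (permOp σ) μ ↔ ∀ x, f (σ x) = μ * f x := by
  rw [Module.End.mem_eigenspace_iff]
  constructor
  · intro h x
    have := congrFun h x
    simpa using this
  · intro h
    funext x
    simpa using h x

section Basis

variable [Fintype X] [Fintype ι] (σ : Equiv.Perm X) (v : ι → X → ℂ) (lam : ι → ℂ)
  (hv : LinearIndependent ℂ v) (hcard : Fintype.card ι = Fintype.card X)
  (heig : ∀ i x, v i (σ x) = lam i * v i x)

include hv hcard heig

/-- The `μ`-eigenspace is spanned by the basis vectors with eigenvalue `μ`. -/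
theorem eigenspace_eq_span (μ : ℂ) :
    Module.End.eigenspace (permOp σ) μ =
      Submodule.span ℂ (Set.range fun i : {i // lam i = μ} => v i) := by
  classical
  have hfr : Fintype.card ι = finrank ℂ (X → ℂ) := by
    rw [hcard, Module.finrank_fintype_fun_eq_card]
  have htop : Submodule.span ℂ (Set.range v) = ⊤ :=
    hv.span_eq_top_of_card_eq_finrank' hfr
  apply le_antisymm
  · intro f hf
    rw [mem_eigenspace_iff] at hf
    -- expand `f` in the basis
    obtain ⟨c, hsum⟩ : ∃ c : ι → ℂ, ∑ i, c i • v i = f :=
      (Submodule.mem_span_range_iff_exists_fun ℂ).mp (htop ▸ Submodule.mem_top)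
    -- coefficients of `f ∘ σ` in two ways
    have e1 : (fun x => f (σ x)) = ∑ i, (c i * lam i) • v i := by
      funext x
      rw [← hsum]
      simp only [Finset.sum_apply, Pi.smul_apply, smul_eq_mul]
      refine Finset.sum_congr rfl fun i _ => ?_
      rw [heig i x]; ring
    have e2 : (fun x => f (σ x)) = ∑ i, (μ * c i) • v i := by
      funext x
      rw [hf x, ← hsum]
      simp only [Finset.sum_apply, Pi.smul_apply, smul_eq_mul, Finset.mul_sum]
      refine Finset.sum_congr rfl fun i _ => ?_
      ring
    have h2 : ∀ i, c i * lam i = μ * c i := by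
      have h3 : ∑ i, (c i * lam i - μ * c i) • v i = 0 := by
        simp only [sub_smul, Finset.sum_sub_distrib]
        rw [← e1, e2, sub_self]
      intro i
      have := Fintype.linearIndependent_iff.mp hv _ h3 i
      exact sub_eq_zero.mp this
    rw [← hsum]
    refine Submodule.sum_mem _ fun i _ => ?_
    by_cases hi : lam i = μ
    · exact Submodule.smul_mem _ _ (Submodule.subset_span ⟨⟨i, hi⟩, rfl⟩)
    · have : c i = 0 := by
        have h4 := h2 i
        have h5 : c i * (lam i - μ) = 0 := by rw [mul_sub, h4]; ring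
        rcases mul_eq_zero.mp h5 with h | h
        · exact h
        · exact absurd (sub_eq_zero.mp h) hi
      rw [this, zero_smul]
      exact Submodule.zero_mem _
  · rw [Submodule.span_le]
    rintro _ ⟨⟨i, hi⟩, rfl⟩
    show v i ∈ Module.End.eigenspace (permOp σ) μ
    rw [mem_eigenspace_iff]
    intro x
    rw [heig i x, hi]

/-- **(E1)** The number of basis eigenvectors with eigenvalue `μ` is the dimension of the
`μ`-eigenspace of the permutation operator. -/
theorem card_eq_finrank_eigenspace (μ : ℂ) :
    Fintype.card {i // lam i = μ} = finrank ℂ (Module.End.eigenspace (permOp σ) μ) := by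
  rw [eigenspace_eq_span σ v lam hv hcard heig μ]
  have hli : LinearIndependent ℂ (fun i : {i // lam i = μ} => v i) :=
    hv.comp _ Subtype.val_injective
  exact (finrank_span_eq_card hli).symm

end Basis

section Orbits

variable (σ : Equiv.Perm X)

/-- The type of `σ`-orbits on `X`. -/
abbrev Orb : Type _ := MulAction.orbitRel.Quotient (Subgroup.zpowers σ) X

/-- The projection to the orbit space. -/
def toOrb (x : X) : Orb σ := Quotient.mk'' x

theorem toOrb_surjective : Function.Surjective (toOrb σ) := Quotient.mk''_surjective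

theorem toOrb_apply (x : X) : toOrb σ (σ x) = toOrb σ x := by
  apply Quotient.sound'
  rw [MulAction.orbitRel_apply]
  exact ⟨⟨σ, Subgroup.mem_zpowers σ⟩, rfl⟩

theorem invariant_zpow {f : X → ℂ} (hf : ∀ x, f (σ x) = f x) (n : ℤ) (x : X) :
    f ((σ ^ n) x) = f x := by
  induction n using Int.induction_on generalizing x with
  | zero => simp
  | succ n ih =>
    rw [zpow_add_one, Equiv.Perm.mul_apply, ih, hf]
  | pred n ih =>
    rw [zpow_sub_one, Equiv.Perm.mul_apply, ih]
    have := hf (σ⁻¹ x)
    rw [show σ (σ⁻¹ x) = x from Equiv.apply_symm_apply σ x] at this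
    exact this.symm

theorem eigenspace_one_eq_range :
    Module.End.eigenspace (permOp σ) 1 = LinearMap.range (LinearMap.funLeft ℂ ℂ (toOrb σ)) := by
  apply le_antisymm
  · intro f hf
    rw [mem_eigenspace_iff] at hf
    have hf' : ∀ x, f (σ x) = f x := fun x => by rw [hf x, one_mul]
    refine ⟨Quotient.lift f ?_, ?_⟩
    · intro a b hab
      change MulAction.orbitRel (Subgroup.zpowers σ) X a b at hab
      rw [MulAction.orbitRel_apply] at hab
      obtain ⟨⟨g, hg⟩, rfl⟩ := hab
      obtain ⟨n, rfl⟩ := Subgroup.mem_zpowers_iff.mp hg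
      exact invariant_zpow σ hf' n b
    · funext x
      rfl
  · rintro _ ⟨g, rfl⟩
    rw [mem_eigenspace_iff]
    intro x
    rw [one_mul]
    show g (toOrb σ (σ x)) = g (toOrb σ x)
    rw [toOrb_apply]

variable [Fintype X]

/-- The dimension of the space of `σ`-invariant functions is the number of `σ`-orbits. -/
theorem finrank_eigenspace_one :
    finrank ℂ (Module.End.eigenspace (permOp σ) 1) = Nat.card (Orb σ) := by
  classical
  let _ : Fintype (Orb σ) := Fintype.ofFinite _
  rw [eigenspace_one_eq_range,
    LinearMap.finrank_range_of_inj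
      (LinearMap.funLeft_injective_of_surjective ℂ ℂ (toOrb σ) (toOrb_surjective σ)),
    Module.finrank_fintype_fun_eq_card, Nat.card_eq_fintype_card]

end Orbits

section Counting

variable [Fintype X] [Fintype ι] (σ : Equiv.Perm X) (v : ι → X → ℂ) (lam : ι → ℂ)
  (hv : LinearIndependent ℂ v) (hcard : Fintype.card ι = Fintype.card X)
  (heig : ∀ i x, v i (σ x) = lam i * v i x)

include hv hcard heig

/-- **(E2)** The number of basis eigenvectors with eigenvalue `1` is the number of
`σ`-orbits on `X`. -/
theorem card_eq_one_eq_card_orbits :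
    Fintype.card {i // lam i = 1} =
      Nat.card (MulAction.orbitRel.Quotient (Subgroup.zpowers σ) X) := by
  rw [card_eq_finrank_eigenspace σ v lam hv hcard heig 1, finrank_eigenspace_one]

/-- **(E3b)** Conjugation symmetry of the eigenvalue multiplicities. -/
theorem card_eq_conj (μ : ℂ) :
    Fintype.card {i // lam i = μ} = Fintype.card {i // lam i = (starRingEnd ℂ) μ} := by
  classical
  -- the conjugate basis
  let v' : ι → X → ℂ := fun i x => (starRingEnd ℂ) (v i x)
  let lam' : ι → ℂ := fun i => (starRingEnd ℂ) (lam i)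
  have hv' : LinearIndependent ℂ v' := by
    rw [Fintype.linearIndependent_iff]
    intro c hc
    have h1 : ∑ i, (starRingEnd ℂ) (c i) • v i = 0 := by
      funext x
      have := congrArg (starRingEnd ℂ) (congrFun hc x)
      simpa [v', Finset.sum_apply, map_sum, map_mul] using this
    intro i
    have := Fintype.linearIndependent_iff.mp hv _ h1 i
    simpa using this
  have heig' : ∀ i x, v' i (σ x) = lam' i * v' i x := by
    intro i x
    simp only [v', lam', heig i x, map_mul]
  have h1 := card_eq_finrank_eigenspace σ v lam hv hcard heig ((starRingEnd ℂ) μ)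
  have h2 := card_eq_finrank_eigenspace σ v' lam' hv' hcard heig' ((starRingEnd ℂ) μ)
  rw [h1, ← h2]
  refine Fintype.card_congr (Equiv.subtypeEquivRight fun i => ?_)
  simp only [lam']
  constructor
  · intro h; rw [h]
  · intro h
    have := congrArg (starRingEnd ℂ) h
    simpa using this

/-- **(E3)** For a primitive cube root of unity `ζ`, the eigenvalues `ζ` and `ζ²` occur equally
often. -/
theorem card_primitive_cube_root {ζ : ℂ} (hζ : IsPrimitiveRoot ζ 3) :
    Fintype.card {i // lam i = ζ} = Fintype.card {i // lam i = ζ ^ 2} := by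
  have h3 : ζ ^ 3 = 1 := hζ.pow_eq_one
  have hne : ζ ≠ 0 := hζ.ne_zero (by norm_num)
  have hnorm : ‖ζ‖ = 1 := Complex.norm_eq_one_of_pow_eq_one h3 (by norm_num)
  have hconj : (starRingEnd ℂ) ζ = ζ ^ 2 := by
    have h1 : (starRingEnd ℂ) ζ * ζ = 1 := by
      rw [mul_comm, Complex.mul_conj, Complex.normSq_eq_norm_sq, hnorm]; simp
    have h2 : ζ ^ 2 * ζ = 1 := by rw [← h3]; ring
    exact mul_right_cancel₀ hne (h1.trans h2.symm)
  rw [card_eq_conj σ v lam hv hcard heig ζ, hconj]

/-- **(E2')** Predicate form: if `lam i = 1 ↔ p i`, then `#{i | p i}` is the number of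
`σ`-orbits (consumer: `p i := 4 ∣ d i` at `τ₀ = i`, `p i := 6 ∣ d i` at `τ₀ = ρ`). -/
theorem card_pred_eq_card_orbits (p : ι → Prop) [DecidablePred p]
    (hp : ∀ i, lam i = 1 ↔ p i) :
    Fintype.card {i // p i} =
      Nat.card (MulAction.orbitRel.Quotient (Subgroup.zpowers σ) X) := by
  classical
  rw [← card_eq_one_eq_card_orbits σ v lam hv hcard heig]
  exact Fintype.card_congr (Equiv.subtypeEquivRight fun i => (hp i).symm)

/-- **(E3')** Predicate form of `card_primitive_cube_root` (consumer: `p i := d i ≡ 2 [ZMOD 6]`,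
`q i := d i ≡ 4 [ZMOD 6]` at `τ₀ = ρ`). -/
theorem card_pred_cube_root {ζ : ℂ} (hζ : IsPrimitiveRoot ζ 3) (p q : ι → Prop)
    [DecidablePred p] [DecidablePred q]
    (hp : ∀ i, lam i = ζ ↔ p i) (hq : ∀ i, lam i = ζ ^ 2 ↔ q i) :
    Fintype.card {i // p i} = Fintype.card {i // q i} := by
  classical
  rw [← Fintype.card_congr (Equiv.subtypeEquivRight hp),
    ← Fintype.card_congr (Equiv.subtypeEquivRight hq)]
  exact card_primitive_cube_root σ v lam hv hcard heig hζ

end Counting

end Fermat.Agent.S20FM.EigenCount
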