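import Fermat.Agent.S20FM.Defs
import Fermat.Agent.S20FM.EigenCount
import Fermat.Agent.S23.Basic

/-!
# FM7, consumer side: counting the generator weights modulo `4` and `6`

(helper23, T20 FM-route.)  From a `FreeBasis (G0 N)` with `m = [SL(2,ℤ) : Γ₀(N)]` generators whose
conjugate vectors are linearly independent at a point `τ₀` fixed by `h ∈ SL(2,ℤ)`, the vectors
restricted to the coset space `SL(2,ℤ) ⧸ Γ₀(N)` form a basis of eigenvectors of the permutation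
induced by `h`, with eigenvalues `denom h⁻¹ τ₀ ^ (-d i)`.
-/

set_option autoImplicit false

open UpperHalfPlane ModularForm CongruenceSubgroup
open scoped MatrixGroups ModularForm Manifold

namespace Fermat.Agent.S20FM

open Fermat.Agent.S23

namespace Counts

variable {N : ℕ} {k : ℤ} {f : ℍ → ℂ}

theorem mapGL_mem_G0 {γ : SL(2, ℤ)} (h : γ ∈ Gamma0 N) :
    (Matrix.SpecialLinearGroup.mapGL ℝ γ) ∈ G0 N := ⟨γ, h, rfl⟩

/-- Conjugates only depend on the right coset `Γ₀(N) γ`. -/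
theorem vec_mul_left (hf : IsMF (G0 N) k f) (τ : ℍ) {γ₀ : SL(2, ℤ)} (h : γ₀ ∈ Gamma0 N)
    (γ : SL(2, ℤ)) : vec k f τ (γ₀ * γ) = vec k f τ γ := by
  unfold vec
  rw [SlashAction.slash_mul]
  have : f ∣[k] γ₀ = f := by
    rw [ModularForm.SL_slash]
    exact hf.slash_eq (mapGL_mem_G0 h)
  rw [this]

/-- Behaviour of the conjugate vector under right multiplication by an element fixing `τ`. -/
theorem vec_mul_right (τ : ℍ) {h : SL(2, ℤ)} (hh : h • τ = τ) (γ : SL(2, ℤ)) :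
    vec k f τ (γ * h) = denom h τ ^ (-k) * vec k f τ γ := by
  unfold vec
  rw [SlashAction.slash_mul, ModularForm.SL_slash_apply, hh, mul_comm]

/-- The conjugate vector as a function on the coset space `SL(2,ℤ) ⧸ Γ₀(N)`:
`g Γ₀(N) ↦ (f ∣ g⁻¹) τ`. -/
noncomputable def cvec (N : ℕ) (k : ℤ) (f : ℍ → ℂ) (τ : ℍ) : SL(2, ℤ) ⧸ Gamma0 N → ℂ :=
  fun x => vec k f τ (x.out)⁻¹

theorem cvec_mk (hf : IsMF (G0 N) k f) (τ : ℍ) (g : SL(2, ℤ)) :
    cvec N k f τ (g : SL(2, ℤ) ⧸ Gamma0 N) = vec k f τ g⁻¹ := by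
  unfold cvec
  obtain ⟨γ₀, hγ₀⟩ := QuotientGroup.mk_out_eq_mul (Gamma0 N) g
  rw [hγ₀, mul_inv_rev]
  exact vec_mul_left hf τ (inv_mem γ₀.2) _

theorem cvec_smul (hf : IsMF (G0 N) k f) (τ : ℍ) {h : SL(2, ℤ)} (hh : h • τ = τ)
    (x : SL(2, ℤ) ⧸ Gamma0 N) :
    cvec N k f τ (h • x) = denom (h⁻¹ : SL(2, ℤ)) τ ^ (-k) * cvec N k f τ x := by
  induction x using QuotientGroup.induction_on with
  | H g =>
    have hh' : h⁻¹ • τ = τ := by rw [inv_smul_eq_iff, hh]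
    rw [MulAction.Quotient.smul_mk, smul_eq_mul, cvec_mk hf, cvec_mk hf, mul_inv_rev,
      vec_mul_right τ hh']

end Counts

open Counts Fermat.Agent.S20FM.EigenCount

variable {N : ℕ} [NeZero N]

noncomputable local instance instFintypeQuotCountsH23 : Fintype (SL(2, ℤ) ⧸ Gamma0 N) :=
  @Fintype.ofFinite _ Subgroup.finite_quotient_of_finiteIndex

omit [NeZero N] in
/-- The restricted conjugate vectors are linearly independent on the coset space. -/
theorem FreeBasis.linearIndependent_cvec (B : FreeBasis (G0 N)) (τ₀ : ℍ)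
    (hind : LinearIndependent ℂ (fun i => vec (B.d i) (B.b i) τ₀)) :
    LinearIndependent ℂ (fun i => cvec N (B.d i) (B.b i) τ₀) := by
  rw [Fintype.linearIndependent_iff] at hind ⊢
  intro c hc
  apply hind c
  funext γ
  have := congrFun hc ((γ⁻¹ : SL(2, ℤ)) : SL(2, ℤ) ⧸ Gamma0 N)
  simp only [Finset.sum_apply, Pi.smul_apply, smul_eq_mul, Pi.zero_apply] at this ⊢
  rw [← this]
  refine Finset.sum_congr rfl fun i _ => ?_
  rw [cvec_mk (B.isMF i), inv_inv]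

/-- **General count.** For `h` fixing `τ₀`, the number of generators whose multiplier
`denom h⁻¹ τ₀ ^ (-d i)` equals `μ` is the dimension of the `μ`-eigenspace of the permutation
of the coset space induced by `h`. -/
theorem FreeBasis.card_multiplier_eq (B : FreeBasis (G0 N))
    (hm : B.m = Nat.card (SL(2, ℤ) ⧸ Gamma0 N)) (τ₀ : ℍ)
    (hind : LinearIndependent ℂ (fun i => vec (B.d i) (B.b i) τ₀))
    {h : SL(2, ℤ)} (hh : h • τ₀ = τ₀) (μ : ℂ) :
    Fintype.card {i // denom (h⁻¹ : SL(2, ℤ)) τ₀ ^ (-(B.d i)) = μ} =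
      Module.finrank ℂ (Module.End.eigenspace
        (permOp (MulAction.toPerm h : Equiv.Perm (SL(2, ℤ) ⧸ Gamma0 N))) μ) := by
  refine card_eq_finrank_eigenspace (MulAction.toPerm h)
    (fun i => cvec N (B.d i) (B.b i) τ₀) (fun i => denom (h⁻¹ : SL(2, ℤ)) τ₀ ^ (-(B.d i)))
    (B.linearIndependent_cvec τ₀ hind) ?_ ?_ μ
  · rw [Fintype.card_fin, hm, Nat.card_eq_fintype_card]
  · intro i x
    exact cvec_smul (B.isMF i) τ₀ hh x

namespace Counts

open ModularGroup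

theorem S_smul_I : (S : SL(2, ℤ)) • UpperHalfPlane.I = UpperHalfPlane.I :=
  stabilizer_I.mpr (by simp)

theorem ST_smul_ρ : (S * T : SL(2, ℤ)) • UpperHalfPlane.ρ = UpperHalfPlane.ρ :=
  stabilizer_ρ.mpr (by simp)

theorem denom_S_inv (z : ℍ) : denom ((S⁻¹ : SL(2, ℤ))) z = -(z : ℂ) := by
  rw [ModularGroup.denom_apply]
  have h10 : (S⁻¹ : SL(2, ℤ)) 1 0 = -1 := by decide
  have h11 : (S⁻¹ : SL(2, ℤ)) 1 1 = 0 := by decide
  rw [h10, h11]
  simp

theorem denom_ST_inv (z : ℍ) : denom (((S * T)⁻¹ : SL(2, ℤ))) z = -(z : ℂ) := by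
  rw [ModularGroup.denom_apply]
  have h10 : ((S * T)⁻¹ : SL(2, ℤ)) 1 0 = -1 := by decide
  have h11 : ((S * T)⁻¹ : SL(2, ℤ)) 1 1 = 0 := by decide
  rw [h10, h11]
  simp

theorem rho_cube : ((UpperHalfPlane.ρ : ℍ) : ℂ) ^ 3 = 1 := by
  have h := UpperHalfPlane.ρ_sq
  calc ((UpperHalfPlane.ρ : ℍ) : ℂ) ^ 3 = (UpperHalfPlane.ρ : ℂ) ^ 2 * (UpperHalfPlane.ρ : ℂ) := by ring
    _ = 1 := by
      rw [h]
      have : (-(UpperHalfPlane.ρ : ℂ) - 1) * (UpperHalfPlane.ρ : ℂ) =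
          -((UpperHalfPlane.ρ : ℂ) ^ 2) - (UpperHalfPlane.ρ : ℂ) := by ring
      rw [this, h]; ring

theorem rho_ne_one : ((UpperHalfPlane.ρ : ℍ) : ℂ) ≠ 1 := by
  intro h
  have := congrArg Complex.im h
  have him : ((UpperHalfPlane.ρ : ℍ) : ℂ).im = Real.sqrt 3 / 2 := rfl
  rw [him, Complex.one_im] at this
  have h3 : (0 : ℝ) < Real.sqrt 3 := Real.sqrt_pos.mpr (by norm_num)
  linarith

theorem isPrimitiveRoot_rho : IsPrimitiveRoot ((UpperHalfPlane.ρ : ℍ) : ℂ) 3 := by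
  refine IsPrimitiveRoot.mk_of_lt _ (by norm_num) rho_cube fun l hl0 hl3 => ?_
  interval_cases l
  · simpa using rho_ne_one
  · rw [UpperHalfPlane.ρ_sq]
    intro h
    have := congrArg Complex.im h
    have him : ((UpperHalfPlane.ρ : ℍ) : ℂ).im = Real.sqrt 3 / 2 := rfl
    simp only [Complex.sub_im, Complex.neg_im, Complex.one_im, him] at this
    have h3 : (0 : ℝ) < Real.sqrt 3 := Real.sqrt_pos.mpr (by norm_num)
    linarith

/-- `(-i) ^ (-(2 e)) = (-1) ^ e`. -/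
theorem neg_I_zpow (e : ℤ) : (-(UpperHalfPlane.I : ℂ)) ^ (-(e + e)) = (-1 : ℂ) ^ e := by
  have h2 : (-(UpperHalfPlane.I : ℂ)) ^ (2 : ℤ) = -1 := by
    rw [UpperHalfPlane.coe_I]
    norm_num [zpow_ofNat]
  have : -(e + e) = 2 * (-e) := by ring
  rw [this, zpow_mul, h2, zpow_neg]
  rcases Int.even_or_odd e with he | he
  · rw [he.neg_one_zpow]; simp
  · rw [he.neg_one_zpow]; norm_num

/-- `(-ρ) ^ (-(2 e)) = ρ ^ e`. -/
theorem neg_rho_zpow (e : ℤ) :
    (-(UpperHalfPlane.ρ : ℂ)) ^ (-(e + e)) = (UpperHalfPlane.ρ : ℂ) ^ e := by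
  have hρ0 : (UpperHalfPlane.ρ : ℂ) ≠ 0 := UpperHalfPlane.ne_zero _
  have h2 : (-(UpperHalfPlane.ρ : ℂ)) ^ (2 : ℤ) = (UpperHalfPlane.ρ : ℂ) ^ (2 : ℤ) := by
    norm_num [zpow_ofNat]
  have h3 : (UpperHalfPlane.ρ : ℂ) ^ (3 : ℤ) = 1 := by
    have := rho_cube
    rw [← zpow_natCast] at this
    exact_mod_cast this
  have e1 : -(e + e) = 2 * (-e) := by ring
  rw [e1, zpow_mul, h2, ← zpow_mul]
  have e2 : (2 : ℤ) * (-e) = e + 3 * (-e) := by ring
  rw [e2, zpow_add₀ hρ0, zpow_mul, h3, one_zpow, mul_one]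

end Counts

open ModularGroup in
/-- **(FM7-a)** The number of generators of weight divisible by `4` is the number of orbits of
`S` on the coset space. -/
theorem FreeBasis.card_four_dvd (B : FreeBasis (G0 N)) (hev : ∀ i, Even (B.d i))
    (hm : B.m = Nat.card (SL(2, ℤ) ⧸ Gamma0 N))
    (hind : LinearIndependent ℂ (fun i => vec (B.d i) (B.b i) UpperHalfPlane.I)) :
    Fintype.card {i // (4 : ℤ) ∣ B.d i} =
      Nat.card (MulAction.orbitRel.Quotient
        (Subgroup.zpowers (MulAction.toPerm (S : SL(2, ℤ)) : Equiv.Perm (SL(2, ℤ) ⧸ Gamma0 N)))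
        (SL(2, ℤ) ⧸ Gamma0 N)) := by
  classical
  refine card_pred_eq_card_orbits (MulAction.toPerm (S : SL(2, ℤ)))
    (fun i => cvec N (B.d i) (B.b i) UpperHalfPlane.I)
    (fun i => denom ((S⁻¹ : SL(2, ℤ))) UpperHalfPlane.I ^ (-(B.d i)))
    (B.linearIndependent_cvec _ hind) ?_ ?_ (fun i => (4 : ℤ) ∣ B.d i) ?_
  · rw [Fintype.card_fin, hm, Nat.card_eq_fintype_card]
  · intro i x
    exact cvec_smul (B.isMF i) _ S_smul_I x
  · intro i
    obtain ⟨e, he⟩ := hev i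
    rw [denom_S_inv, he, neg_I_zpow]
    constructor
    · intro h
      rcases Int.even_or_odd e with h2 | h2
      · obtain ⟨r, hr⟩ := h2
        exact ⟨r, by rw [hr]; ring⟩
      · rw [h2.neg_one_zpow] at h
        norm_num at h
    · rintro ⟨r, hr⟩
      have : e = r + r := by omega
      rw [this, Even.neg_one_zpow ⟨r, rfl⟩]

open ModularGroup in
/-- **(FM7-b)** The number of generators of weight divisible by `6` is the number of orbits of
`S * T` on the coset space. -/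
theorem FreeBasis.card_six_dvd (B : FreeBasis (G0 N)) (hev : ∀ i, Even (B.d i))
    (hm : B.m = Nat.card (SL(2, ℤ) ⧸ Gamma0 N))
    (hind : LinearIndependent ℂ (fun i => vec (B.d i) (B.b i) UpperHalfPlane.ρ)) :
    Fintype.card {i // (6 : ℤ) ∣ B.d i} =
      Nat.card (MulAction.orbitRel.Quotient
        (Subgroup.zpowers
          (MulAction.toPerm (S * T : SL(2, ℤ)) : Equiv.Perm (SL(2, ℤ) ⧸ Gamma0 N)))
        (SL(2, ℤ) ⧸ Gamma0 N)) := by
  classical
  refine card_pred_eq_card_orbits (MulAction.toPerm (S * T : SL(2, ℤ)))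
    (fun i => cvec N (B.d i) (B.b i) UpperHalfPlane.ρ)
    (fun i => denom (((S * T)⁻¹ : SL(2, ℤ))) UpperHalfPlane.ρ ^ (-(B.d i)))
    (B.linearIndependent_cvec _ hind) ?_ ?_ (fun i => (6 : ℤ) ∣ B.d i) ?_
  · rw [Fintype.card_fin, hm, Nat.card_eq_fintype_card]
  · intro i x
    exact cvec_smul (B.isMF i) _ ST_smul_ρ x
  · intro i
    obtain ⟨e, he⟩ := hev i
    rw [denom_ST_inv, he, neg_rho_zpow, isPrimitiveRoot_rho.zpow_eq_one_iff_dvd]
    constructor
    · rintro ⟨r, hr⟩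
      exact ⟨r, by rw [hr]; push_cast; ring⟩
    · rintro ⟨r, hr⟩
      exact ⟨r, by push_cast; omega⟩

open ModularGroup in
/-- **(FM7-c)** The generators of weight `≡ 2 mod 6` and `≡ 4 mod 6` are equinumerous. -/
theorem FreeBasis.card_two_mod_six_eq (B : FreeBasis (G0 N)) (hev : ∀ i, Even (B.d i))
    (hm : B.m = Nat.card (SL(2, ℤ) ⧸ Gamma0 N))
    (hind : LinearIndependent ℂ (fun i => vec (B.d i) (B.b i) UpperHalfPlane.ρ)) :
    Fintype.card {i // B.d i % 6 = 2} = Fintype.card {i // B.d i % 6 = 4} := by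
  classical
  refine card_pred_cube_root (MulAction.toPerm (S * T : SL(2, ℤ)))
    (fun i => cvec N (B.d i) (B.b i) UpperHalfPlane.ρ)
    (fun i => denom (((S * T)⁻¹ : SL(2, ℤ))) UpperHalfPlane.ρ ^ (-(B.d i)))
    (B.linearIndependent_cvec _ hind) ?_ ?_ isPrimitiveRoot_rho
    (fun i => B.d i % 6 = 2) (fun i => B.d i % 6 = 4) ?_ ?_
  · rw [Fintype.card_fin, hm, Nat.card_eq_fintype_card]
  · intro i x
    exact cvec_smul (B.isMF i) _ ST_smul_ρ x
  · intro i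
    obtain ⟨e, he⟩ := hev i
    have hρ0 : (UpperHalfPlane.ρ : ℂ) ≠ 0 := UpperHalfPlane.ne_zero _
    rw [denom_ST_inv, he, neg_rho_zpow]
    have : (UpperHalfPlane.ρ : ℂ) ^ e = (UpperHalfPlane.ρ : ℂ) ↔
        (UpperHalfPlane.ρ : ℂ) ^ (e - 1) = 1 := by
      rw [zpow_sub₀ hρ0, zpow_one, div_eq_one_iff_eq hρ0]
    rw [this, isPrimitiveRoot_rho.zpow_eq_one_iff_dvd]
    constructor
    · rintro ⟨r, hr⟩
      push_cast at hr
      omega
    · intro h
      exact ⟨(e - 1) / 3, by push_cast; omega⟩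
  · intro i
    obtain ⟨e, he⟩ := hev i
    have hρ0 : (UpperHalfPlane.ρ : ℂ) ≠ 0 := UpperHalfPlane.ne_zero _
    rw [denom_ST_inv, he, neg_rho_zpow]
    have : (UpperHalfPlane.ρ : ℂ) ^ e = (UpperHalfPlane.ρ : ℂ) ^ 2 ↔
        (UpperHalfPlane.ρ : ℂ) ^ (e - 2) = 1 := by
      rw [zpow_sub₀ hρ0, div_eq_one_iff_eq (zpow_ne_zero _ hρ0), zpow_ofNat]
    rw [this, isPrimitiveRoot_rho.zpow_eq_one_iff_dvd]
    constructor
    · rintro ⟨r, hr⟩
      push_cast at hr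
      omega
    · intro h
      exact ⟨(e - 2) / 3, by push_cast; omega⟩

end Fermat.Agent.S20FM
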