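import Fermat.Agent.S20FM.Counts
import Fermat.Agent.S24_helper44.PermTripleSL2
import Fermat.Agent.S20_helper27.Index
import Fermat.Agent.S20_helper27.Fixed

/-!
# FM7, consumer side, numerics: the counts in terms of `ψ(N)`, `ν₂(N)`, `ν₃(N)`

(helper23, T20 FM-route.)
-/

set_option autoImplicit false
set_option linter.unusedSectionVars false

open UpperHalfPlane ModularForm CongruenceSubgroup ModularGroup
open scoped MatrixGroups ModularForm Manifold

namespace Fermat.Agent.S20FM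

open Fermat.Agent.S23

variable {N : ℕ} [NeZero N]

namespace Counts

theorem card_fixedBy_S :
    Nat.card (MulAction.fixedBy (SL(2, ℤ) ⧸ Gamma0 N) (S : SL(2, ℤ))) = ModularCurve.nuTwo N :=
  Fermat.Agent.S20_helper27.card_fixed_S N

theorem card_fixedBy_ST :
    Nat.card (MulAction.fixedBy (SL(2, ℤ) ⧸ Gamma0 N) (S * T : SL(2, ℤ))) =
      ModularCurve.nuThree N :=
  Fermat.Agent.S20_helper27.card_fixed_ST N

theorem two_mul_orbits_S :
    2 * Nat.card (MulAction.orbitRel.Quotient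
        (Subgroup.zpowers (MulAction.toPerm (S : SL(2, ℤ)) : Equiv.Perm (SL(2, ℤ) ⧸ Gamma0 N)))
        (SL(2, ℤ) ⧸ Gamma0 N)) = ModularCurve.dedekindPsi N + ModularCurve.nuTwo N := by
  have h1 := Fermat.Agent.S24_helper44.two_mul_cycG_S N
  rw [Fermat.Agent.S24_helper44.cycG_eq_cyc, card_fixedBy_S,
    show Nat.card (Fermat.Agent.S24_helper44.CosetSpace N) = ModularCurve.dedekindPsi N from
      Fermat.Agent.S20_helper27.card_XN N] at h1
  exact h1

theorem three_mul_orbits_ST :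
    3 * Nat.card (MulAction.orbitRel.Quotient
        (Subgroup.zpowers
          (MulAction.toPerm (S * T : SL(2, ℤ)) : Equiv.Perm (SL(2, ℤ) ⧸ Gamma0 N)))
        (SL(2, ℤ) ⧸ Gamma0 N)) = ModularCurve.dedekindPsi N + 2 * ModularCurve.nuThree N := by
  have h1 := Fermat.Agent.S24_helper44.three_mul_cycG_ST N
  rw [Fermat.Agent.S24_helper44.cycG_eq_cyc, card_fixedBy_ST,
    show Nat.card (Fermat.Agent.S24_helper44.CosetSpace N) = ModularCurve.dedekindPsi N from
      Fermat.Agent.S20_helper27.card_XN N] at h1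
  exact h1

end Counts

open Counts

/-- **(FM7-a, numeric)** `2 · #{i | 4 ∣ d i} = ψ(N) + ν₂(N)`. -/
theorem FreeBasis.two_mul_card_four_dvd (B : FreeBasis (G0 N)) (hev : ∀ i, Even (B.d i))
    (hm : B.m = Nat.card (SL(2, ℤ) ⧸ Gamma0 N))
    (hind : LinearIndependent ℂ (fun i => vec (B.d i) (B.b i) UpperHalfPlane.I)) :
    2 * Fintype.card {i // (4 : ℤ) ∣ B.d i} =
      ModularCurve.dedekindPsi N + ModularCurve.nuTwo N := by
  rw [B.card_four_dvd hev hm hind, two_mul_orbits_S]

/-- **(FM7-b, numeric)** `3 · #{i | 6 ∣ d i} = ψ(N) + 2 ν₃(N)`. -/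
theorem FreeBasis.three_mul_card_six_dvd (B : FreeBasis (G0 N)) (hev : ∀ i, Even (B.d i))
    (hm : B.m = Nat.card (SL(2, ℤ) ⧸ Gamma0 N))
    (hind : LinearIndependent ℂ (fun i => vec (B.d i) (B.b i) UpperHalfPlane.ρ)) :
    3 * Fintype.card {i // (6 : ℤ) ∣ B.d i} =
      ModularCurve.dedekindPsi N + 2 * ModularCurve.nuThree N := by
  rw [B.card_six_dvd hev hm hind, three_mul_orbits_ST]

/-- The number of generators is `ψ(N)`. -/
theorem FreeBasis.m_eq_dedekindPsi (B : FreeBasis (G0 N))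
    (hm : B.m = Nat.card (SL(2, ℤ) ⧸ Gamma0 N)) : B.m = ModularCurve.dedekindPsi N := by
  rw [hm]
  exact Fermat.Agent.S20_helper27.card_XN N

end Fermat.Agent.S20FM
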