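import Fermat.Agent.S20FM.PointwiseInst

/-!
# The pointwise basis property at the cusps (analytic form)

If every conjugate of a linear combination `∑ c i • b i` of the elements of a homogeneous basis
is `O(Δ)` (i.e. `O(q)`) at `i∞`, then `c = 0`.
-/

set_option autoImplicit false

open UpperHalfPlane ModularForm Filter Topology EisensteinSeries Asymptotics
open scoped MatrixGroups ModularForm Manifold

namespace Fermat.Agent.S20FM

open Fermat.Agent.S23

local notation "Δ" => ModularForm.discriminant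

/-- **Division by a nowhere vanishing level one form.**  If `P` has no zeros on `ℍ` and every
conjugate of `F` is `O(P)` at `i∞` then `F = P * F'` with `F'` a modular form on `Γ`. -/
theorem exists_div_of_ne_zero_of_isBigO {Γ : Subgroup (GL (Fin 2) ℝ)} [Γ.IsArithmetic]
    (hΓ : Γ ≤ 𝒮ℒ) {K a : ℤ} {F P : ℍ → ℂ} (hF : IsMF Γ K F) (hP : IsMF 𝒮ℒ a P)
    (hP0 : ∀ τ, P τ ≠ 0) (hb : ∀ γ : SL(2, ℤ), (F ∣[K] γ) =O[atImInfty] P) :
    ∃ F', IsMF Γ (K - a) F' ∧ F = P * F' := by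
  obtain ⟨F', hF'md, hFP⟩ := exists_mdiff_mul_eq hF.mdiff hP.mdiff (fun τ => by
    have : analyticOrderAt (P ∘ ofComplex) (τ : ℂ) = 0 := by
      rw [(mdiff_analyticAt hP.mdiff τ).analyticOrderAt_eq_zero]
      simpa using hP0 τ
    rw [this]
    exact zero_le)
  have hslash : ∀ γ : SL(2, ℤ), F ∣[K] γ = P * (F' ∣[K - a] γ) := by
    intro γ
    have h1 : F ∣[a + (K - a)] γ = (P ∣[a] γ) * (F' ∣[K - a] γ) := by
      rw [hFP]
      exact ModularForm.mul_slash_SL2 a (K - a) γ P F'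
    have h2 : P ∣[a] γ = P := by
      rw [ModularForm.SL_slash]
      exact hP.slash_eq ⟨γ, rfl⟩
    rw [h2] at h1
    rw [← h1]
    congr 1
    ring
  have hinv : ∀ γ ∈ Γ, F' ∣[K - a] γ = F' := by
    intro γ hγ
    obtain ⟨g, rfl⟩ := hΓ hγ
    have h1 : F ∣[K] g = F := by
      rw [ModularForm.SL_slash]
      exact hF.slash_eq hγ
    have h2 := hslash g
    rw [h1] at h2
    funext τ
    have h3 := congrFun h2 τ
    have h4 := congrFun hFP τ
    rw [Pi.mul_apply] at h3 h4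
    exact (mul_left_cancel₀ (hP0 τ) (h3.symm.trans h4))
  have hbdd : ∀ γ : SL(2, ℤ), IsBoundedAtImInfty (F' ∣[K - a] γ) := by
    intro γ
    have h5 : (F' ∣[K - a] γ) = fun τ => (F ∣[K] γ) τ * (P τ)⁻¹ := by
      funext τ
      rw [hslash γ, Pi.mul_apply]
      have := hP0 τ
      field_simp
    unfold IsBoundedAtImInfty BoundedAtFilter
    rw [h5]
    have h6 := (hb γ).mul (isBigO_refl (fun τ => (P τ)⁻¹) atImInfty)
    refine h6.trans (isBigO_of_le _ fun τ => ?_)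
    rw [mul_inv_cancel₀ (hP0 τ)]
    simp
  refine ⟨F', ⟨{ toFun := F'
                 slash_action_eq' := hinv
                 holo' := hF'md
                 bdd_at_cusps' := ?_ }, rfl⟩, hFP⟩
  intro c' hc'
  rw [Subgroup.IsArithmetic.isCusp_iff_isCusp_SL2Z] at hc'
  rw [OnePoint.isBoundedAt_iff_forall_SL2Z hc']
  intro γ _
  exact hbdd γ

/-- A level one form minus its limit at `i∞` is `O(Δ)`. -/
theorem isMF_sub_isBigO_disc {k : ℤ} {h : ℍ → ℂ} (hh : IsMF 𝒮ℒ k h) {c : ℂ}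
    (hlim : Tendsto h atImInfty (𝓝 c)) : (fun τ => h τ - c) =O[atImInfty] (Δ : ℍ → ℂ) := by
  obtain ⟨H, rfl⟩ := hh
  have h1 := UpperHalfPlane.exp_decay_sub_atImInfty (h := 1) one_pos
    (SlashInvariantFormClass.periodic_comp_ofComplex H one_mem_strictPeriods_SL)
    (ModularFormClass.holo H) (ModularFormClass.bdd_at_infty H)
  have h2 : valueAtInfty (H : ℍ → ℂ) = c := hlim.limUnder_eq
  rw [h2] at h1
  refine h1.trans ?_
  simpa using exp_isBigO_discriminant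

/-- Level one forms of every even weight at least `4` with limit `1` at `i∞`. -/
theorem tendsto_monomial (x y : ℕ) :
    Tendsto ((E₄ : ℍ → ℂ) ^ x * (E₆ : ℍ → ℂ) ^ y) atImInfty (𝓝 1) := by
  have h1 := (tendsto_E4.pow x).mul (tendsto_E6.pow y)
  have h2 : ((E₄ : ℍ → ℂ) ^ x * (E₆ : ℍ → ℂ) ^ y) = fun τ => E₄ τ ^ x * E₆ τ ^ y := by
    funext τ
    simp
  rw [h2]
  simpa using h1

theorem exists_form_tendsto_one (n : ℕ) (hn : 2 ≤ n) :
    ∃ h : ℍ → ℂ, IsMF 𝒮ℒ (2 * (n : ℤ)) h ∧ Tendsto h atImInfty (𝓝 1) := by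
  obtain ⟨k, rfl | rfl⟩ := Nat.even_or_odd' n
  · exact ⟨_, (isMF_monomial k 0).congr_weight (by push_cast; ring), tendsto_monomial k 0⟩
  · obtain ⟨x, rfl⟩ : ∃ x, k = x + 1 := ⟨k - 1, by omega⟩
    exact ⟨_, (isMF_monomial x 1).congr_weight (by push_cast; ring), tendsto_monomial x 1⟩

/-- **Pointwise basis property at the cusps.**  If every conjugate of `∑ c i • b i` is `O(Δ)` at
`i∞`, then `c = 0`. -/
theorem FreeBasis.eq_zero_of_isBigO {Γ : Subgroup (GL (Fin 2) ℝ)} [Γ.IsArithmetic]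
    [Γ.HasDetOne] (hΓ : Γ ≤ 𝒮ℒ) (B : FreeBasis Γ) (hev : ∀ i, Even (B.d i))
    (c : Fin B.m → ℂ)
    (hO : ∀ γ : SL(2, ℤ),
      (fun τ => ∑ i, c i * (B.b i ∣[B.d i] γ) τ) =O[atImInfty] (Δ : ℍ → ℂ)) : c = 0 := by
  classical
  -- choice of the weight
  set D : ℕ := ∑ i, (B.d i).natAbs with hD
  set K : ℤ := 2 * (D : ℤ) + 4 with hK
  have hex : ∀ i, ∃ h : ℍ → ℂ, IsMF 𝒮ℒ (K - B.d i) h ∧ Tendsto h atImInfty (𝓝 1) := by
    intro i
    obtain ⟨e, he⟩ := hev i
    have hle : (B.d i).natAbs ≤ D :=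
      Finset.single_le_sum (f := fun j => (B.d j).natAbs) (fun _ _ => Nat.zero_le _)
        (Finset.mem_univ i)
    have h1 : e ≤ (D : ℤ) := by
      have h2 : ((B.d i).natAbs : ℤ) ≤ D := by exact_mod_cast hle
      have h3 : B.d i ≤ ((B.d i).natAbs : ℤ) := Int.le_natAbs
      have h4 : (0 : ℤ) ≤ D := Int.natCast_nonneg _
      by_cases he0 : 0 ≤ e
      · linarith
      · linarith
    obtain ⟨n, hn⟩ : ∃ n : ℕ, (n : ℤ) = D + 2 - e :=
      ⟨(D + 2 - e).toNat, Int.toNat_of_nonneg (by linarith)⟩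
    obtain ⟨h, hh1, hh2⟩ := exists_form_tendsto_one n (by
      have : (2 : ℤ) ≤ n := by rw [hn]; linarith
      exact_mod_cast this)
    refine ⟨h, hh1.congr_weight ?_, hh2⟩
    rw [hn, hK, he]
    ring
  choose h hh1 hh2 using hex
  -- the auxiliary form
  set F : ℍ → ℂ := ∑ i, c i • (h i * B.b i) with hFdef
  have hterm : ∀ i, IsMF Γ K (h i * B.b i) := fun i =>
    (((hh1 i).mono hΓ).mul (B.isMF i)).congr_weight (by ring)
  have hF : IsMF Γ K F := IsMF.sum _ fun i _ => (hterm i).smul _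
  have hslash : ∀ γ : SL(2, ℤ), F ∣[K] γ = fun τ => ∑ i, c i * (h i τ * (B.b i ∣[B.d i] γ) τ) := by
    intro γ
    funext τ
    rw [hFdef, SlashAction.sum_slash, Finset.sum_apply]
    refine Finset.sum_congr rfl fun i _ => ?_
    have h1 : (h i * B.b i) ∣[K] γ = (h i ∣[K - B.d i] γ) * (B.b i ∣[B.d i] γ) := by
      have := mul_slash_SL2 (K - B.d i) (B.d i) γ (h i) (B.b i)
      rwa [sub_add_cancel] at this
    have h2 : h i ∣[K - B.d i] γ = h i := by
      rw [SL_slash]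
      exact (hh1 i).slash_eq ⟨γ, rfl⟩
    rw [SL_smul_slash, h1, h2, Pi.smul_apply, Pi.mul_apply, smul_eq_mul]
  have hb : ∀ γ : SL(2, ℤ), (F ∣[K] γ) =O[atImInfty] (Δ : ℍ → ℂ) := by
    intro γ
    rw [hslash γ]
    have h1 : (fun τ : ℍ => ∑ i, c i * (h i τ * (B.b i ∣[B.d i] γ) τ)) =
        fun τ => (∑ i, c i * (B.b i ∣[B.d i] γ) τ) +
          ∑ i, c i * ((h i τ - 1) * (B.b i ∣[B.d i] γ) τ) := by
      funext τ
      rw [← Finset.sum_add_distrib]
      refine Finset.sum_congr rfl fun i _ => ?_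
      ring
    rw [h1]
    refine (hO γ).add (IsBigO.fun_sum fun i _ => ?_)
    have h2 : (fun τ => h i τ - 1) =O[atImInfty] (Δ : ℍ → ℂ) := isMF_sub_isBigO_disc (hh1 i) (hh2 i)
    have h3 : (B.b i ∣[B.d i] γ) =O[atImInfty] (fun _ => (1 : ℂ)) := by
      have h3' : (B.b i ∣[B.d i] γ) =O[atImInfty] (1 : ℍ → ℝ) :=
        (B.isMF i).isBoundedAtImInfty_slash γ
      exact h3'.trans (isBigO_of_le _ fun τ => by simp)
    have h4 := (h2.mul h3).const_mul_left (c i)
    refine h4.trans (isBigO_of_le _ fun τ => ?_)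
    simp
  -- divide by `Δ`
  obtain ⟨F', hF', hFP⟩ := exists_div_of_ne_zero_of_isBigO hΓ hF isMF_disc
    discriminant_ne_zero hb
  obtain ⟨r, hr, hF'r⟩ := B.gen (K - 12) F' hF'
  set s : Fin B.m → ℍ → ℂ := fun i => c i • h i - (Δ : ℍ → ℂ) * r i with hsdef
  have hs : ∀ i, IsMF 𝒮ℒ (K - B.d i) (s i) := fun i =>
    ((hh1 i).smul _).sub ((isMF_disc.mul (hr i)).congr_weight (by ring))
  have hsum : ∑ i, s i * B.b i = 0 := by
    have h1 : ∑ i, s i * B.b i = F - (Δ : ℍ → ℂ) * F' := by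
      rw [hFdef, hF'r, Finset.mul_sum, ← Finset.sum_sub_distrib]
      refine Finset.sum_congr rfl fun i _ => ?_
      rw [hsdef]
      simp only [sub_mul, smul_mul_assoc, mul_assoc]
    rw [h1, ← hFP, sub_self]
  have hzero := B.indep K s hs hsum
  funext i
  -- take limits at `i∞`
  have h1 : ∀ τ, c i * h i τ = Δ τ * r i τ := by
    intro τ
    have := congrFun (hzero i) τ
    rw [hsdef] at this
    simp only [Pi.sub_apply, Pi.smul_apply, Pi.mul_apply, smul_eq_mul, Pi.zero_apply] at this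
    exact sub_eq_zero.mp this
  have h2 : Tendsto (fun τ => c i * h i τ) atImInfty (𝓝 (c i * 1)) := (hh2 i).const_mul (c i)
  have h3 : Tendsto (fun τ => Δ τ * r i τ) atImInfty (𝓝 0) := by
    have hr1 : (r i) =O[atImInfty] (fun _ => (1 : ℂ)) := by
      have hr1' : (r i) =O[atImInfty] (1 : ℍ → ℝ) := (hr i).isBoundedAtImInfty
      exact hr1'.trans (isBigO_of_le _ fun τ => by simp)
    have h4 := (isBigO_refl (Δ : ℍ → ℂ) atImInfty).mul hr1
    refine IsBigO.trans_tendsto (h4.trans (isBigO_of_le _ fun τ => ?_)) tendsto_disc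
    simp
  have h5 : c i * 1 = 0 := tendsto_nhds_unique (h2.congr h1) h3
  simpa using h5

/-- `Γ₀(N)` version. -/
theorem FreeBasis.eq_zero_of_isBigO_G0 {N : ℕ} [NeZero N] (B : FreeBasis (G0 N))
    (hev : ∀ i, Even (B.d i)) (c : Fin B.m → ℂ)
    (hO : ∀ γ : SL(2, ℤ),
      (fun τ => ∑ i, c i * (B.b i ∣[B.d i] γ) τ) =O[atImInfty] (Δ : ℍ → ℂ)) : c = 0 :=
  B.eq_zero_of_isBigO (G0_le N) hev c hO

/-- Variant with the exponential bound `O(exp (-2π Im τ))`. -/
theorem FreeBasis.eq_zero_of_isBigO_exp {N : ℕ} [NeZero N] (B : FreeBasis (G0 N))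
    (hev : ∀ i, Even (B.d i)) (c : Fin B.m → ℂ)
    (hO : ∀ γ : SL(2, ℤ), (fun τ => ∑ i, c i * (B.b i ∣[B.d i] γ) τ) =O[atImInfty]
      fun τ => Real.exp (-2 * Real.pi * τ.im)) : c = 0 :=
  B.eq_zero_of_isBigO_G0 hev c fun γ => (hO γ).trans exp_isBigO_discriminant

end Fermat.Agent.S20FM
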