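import Fermat.Agent.S20FM.Defs
import Fermat.Agent.S23.Basic
import Fermat.Agent.S20_helper61.Division

/-!
# Division of a modular form of level `Γ` by a level one modular form

If `P` is a level one form with a nonzero limit at `i∞` and `F` is a form on `Γ ≤ SL(2, ℤ)`
vanishing at every point at least to the order of `P`, then `F = P * F'` for a modular form `F'`
on `Γ` of weight `K - a`.
-/

set_option autoImplicit false

open UpperHalfPlane ModularForm Filter Topology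
open scoped MatrixGroups ModularForm Manifold

namespace Fermat.Agent.S20FM

open Fermat.Agent.S23 Fermat.Agent.S20_helper61

theorem mdiff_analyticOnNhd {f : ℍ → ℂ} (hf : MDiff f) :
    AnalyticOnNhd ℂ (f ∘ ofComplex) {z : ℂ | 0 < z.im} :=
  (UpperHalfPlane.mdifferentiable_iff.mp hf).analyticOnNhd isOpen_upperHalfPlaneSet

theorem mdiff_analyticAt {f : ℍ → ℂ} (hf : MDiff f) (τ : ℍ) :
    AnalyticAt ℂ (f ∘ ofComplex) (τ : ℂ) :=
  mdiff_analyticOnNhd hf τ τ.im_pos

/-- Division of holomorphic functions on the upper half plane. -/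
theorem exists_mdiff_mul_eq {F P : ℍ → ℂ} (hF : MDiff F) (hP : MDiff P)
    (hord : ∀ τ : ℍ, analyticOrderAt (P ∘ ofComplex) (τ : ℂ)
      ≤ analyticOrderAt (F ∘ ofComplex) (τ : ℂ)) :
    ∃ F' : ℍ → ℂ, MDiff F' ∧ F = P * F' := by
  obtain ⟨h, hh, hmul⟩ := exists_analyticOnNhd_mul_eq isOpen_upperHalfPlaneSet
    (mdiff_analyticOnNhd hF) (mdiff_analyticOnNhd hP)
    (fun z hz => hord ⟨z, hz⟩)
  refine ⟨fun τ => h (τ : ℂ), ?_, ?_⟩
  · rw [UpperHalfPlane.mdifferentiable_iff]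
    refine hh.differentiableOn.congr ?_
    intro z hz
    simp only [Function.comp_apply]
    rw [ofComplex_apply_of_im_pos hz]
  · funext τ
    have := hmul (τ : ℂ) τ.im_pos
    simp only [Function.comp_apply, ofComplex_apply] at this
    rw [Pi.mul_apply, ← this, mul_comm]

/-- If `P * D = 0` with `P`, `D` holomorphic on `ℍ` and `P` not identically zero then `D = 0`. -/
theorem eq_zero_of_mul_eq_zero {P D : ℍ → ℂ} (hP : MDiff P) (hD : MDiff D)
    (hne : ∃ τ, P τ ≠ 0) (h : P * D = 0) : D = 0 := by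
  have hpre : IsPreconnected {z : ℂ | 0 < z.im} :=
    (convex_halfSpace_im_gt 0).isPreconnected
  rcases (mdiff_analyticOnNhd hP).eq_zero_or_eq_zero_of_mul_eq_zero
      (mdiff_analyticOnNhd hD) (fun z hz => by
        have := congrFun h (ofComplex z)
        simpa using this) hpre with h1 | h1
  · obtain ⟨τ, hτ⟩ := hne
    exact absurd (by simpa using h1 (τ : ℂ) τ.im_pos) hτ
  · funext τ
    simpa using h1 (τ : ℂ) τ.im_pos

theorem exists_ne_zero_of_tendsto {P : ℍ → ℂ} {c : ℂ} (hc : c ≠ 0)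
    (hPinf : Tendsto P atImInfty (𝓝 c)) : ∃ τ, P τ ≠ 0 := by
  have : ∀ᶠ τ in atImInfty, P τ ≠ 0 := hPinf.eventually_ne hc
  exact this.exists

/-- **Division by a level one form.**  `Γ ≤ SL(2, ℤ)` arithmetic, `F` of weight `K` on `Γ`, `P`
of weight `a` and level one with nonzero limit at `i∞`; if the order of `P` is at most the order
of `F` at every point of `ℍ` then `F = P * F'` with `F'` of weight `K - a` on `Γ`. -/
theorem exists_div_of_order_le {Γ : Subgroup (GL (Fin 2) ℝ)} [Γ.IsArithmetic] (hΓ : Γ ≤ 𝒮ℒ)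
    {K a : ℤ} {F P : ℍ → ℂ} {c : ℂ} (hF : IsMF Γ K F) (hP : IsMF 𝒮ℒ a P) (hc : c ≠ 0)
    (hPinf : Tendsto P atImInfty (𝓝 c))
    (hord : ∀ τ : ℍ, analyticOrderAt (P ∘ ofComplex) (τ : ℂ)
      ≤ analyticOrderAt (F ∘ ofComplex) (τ : ℂ)) :
    ∃ F', IsMF Γ (K - a) F' ∧ F = P * F' := by
  obtain ⟨F', hF'md, hFP⟩ := exists_mdiff_mul_eq hF.mdiff hP.mdiff hord
  have hPne := exists_ne_zero_of_tendsto hc hPinf
  -- slash relation for all `γ : SL(2, ℤ)`
  have hslash : ∀ γ : SL(2, ℤ), F ∣[K] γ = P * (F' ∣[K - a] γ) := by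
    intro γ
    have h1 : F ∣[a + (K - a)] γ = (P ∣[a] γ) * (F' ∣[K - a] γ) := by
      rw [hFP]
      exact ModularForm.mul_slash_SL2 a (K - a) γ P F'
    have h2 : P ∣[a] γ = P := by
      rw [ModularForm.SL_slash]
      exact hP.slash_eq ⟨γ, rfl⟩
    rw [h2] at h1
    rw [← h1]
    congr 1
    ring
  have hinv : ∀ γ ∈ Γ, F' ∣[K - a] γ = F' := by
    intro γ hγ
    obtain ⟨g, rfl⟩ := hΓ hγ
    have h1 : F ∣[K] g = F := by
      rw [ModularForm.SL_slash]
      exact hF.slash_eq hγ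
    have h2 := hslash g
    rw [h1] at h2
    have h3 : P * (F' ∣[K - a] g - F') = 0 := by
      rw [mul_sub, ← h2, ← hFP, sub_self]
    have h4 := eq_zero_of_mul_eq_zero hP.mdiff
      ((hF'md.slash (K - a) (Matrix.SpecialLinearGroup.mapGL ℝ g)).sub hF'md) hPne h3
    exact sub_eq_zero.mp h4
  have hbdd : ∀ γ : SL(2, ℤ), IsBoundedAtImInfty (F' ∣[K - a] γ) := by
    intro γ
    have h1 : IsBoundedAtImInfty (F ∣[K] γ) := hF.isBoundedAtImInfty_slash γ
    have h2 : Tendsto (fun τ => (P τ)⁻¹) atImInfty (𝓝 c⁻¹) := hPinf.inv₀ hc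
    have h3 : (fun τ => (P τ)⁻¹) =O[atImInfty] (1 : ℍ → ℝ) := h2.isBigO_one ℝ
    have h4 : ∀ᶠ τ in atImInfty, P τ ≠ 0 := hPinf.eventually_ne hc
    have h5 : (F' ∣[K - a] γ) =ᶠ[atImInfty] fun τ => (F ∣[K] γ) τ * (P τ)⁻¹ := by
      filter_upwards [h4] with τ hτ
      rw [hslash γ, Pi.mul_apply]
      field_simp
    unfold IsBoundedAtImInfty BoundedAtFilter at h1 ⊢
    refine (Asymptotics.isBigO_congr h5 EventuallyEq.rfl).mpr ?_
    have h6 := h1.mul h3
    refine h6.trans (Asymptotics.isBigO_of_le _ fun x => ?_)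
    simp
  refine ⟨F', ⟨{ toFun := F'
                 slash_action_eq' := hinv
                 holo' := hF'md
                 bdd_at_cusps' := ?_ }, rfl⟩, hFP⟩
  intro c' hc'
  rw [Subgroup.IsArithmetic.isCusp_iff_isCusp_SL2Z] at hc'
  rw [OnePoint.isBoundedAt_iff_forall_SL2Z hc']
  intro γ _
  exact hbdd γ

/-- **Division by a level one form with simple zeros** (shape of board 407, with the extra
hypothesis `Γ ≤ SL(2, ℤ)`). -/
theorem exists_div_of_simple_zeros {Γ : Subgroup (GL (Fin 2) ℝ)} [Γ.IsArithmetic] (hΓ : Γ ≤ 𝒮ℒ)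
    {K a : ℤ} {F P : ℍ → ℂ} {c : ℂ} (hF : IsMF Γ K F) (hP : IsMF 𝒮ℒ a P) (hc : c ≠ 0)
    (hPinf : Tendsto P atImInfty (𝓝 c))
    (hzero : ∀ τ : ℍ, P τ = 0 → F τ = 0 ∧ deriv (P ∘ ofComplex) (τ : ℂ) ≠ 0) :
    ∃ F', IsMF Γ (K - a) F' ∧ F = P * F' := by
  refine exists_div_of_order_le hΓ hF hP hc hPinf ?_
  intro τ
  have hPa := mdiff_analyticAt hP.mdiff τ
  have hFa := mdiff_analyticAt hF.mdiff τ
  by_cases h0 : P τ = 0
  · obtain ⟨hF0, hd⟩ := hzero τ h0
    rw [hPa.analyticOrderAt_eq_one_of_zero_deriv_ne_zero (by simpa using h0) hd]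
    rw [Order.one_le_iff_ne_zero, hFa.analyticOrderAt_ne_zero]
    simpa using hF0
  · have : analyticOrderAt (P ∘ ofComplex) (τ : ℂ) = 0 := by
      rw [hPa.analyticOrderAt_eq_zero]
      simpa using h0
    rw [this]
    exact zero_le

/-- The level group `Γ₀(N)` lies in `SL(2, ℤ)`. -/
theorem G0_le (N : ℕ) : G0 N ≤ 𝒮ℒ := Subgroup.map_le_range _ _

end Fermat.Agent.S20FM
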