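import Fermat.Agent.S20FM.GlueEigen
import Fermat.Agent.S20.M2S2

/-!
# FM-route glue, part 3: the lower bound `genusFormula N ≤ dim S₂(Γ₀(N))`

Input: a free homogeneous basis `B` of the module of modular forms of level `Γ₀(N)` over the ring
of level one forms, of rank `μ = [SL(2,ℤ) : Γ₀(N)]` (FM1 + FM2), pointwise linear independence of
the vectors of conjugates (FM3), and the duality output (FM6): all weights are `≤ 10` and the
number of members of weight `10` is at most `dim S₂(Γ₀(N))`.
-/

set_option autoImplicit false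

open UpperHalfPlane ModularForm CongruenceSubgroup ModularGroup
open scoped MatrixGroups ModularForm Manifold

namespace Fermat.Agent.S20FM.Glue

open Fermat.Agent.S23 (G0 IsMF IsCF)
open Fermat.Agent.S20 (X)
open Fermat.Agent.S20FM

lemma card_subtype_eq_sum {ι : Type*} [Fintype ι] (p : ι → Prop) [DecidablePred p] :
    Fintype.card {i // p i} = ∑ i, if p i then 1 else 0 := by
  rw [Fintype.card_subtype, Finset.card_filter]

variable {N : ℕ} [NeZero N] (B : FreeBasis (G0 N))

lemma d_mem (h10 : ∀ i, B.d i ≤ 10) (i : Fin B.m) :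
    B.d i = 0 ∨ B.d i = 2 ∨ B.d i = 4 ∨ B.d i = 6 ∨ B.d i = 8 ∨ B.d i = 10 := by
  have h0 := d_nonneg B i
  have h1 := h10 i
  obtain ⟨e, he⟩ := even_d B i
  omega

/-- The counting identities. -/
lemma card_identities (h10 : ∀ i, B.d i ≤ 10) :
    B.m = Fintype.card {i // B.d i = 0} + Fintype.card {i // B.d i = 2}
        + Fintype.card {i // B.d i = 4} + Fintype.card {i // B.d i = 6}
        + Fintype.card {i // B.d i = 8} + Fintype.card {i // B.d i = 10} ∧
    Fintype.card {i // (4 : ℤ) ∣ B.d i} = Fintype.card {i // B.d i = 0}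
        + Fintype.card {i // B.d i = 4} + Fintype.card {i // B.d i = 8} ∧
    Fintype.card {i // (6 : ℤ) ∣ B.d i} = Fintype.card {i // B.d i = 0}
        + Fintype.card {i // B.d i = 6} := by
  classical
  simp only [card_subtype_eq_sum, ← Finset.sum_add_distrib]
  refine ⟨?_, ?_, ?_⟩
  · have : B.m = ∑ _i : Fin B.m, 1 := by simp
    conv_lhs => rw [this]
    refine Finset.sum_congr rfl fun i _ => ?_
    rcases d_mem B h10 i with h | h | h | h | h | h <;> simp [h]
  · refine Finset.sum_congr rfl fun i _ => ?_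
    rcases d_mem B h10 i with h | h | h | h | h | h <;> simp [h]
  · refine Finset.sum_congr rfl fun i _ => ?_
    rcases d_mem B h10 i with h | h | h | h | h | h <;> simp [h]

/-- **The lower bound** `g ≤ dim S₂(Γ₀(N))` from the FM inputs. -/
theorem lower_bound
    (hm : B.m = Nat.card (SL(2, ℤ) ⧸ Gamma0 N))
    (hPW : ∀ τ₀ : ℍ, LinearIndependent ℂ (fun i => vec (B.d i) (B.b i) τ₀))
    (h10 : ∀ i, B.d i ≤ 10)
    (hS2 : Fintype.card {i // B.d i = 10} ≤ Module.finrank ℂ (CuspForm (Gamma0 N) 2)) :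
    ModularCurve.genusFormula N ≤ (Module.finrank ℂ (CuspForm (Gamma0 N) 2) : ℚ) := by
  obtain ⟨hT, hF, hS⟩ := card_identities B h10
  have h0 := card_d_eq_zero B
  have h2 := finrank_modularForm_two B
  have hK := Fermat.Agent.S20.M2S2.finrank_modularForm_add_one_le N
  have hI := two_mul_card_four_dvd B hPW hm
  have hR := three_mul_card_six_dvd B hPW hm
  have hμ : Nat.card (SL(2, ℤ) ⧸ Gamma0 N) = ModularCurve.dedekindPsi N :=
    Fermat.Agent.S20_helper27.card_XN N
  rw [h2] at hK
  rw [hF] at hI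
  rw [hS] at hR
  have hT' : ModularCurve.dedekindPsi N = Fintype.card {i // B.d i = 0}
      + Fintype.card {i // B.d i = 2} + Fintype.card {i // B.d i = 4}
      + Fintype.card {i // B.d i = 6} + Fintype.card {i // B.d i = 8}
      + Fintype.card {i // B.d i = 10} := by
    rw [← hT, hm, hμ]
  set S2 := Module.finrank ℂ (CuspForm (Gamma0 N) 2) with hS2def
  have hK' : Fintype.card {i // B.d i = 2} + 1 ≤ S2 + ModularCurve.cuspCount N := hK
  unfold ModularCurve.genusFormula
  have e1 : ((Fintype.card {i // B.d i = 2} + 1 : ℕ) : ℚ) ≤ ((S2 + ModularCurve.cuspCount N : ℕ) : ℚ) := by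
    exact_mod_cast hK'
  have e2 : ((Fintype.card {i // B.d i = 10} : ℕ) : ℚ) ≤ (S2 : ℚ) := by exact_mod_cast hS2
  have e3 : ((2 * (Fintype.card {i // B.d i = 0} + Fintype.card {i // B.d i = 4}
      + Fintype.card {i // B.d i = 8}) : ℕ) : ℚ)
      = ((ModularCurve.dedekindPsi N + ModularCurve.nuTwo N : ℕ) : ℚ) := by exact_mod_cast hI
  have e4 : ((3 * (Fintype.card {i // B.d i = 0} + Fintype.card {i // B.d i = 6}) : ℕ) : ℚ)
      = ((ModularCurve.dedekindPsi N + 2 * ModularCurve.nuThree N : ℕ) : ℚ) := by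
    exact_mod_cast hR
  have e5 : ((ModularCurve.dedekindPsi N : ℕ) : ℚ) = ((Fintype.card {i // B.d i = 0}
      + Fintype.card {i // B.d i = 2} + Fintype.card {i // B.d i = 4}
      + Fintype.card {i // B.d i = 6} + Fintype.card {i // B.d i = 8}
      + Fintype.card {i // B.d i = 10} : ℕ) : ℚ) := by exact_mod_cast hT'
  have e0 : ((Fintype.card {i // B.d i = 0} : ℕ) : ℚ) = 1 := by exact_mod_cast h0
  push_cast at e1 e2 e3 e4 e5
  linarith

end Fermat.Agent.S20FM.Glue
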