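import Fermat.Agent.S20FM.Defs
import Fermat.Agent.S20FM.LevelOneRing
import Fermat.Agent.S20.Defs

/-!
# FM-route glue, part 1: elementary consequences of a free homogeneous basis

For a `FreeBasis (G0 N)`: the members are nonzero, the weights are even and nonnegative, exactly
one weight is `0`, and the members of weight `2` form a basis of `M₂(Γ₀(N))`.
-/

set_option autoImplicit false

open UpperHalfPlane ModularForm CongruenceSubgroup
open scoped MatrixGroups ModularForm Manifold

namespace Fermat.Agent.S20FM.Glue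

open Fermat.Agent.S23 (G0 IsMF IsCF)
open Fermat.Agent.S20FM

variable {N : ℕ} (B : FreeBasis (G0 N))

lemma one_ne_zero_fun : (fun _ : ℍ => (1 : ℂ)) ≠ 0 := by
  intro h
  have := congrFun h UpperHalfPlane.I
  simp at this

/-- The members of a free basis are nonzero. -/
lemma b_ne_zero (j : Fin B.m) : B.b j ≠ 0 := by
  classical
  intro h0
  have h := B.indep (B.d j) (fun i => if i = j then (fun _ => (1 : ℂ)) else 0) (fun i => ?_) ?_ j
  · simp only [if_true] at h
    exact one_ne_zero_fun h
  · split_ifs with hij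
    · subst hij
      exact (IsMF.const (Γ := 𝒮ℒ) (1 : ℂ)).congr_weight (by ring)
    · exact IsMF.zero
  · rw [Finset.sum_eq_single j]
    · simp [h0]
    · intro i _ hij
      simp [hij]
    · intro h; exact absurd (Finset.mem_univ j) h

lemma neg_one_mem_G0 : (-1 : GL (Fin 2) ℝ) ∈ G0 N := by
  refine ⟨-1, ?_, ?_⟩
  · show (-1 : SL(2, ℤ)) ∈ Gamma0 N
    rw [Gamma0_mem]; simp
  · ext i j; fin_cases i <;> fin_cases j <;> simp

/-- The weights of a free basis are even. -/
lemma even_d (j : Fin B.m) : Even (B.d j) := by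
  by_contra hodd
  rw [Int.not_even_iff_odd] at hodd
  obtain ⟨F, hF⟩ := B.isMF j
  have := ModularForm.eq_zero_of_neg_one_mem (Γ := G0 N) neg_one_mem_G0 hodd F
  apply b_ne_zero B j
  rw [← hF, this]
  rfl

/-- The weights of a free basis are nonnegative. -/
lemma d_nonneg [NeZero N] (j : Fin B.m) : 0 ≤ B.d j := by
  by_contra hneg
  push Not at hneg
  obtain ⟨F, hF⟩ := B.isMF j
  have := ModularForm.isZero_of_neg_weight hneg F
  apply b_ne_zero B j
  rw [← hF, this]
  rfl

/-- A weight zero form of level `Γ₀(N)` is constant. -/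
lemma isMF_zero_const [NeZero N] {f : ℍ → ℂ} (hf : IsMF (G0 N) 0 f) : ∃ c : ℂ, f = fun _ => c := by
  obtain ⟨F, rfl⟩ := hf
  obtain ⟨c, hc⟩ := ModularForm.eq_const_of_weight_zero F
  exact ⟨c, hc⟩

/-- There is a member of weight `0`. -/
lemma exists_d_eq_zero [NeZero N] : ∃ i, B.d i = 0 := by
  by_contra hcon
  push Not at hcon
  obtain ⟨r, hr, h1⟩ := B.gen 0 1 (IsMF.one (Γ := G0 N))
  have hr0 : ∀ i, r i = 0 := by
    intro i
    refine levelOne_neg ?_ (hr i)
    have h1 := d_nonneg B i
    have h2 := hcon i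
    omega
  have : (1 : ℍ → ℂ) = 0 := by
    rw [h1]
    exact Finset.sum_eq_zero fun i _ => by rw [hr0 i, zero_mul]
  exact one_ne_zero_fun this

/-- At most one member has weight `0`. -/
lemma d_eq_zero_unique [NeZero N] {i j : Fin B.m} (hi : B.d i = 0) (hj : B.d j = 0) : i = j := by
  classical
  by_contra hij
  obtain ⟨ci, hci⟩ := isMF_zero_const ((B.isMF i).congr_weight hi)
  obtain ⟨cj, hcj⟩ := isMF_zero_const ((B.isMF j).congr_weight hj)
  have h := B.indep 0
    (fun l => if l = i then (fun _ => cj) else if l = j then (fun _ => -ci) else 0)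
    (fun l => ?_) ?_ i
  · simp only [if_true] at h
    have hcj0 : cj = 0 := by
      have := congrFun h UpperHalfPlane.I
      simpa using this
    apply b_ne_zero B j
    rw [hcj, hcj0]
    rfl
  · split_ifs with h1 h2
    · subst h1
      exact (IsMF.const (Γ := 𝒮ℒ) cj).congr_weight (by rw [hi]; ring)
    · subst h2
      exact (IsMF.const (Γ := 𝒮ℒ) (-ci)).congr_weight (by rw [hj]; ring)
    · exact IsMF.zero
  · have hji : j ≠ i := fun h => hij h.symm
    rw [← Finset.add_sum_erase _ _ (Finset.mem_univ i),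
      ← Finset.add_sum_erase _ _ (Finset.mem_erase.mpr ⟨hji, Finset.mem_univ j⟩)]
    rw [Finset.sum_eq_zero]
    · simp only [if_true, if_neg hji, add_zero]
      rw [hci, hcj]
      ext z
      simp [mul_comm]
    · intro l hl
      have h1 : l ≠ j := (Finset.mem_erase.mp hl).1
      have h2 : l ≠ i := (Finset.mem_erase.mp (Finset.mem_erase.mp hl).2).1
      simp [h1, h2]

/-- Exactly one member has weight `0`. -/
theorem card_d_eq_zero [NeZero N] : Fintype.card {i // B.d i = 0} = 1 := by
  obtain ⟨i, hi⟩ := exists_d_eq_zero B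
  rw [Fintype.card_eq_one_iff]
  exact ⟨⟨i, hi⟩, fun y => Subtype.ext (d_eq_zero_unique B y.2 hi)⟩

/-- The coefficient of a member of weight `≠ 2` in the expansion of a weight `2` form vanishes. -/
lemma coeff_two_eq_zero [NeZero N] {i : Fin B.m} (hi : B.d i ≠ 2) {r : ℍ → ℂ}
    (hr : IsMF 𝒮ℒ (2 - B.d i) r) : r = 0 := by
  have h0 := d_nonneg B i
  obtain ⟨e, he⟩ := even_d B i
  rcases lt_trichotomy (B.d i) 2 with h | h | h
  · have hd : B.d i = 0 := by omega
    refine levelOne_two (hr.congr_weight ?_)
    rw [hd]; ring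
  · exact absurd h hi
  · exact levelOne_neg (by omega) hr

lemma sum_subtype_eq_sum_ite {ι M : Type*} [Fintype ι] [AddCommMonoid M] (p : ι → Prop)
    [DecidablePred p] (g : ι → M) :
    ∑ j : {i // p i}, g j.1 = ∑ i, if p i then g i else 0 := by
  rw [← Finset.sum_filter, ← Finset.sum_subtype_eq_sum_filter, Finset.subtype_univ]

/-- The members of weight `2`, as modular forms. -/
noncomputable def formTwo (j : {i // B.d i = 2}) : ModularForm (G0 N) 2 :=
  ((B.isMF j.1).congr_weight j.2).choose

lemma coe_formTwo (j : {i // B.d i = 2}) : (formTwo B j : ℍ → ℂ) = B.b j.1 :=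
  ((B.isMF j.1).congr_weight j.2).choose_spec

lemma linearIndependent_formTwo : LinearIndependent ℂ (formTwo B) := by
  classical
  rw [Fintype.linearIndependent_iff]
  intro c hc j
  let c' : Fin B.m → ℂ := fun i => if h : B.d i = 2 then c ⟨i, h⟩ else 0
  have hc'j : ∀ j : {i // B.d i = 2}, c j = c' j.1 := fun j => by simp [c', j.2]
  have hc' : ∑ i, (if B.d i = 2 then c' i • B.b i else 0) = 0 := by
    have := congrArg (fun F : ModularForm (G0 N) 2 => (F : ℍ → ℂ)) hc
    simp only [FunLike.coe_sum, FunLike.coe_smul, coe_formTwo, hc'j] at this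
    rw [sum_subtype_eq_sum_ite (fun i => B.d i = 2) (fun i => c' i • B.b i)] at this
    exact this
  have h := B.indep 2 (fun i => if B.d i = 2 then (fun _ => c' i) else 0)
    (fun i => ?_) ?_ j.1
  · simp only [if_pos j.2] at h
    have := congrFun h UpperHalfPlane.I
    rw [hc'j j]
    simpa using this
  · split_ifs with h
    · exact (IsMF.const (Γ := 𝒮ℒ) _).congr_weight (by rw [h]; ring)
    · exact IsMF.zero
  · refine Eq.trans ?_ hc'
    refine Finset.sum_congr rfl fun i _ => ?_
    split_ifs with h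
    · ext z; simp
    · exact zero_mul _

lemma span_formTwo [NeZero N] : ⊤ ≤ Submodule.span ℂ (Set.range (formTwo B)) := by
  classical
  intro f _
  obtain ⟨r, hr, hf⟩ := B.gen 2 f (Fermat.Agent.S23.ModularForm.isMF f)
  have hconst : ∀ i, ∃ a : ℂ, B.d i = 2 → r i = fun _ => a := by
    intro i
    by_cases hi : B.d i = 2
    · obtain ⟨a, ha⟩ := levelOne_zero ((hr i).congr_weight (by rw [hi]; ring))
      exact ⟨a, fun _ => ha⟩
    · exact ⟨0, fun h => absurd h hi⟩
  choose a ha using hconst
  have hzero : ∀ i, B.d i ≠ 2 → r i = 0 := fun i hi => coeff_two_eq_zero B hi (hr i)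
  have hf' : f = ∑ j : {i // B.d i = 2}, a j.1 • formTwo B j := by
    apply DFunLike.coe_injective
    simp only [FunLike.coe_sum, FunLike.coe_smul, coe_formTwo]
    rw [sum_subtype_eq_sum_ite (fun i => B.d i = 2) (fun i => a i • B.b i), hf]
    refine Finset.sum_congr rfl fun i _ => ?_
    split_ifs with h
    · rw [ha i h]
      ext z; simp
    · rw [hzero i h, zero_mul]
  rw [hf']
  exact Submodule.sum_mem _ fun j _ =>
    Submodule.smul_mem _ _ (Submodule.subset_span (Set.mem_range_self j))

/-- The members of weight `2` form a basis of `M₂(Γ₀(N))`. -/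
theorem finrank_modularForm_two [NeZero N] :
    Module.finrank ℂ (ModularForm (G0 N) 2) = Fintype.card {i // B.d i = 2} :=
  Module.finrank_eq_card_basis (Module.Basis.mk (linearIndependent_formTwo B) (span_formTwo B))

end Fermat.Agent.S20FM.Glue
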