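import Fermat.Agent.S20FM.GlueBasics
import Fermat.Agent.S20FM.EigenCount
import Fermat.Agent.S24_helper44.PermTripleSL2
import Fermat.Agent.S20_helper27.Index
import Fermat.Agent.S20_helper27.Fixed

/-!
# FM-route glue, part 2: the FM7 consumer

At `τ₀ = I` and `τ₀ = ρ` the vectors of conjugates of the members of a free basis are eigenvectors
of the permutations of the coset space induced by `S`, `S * T`; counting the eigenvalue `1` gives
the number of members of weight divisible by `4`, resp. `6`.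
-/

set_option autoImplicit false

open UpperHalfPlane ModularForm CongruenceSubgroup ModularGroup
open scoped MatrixGroups ModularForm Manifold

namespace Fermat.Agent.S20FM.Glue

open Fermat.Agent.S23 (G0 IsMF IsCF)
open Fermat.Agent.S20 (X cj cj_mk cj_apply_smul)
open Fermat.Agent.S20FM

variable {N : ℕ} (B : FreeBasis (G0 N))

/-- The vector of conjugates of the `i`-th member at `τ₀`, indexed by the coset space. -/
noncomputable def wvec (τ₀ : ℍ) (i : Fin B.m) : X N → ℂ := fun x => cj (B.d i) (B.b i) x τ₀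

lemma b_slash (i : Fin B.m) : ∀ γ ∈ Gamma0 N, B.b i ∣[B.d i] γ = B.b i :=
  fun _ hγ => Fermat.Agent.S20.IsMF.slash_eq_SL (B.isMF i) hγ

lemma vec_eq_wvec (τ₀ : ℍ) (i : Fin B.m) (γ : SL(2, ℤ)) :
    vec (B.d i) (B.b i) τ₀ γ = wvec B τ₀ i ((γ⁻¹ : SL(2, ℤ)) : X N) := by
  unfold vec wvec
  rw [cj_mk (b_slash B i), inv_inv]

lemma linearIndependent_wvec (τ₀ : ℍ)
    (hPW : LinearIndependent ℂ (fun i => vec (B.d i) (B.b i) τ₀)) :
    LinearIndependent ℂ (wvec B τ₀) := by
  rw [Fintype.linearIndependent_iff] at hPW ⊢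
  intro c hc
  apply hPW
  funext γ
  have := congrFun hc ((γ⁻¹ : SL(2, ℤ)) : X N)
  simp only [Finset.sum_apply, Pi.smul_apply, Pi.zero_apply] at this ⊢
  simpa only [vec_eq_wvec] using this

lemma wvec_smul (τ₀ : ℍ) (h : SL(2, ℤ)) (hh : h • τ₀ = τ₀) (i : Fin B.m) (x : X N) :
    wvec B τ₀ i (h⁻¹ • x) = (denom h τ₀) ^ (-(B.d i)) * wvec B τ₀ i x := by
  unfold wvec
  have h1 := cj_apply_smul (b_slash B i) x h τ₀
  rw [hh] at h1
  rw [h1, ← mul_assoc, ← zpow_add₀ (denom_ne_zero h τ₀)]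
  simp

variable [NeZero N]

/-- General count: if `h` fixes `τ₀` and its multiplier `denom h τ₀` is a primitive `n`-th root of
unity, then the number of members of weight divisible by `n` is the number of cycles of `h⁻¹` on
the coset space. -/
theorem card_dvd_eq_cyc (τ₀ : ℍ)
    (hPW : LinearIndependent ℂ (fun i => vec (B.d i) (B.b i) τ₀))
    (hm : B.m = Nat.card (X N)) (h : SL(2, ℤ)) (hh : h • τ₀ = τ₀) (n : ℕ)
    (hn : IsPrimitiveRoot (denom h τ₀) n) :
    Fintype.card {i // (n : ℤ) ∣ B.d i} =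
      Fermat.Agent.S24_helper44.cyc (MulAction.toPerm h⁻¹ : Equiv.Perm (X N)) := by
  classical
  refine EigenCount.card_pred_eq_card_orbits (MulAction.toPerm h⁻¹ : Equiv.Perm (X N))
    (wvec B τ₀) (fun i => denom h τ₀ ^ (-(B.d i))) (linearIndependent_wvec B τ₀ hPW) ?_ ?_ _ ?_
  · rw [Fintype.card_fin, hm, Nat.card_eq_fintype_card]
  · intro i x
    exact wvec_smul B τ₀ h hh i x
  · intro i
    rw [hn.zpow_eq_one_iff_dvd, dvd_neg]

lemma S_smul_I : (S : SL(2, ℤ)) • (I : ℍ) = I := by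
  rw [ModularGroup.stabilizer_I]
  simp

lemma ST_smul_rho : ((S : SL(2, ℤ)) * T) • (ρ : ℍ) = ρ := by
  rw [ModularGroup.stabilizer_ρ]
  simp

lemma denom_S_I : denom (S : SL(2, ℤ)) (I : ℍ) = Complex.I := by
  rw [denom_S]
  rfl

lemma rho_im_ne_zero : ((ρ : ℍ) : ℂ).im ≠ 0 := (ρ : ℍ).im_pos.ne'

lemma denom_ST_rho :
    denom (((S * T : SL(2, ℤ)) : SL(2, ℤ)) : GL (Fin 2) ℝ) (ρ : ℍ) = (ρ : ℂ) + 1 := by
  rw [ModularGroup.denom_apply]
  have h1 : ((S : SL(2, ℤ)) * T) 1 0 = 1 := by decide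
  have h2 : ((S : SL(2, ℤ)) * T) 1 1 = 1 := by decide
  rw [h1, h2]
  simp

lemma isPrimitiveRoot_rho_add_one : IsPrimitiveRoot ((ρ : ℂ) + 1) 6 := by
  have hsq : ((ρ : ℍ) : ℂ) ^ 2 = -ρ - 1 := ρ_sq
  have him := rho_im_ne_zero
  have h2 : ((ρ : ℂ) + 1) ^ 2 = ρ := by linear_combination hsq
  have h3 : ((ρ : ℂ) + 1) ^ 3 = -1 := by linear_combination ((ρ : ℂ) + 2) * hsq
  refine IsPrimitiveRoot.mk_of_lt _ (by norm_num) ?_ ?_
  · have : ((ρ : ℂ) + 1) ^ 6 = (((ρ : ℂ) + 1) ^ 3) ^ 2 := by ring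
    rw [this, h3]; norm_num
  · intro l hl0 hl6 hl
    have key : ∀ a b : ℝ, ((ρ : ℂ)) * a = b → a = 0 := by
      intro a b hab
      by_contra ha
      have := congrArg Complex.im hab
      simp only [Complex.mul_im, Complex.ofReal_re, Complex.ofReal_im, mul_zero, zero_add] at this
      rcases mul_eq_zero.mp this with h | h
      · exact him h
      · exact ha h
    interval_cases l
    · -- ρ + 1 = 1
      have := key 1 0 (by push_cast; linear_combination hl)
      norm_num at this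
    · -- ρ = 1
      rw [h2] at hl
      have := key 1 1 (by push_cast; linear_combination hl)
      norm_num at this
    · rw [h3] at hl
      norm_num at hl
    · have h4 : ((ρ : ℂ) + 1) ^ 4 = -ρ - 1 := by
        have : ((ρ : ℂ) + 1) ^ 4 = ((ρ : ℂ) + 1) ^ 3 * (ρ + 1) := by ring
        rw [this, h3]; ring
      rw [h4] at hl
      have := key 1 (-2) (by push_cast; linear_combination -hl)
      norm_num at this
    · have h5 : ((ρ : ℂ) + 1) ^ 5 = -ρ := by
        have : ((ρ : ℂ) + 1) ^ 5 = ((ρ : ℂ) + 1) ^ 3 * (ρ + 1) ^ 2 := by ring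
        rw [this, h3, h2]; ring
      rw [h5] at hl
      have := key 1 (-1) (by push_cast; linear_combination -hl)
      norm_num at this

lemma card_fixed_inv (h : SL(2, ℤ)) [DecidableEq (X N)] :
    Fintype.card {x : X N // (MulAction.toPerm h⁻¹ : Equiv.Perm (X N)) x = x}
      = Nat.card {x : X N // h • x = x} := by
  rw [← Nat.card_eq_fintype_card]
  refine Nat.card_congr (Equiv.subtypeEquivRight fun x => ?_)
  rw [MulAction.toPerm_apply, inv_smul_eq_iff]
  exact eq_comm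

/-- `#{i | 4 ∣ d i} = (ψ(N) + ν₂(N)) / 2`. -/
theorem two_mul_card_four_dvd
    (hPW : ∀ τ₀ : ℍ, LinearIndependent ℂ (fun i => vec (B.d i) (B.b i) τ₀))
    (hm : B.m = Nat.card (X N)) :
    2 * Fintype.card {i // (4 : ℤ) ∣ B.d i}
      = ModularCurve.dedekindPsi N + ModularCurve.nuTwo N := by
  classical
  have h1 := card_dvd_eq_cyc B I (hPW I) hm S S_smul_I 4
    (by rw [denom_S_I]; exact Complex.isPrimitiveRoot_I)
  have hσ : (MulAction.toPerm (S : SL(2, ℤ))⁻¹ : Equiv.Perm (X N)) ^ 2 = 1 := by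
    ext x
    simp only [pow_two, Equiv.Perm.mul_apply, MulAction.toPerm_apply, Equiv.Perm.one_apply]
    rw [smul_smul]
    have : (S : SL(2, ℤ))⁻¹ * S⁻¹ = -1 := by decide
    rw [this]
    exact Fermat.Agent.S24_helper44.neg_one_smul_coset N x
  have h2 := Fermat.Agent.S24_helper44.two_mul_cyc _ hσ
  rw [card_fixed_inv, ← Nat.card_eq_fintype_card] at h2
  have h3 : Nat.card {x : X N // (S : SL(2, ℤ)) • x = x} = ModularCurve.nuTwo N :=
    Fermat.Agent.S20_helper27.card_fixed_S N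
  have h4 : Nat.card (X N) = ModularCurve.dedekindPsi N := Fermat.Agent.S20_helper27.card_XN N
  push_cast at h1
  rw [h1, h2, h3, h4]

/-- `#{i | 6 ∣ d i} = (ψ(N) + 2 ν₃(N)) / 3`. -/
theorem three_mul_card_six_dvd
    (hPW : ∀ τ₀ : ℍ, LinearIndependent ℂ (fun i => vec (B.d i) (B.b i) τ₀))
    (hm : B.m = Nat.card (X N)) :
    3 * Fintype.card {i // (6 : ℤ) ∣ B.d i}
      = ModularCurve.dedekindPsi N + 2 * ModularCurve.nuThree N := by
  classical
  have h1 := card_dvd_eq_cyc B ρ (hPW ρ) hm (S * T) ST_smul_rho 6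
    (by rw [denom_ST_rho]; exact isPrimitiveRoot_rho_add_one)
  have hσ : (MulAction.toPerm ((S : SL(2, ℤ)) * T)⁻¹ : Equiv.Perm (X N)) ^ 3 = 1 := by
    ext x
    simp only [pow_succ, pow_zero, one_mul, Equiv.Perm.mul_apply, MulAction.toPerm_apply,
      Equiv.Perm.one_apply]
    rw [smul_smul, smul_smul]
    have : ((S : SL(2, ℤ)) * T)⁻¹ * (S * T)⁻¹ * (S * T)⁻¹ = -1 := by decide
    rw [this]
    exact Fermat.Agent.S24_helper44.neg_one_smul_coset N x
  have h2 := Fermat.Agent.S24_helper44.three_mul_cyc _ hσ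
  rw [card_fixed_inv, ← Nat.card_eq_fintype_card] at h2
  have h3 : Nat.card {x : X N // ((S : SL(2, ℤ)) * T) • x = x} = ModularCurve.nuThree N :=
    Fermat.Agent.S20_helper27.card_fixed_ST N
  have h4 : Nat.card (X N) = ModularCurve.dedekindPsi N := Fermat.Agent.S20_helper27.card_XN N
  push_cast at h1
  rw [h1, h2, h3, h4]

end Fermat.Agent.S20FM.Glue
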