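import Fermat.Agent.S20FM.Div

/-!
# Pointwise basis property of a homogeneous basis (abstract core)

Let `B` be a homogeneous basis of the graded module of modular forms on `Γ ≤ SL(2, ℤ)` over the
ring of level one forms.  The core lemma `FreeBasis.eq_zero_of_relation` says: a linear relation
at a point `τ₀` among the vectors of all conjugates of the basis elements is trivial, as soon as
there are a level one form `P` whose zero set is the orbit of `τ₀` (simple zeros, nonzero limit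
at `i∞`) and level one forms `h i` of weights `K - d i` not vanishing at `τ₀`.

We also provide the splitting of a relation according to the eigenvalues of the right
translation by a stabiliser element.
-/

set_option autoImplicit false

open UpperHalfPlane ModularForm Filter Topology
open scoped MatrixGroups ModularForm Manifold

namespace Fermat.Agent.S20FM

open Fermat.Agent.S23

/-- Right translation by an element fixing `τ₀` multiplies the vector of conjugates by a scalar. -/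
theorem vec_mul_of_smul_eq (k : ℤ) (f : ℍ → ℂ) {τ₀ : ℍ} {γ₀ : SL(2, ℤ)} (h : γ₀ • τ₀ = τ₀)
    (γ : SL(2, ℤ)) :
    vec k f τ₀ (γ * γ₀) = denom γ₀ τ₀ ^ (-k) * vec k f τ₀ γ := by
  unfold vec
  rw [SlashAction.slash_mul, SL_slash_apply, h, mul_comm]

/-- The vector of conjugates at a translated point. -/
theorem vec_smul (k : ℤ) (f : ℍ → ℂ) (τ : ℍ) (g γ : SL(2, ℤ)) :
    vec k f (g • τ) γ = denom g τ ^ k * vec k f τ (γ * g) := by
  unfold vec
  rw [SlashAction.slash_mul, SL_slash_apply (f := f ∣[k] γ), mul_comm, mul_assoc,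
    ← zpow_add₀ (denom_ne_zero g τ)]
  simp

/-- Splitting a linear relation between eigenvectors according to the eigenvalues. -/
theorem sum_fiber_eq_zero {V : Type*} [AddCommGroup V] [Module ℂ V] {ι : Type*} [Fintype ι]
    (A : Module.End ℂ V) (lam : ι → ℂ) (v : ι → V) (hA : ∀ i, A (v i) = lam i • v i)
    (h : ∑ i, v i = 0) (μ : ℂ) : ∑ i with lam i = μ, v i = 0 := by
  classical
  have hind := (iSupIndep_iff_finsetSum_eq_zero_imp_eq_zero A.eigenspace).mp
    A.eigenspaces_iSupIndep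
  set s : Finset ℂ := Finset.univ.image lam with hs
  set w : ℂ → V := fun μ => ∑ i with lam i = μ, v i with hw
  have hmem : ∀ μ ∈ s, w μ ∈ A.eigenspace μ := by
    intro μ _
    refine Submodule.sum_mem _ fun i hi => ?_
    rw [Module.End.mem_eigenspace_iff, hA i, (Finset.mem_filter.mp hi).2]
  have hsum : ∑ μ ∈ s, w μ = 0 := by
    rw [← h]
    exact Finset.sum_fiberwise_of_maps_to (fun i _ => Finset.mem_image_of_mem lam
      (Finset.mem_univ i)) v
  by_cases hμ : μ ∈ s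
  · exact hind s w hmem hsum μ hμ
  · have : (Finset.univ.filter fun i => lam i = μ) = ∅ := by
      rw [Finset.filter_eq_empty_iff]
      intro i _ hi
      exact hμ (hi ▸ Finset.mem_image_of_mem lam (Finset.mem_univ i))
    rw [this, Finset.sum_empty]

/-- **Core lemma.** -/
theorem FreeBasis.eq_zero_of_relation {Γ : Subgroup (GL (Fin 2) ℝ)} [Γ.IsArithmetic]
    [Γ.HasDetOne] (hΓ : Γ ≤ 𝒮ℒ) (B : FreeBasis Γ) (τ₀ : ℍ) {a : ℤ} {P : ℍ → ℂ} {c₀ : ℂ}
    (hP : IsMF 𝒮ℒ a P) (hc₀ : c₀ ≠ 0) (hPinf : Tendsto P atImInfty (𝓝 c₀)) (hP0 : P τ₀ = 0)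
    (hPzero : ∀ τ : ℍ, P τ = 0 →
      (∃ γ : SL(2, ℤ), τ = γ • τ₀) ∧ analyticOrderAt (P ∘ ofComplex) (τ : ℂ) = 1)
    (K : ℤ) (h : Fin B.m → ℍ → ℂ) (hh : ∀ i, IsMF 𝒮ℒ (K - B.d i) (h i))
    (c : Fin B.m → ℂ) (hne : ∀ i, c i ≠ 0 → h i τ₀ ≠ 0)
    (hrel : ∀ γ : SL(2, ℤ), ∑ i, c i * vec (B.d i) (B.b i) τ₀ γ = 0) : c = 0 := by
  -- the auxiliary form
  set F : ℍ → ℂ := ∑ i, (c i / h i τ₀) • (h i * B.b i) with hFdef
  have hterm : ∀ i, IsMF Γ K (h i * B.b i) := fun i =>
    (((hh i).mono hΓ).mul (B.isMF i)).congr_weight (by ring)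
  have hF : IsMF Γ K F := IsMF.sum _ fun i _ => (hterm i).smul _
  -- its conjugates vanish at `τ₀`
  have hslash : ∀ γ : SL(2, ℤ), (F ∣[K] γ) τ₀ = 0 := by
    intro γ
    rw [hFdef, SlashAction.sum_slash, Finset.sum_apply, ← hrel γ]
    refine Finset.sum_congr rfl fun i _ => ?_
    have h1 : (h i * B.b i) ∣[K] γ = (h i ∣[K - B.d i] γ) * (B.b i ∣[B.d i] γ) := by
      have := mul_slash_SL2 (K - B.d i) (B.d i) γ (h i) (B.b i)
      rwa [sub_add_cancel] at this
    have h2 : h i ∣[K - B.d i] γ = h i := by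
      rw [SL_slash]
      exact (hh i).slash_eq ⟨γ, rfl⟩
    rw [SL_smul_slash, h1, h2, Pi.smul_apply, Pi.mul_apply, smul_eq_mul]
    unfold vec
    by_cases hci : c i = 0
    · simp [hci]
    · have := hne i hci
      field_simp
  have hFzero : ∀ γ : SL(2, ℤ), F (γ • τ₀) = 0 := by
    intro γ
    have h1 := hslash γ
    rw [SL_slash_apply] at h1
    exact (mul_eq_zero.mp h1).resolve_right (zpow_ne_zero _ (denom_ne_zero γ τ₀))
  -- divide by `P`
  obtain ⟨F', hF', hFP⟩ := exists_div_of_order_le hΓ hF hP hc₀ hPinf (fun τ => by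
    have hPa := mdiff_analyticAt hP.mdiff τ
    have hFa := mdiff_analyticAt hF.mdiff τ
    by_cases h0 : P τ = 0
    · obtain ⟨⟨γ, rfl⟩, hd⟩ := hPzero τ h0
      rw [hd, Order.one_le_iff_ne_zero, hFa.analyticOrderAt_ne_zero]
      simpa using hFzero γ
    · have : analyticOrderAt (P ∘ ofComplex) (τ : ℂ) = 0 := by
        rw [hPa.analyticOrderAt_eq_zero]
        simpa using h0
      rw [this]
      exact zero_le)
  obtain ⟨r, hr, hF'r⟩ := B.gen (K - a) F' hF'
  -- the relation over the level one ring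
  set s : Fin B.m → ℍ → ℂ := fun i => (c i / h i τ₀) • h i - P * r i with hsdef
  have hs : ∀ i, IsMF 𝒮ℒ (K - B.d i) (s i) := fun i =>
    ((hh i).smul _).sub ((hP.mul (hr i)).congr_weight (by ring))
  have hsum : ∑ i, s i * B.b i = 0 := by
    have h1 : ∑ i, s i * B.b i = F - P * F' := by
      rw [hFdef, hF'r, Finset.mul_sum, ← Finset.sum_sub_distrib]
      refine Finset.sum_congr rfl fun i _ => ?_
      rw [hsdef]
      simp only [sub_mul, smul_mul_assoc, mul_assoc]
    rw [h1, ← hFP, sub_self]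
  have hzero := B.indep K s hs hsum
  funext i
  by_contra hci
  have h1 := congrFun (hzero i) τ₀
  rw [hsdef] at h1
  simp only [Pi.sub_apply, Pi.smul_apply, Pi.mul_apply, smul_eq_mul, hP0, zero_mul, sub_zero,
    Pi.zero_apply] at h1
  have h2 := hne i hci
  rw [div_mul_cancel₀ _ h2] at h1
  exact hci h1

/-- **Class lemma.**  If moreover `γ₀` fixes `τ₀` with `denom γ₀ τ₀` a primitive `e`-th root of
unity and there are level one forms of all weights `e * n`, `n ≥ n₀`, not vanishing at `τ₀`, then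
every relation at `τ₀` is trivial. -/
theorem FreeBasis.eq_zero_of_relation_of_stab {Γ : Subgroup (GL (Fin 2) ℝ)} [Γ.IsArithmetic]
    [Γ.HasDetOne] (hΓ : Γ ≤ 𝒮ℒ) (B : FreeBasis Γ) (τ₀ : ℍ) {a : ℤ} {P : ℍ → ℂ} {c₀ : ℂ}
    (hP : IsMF 𝒮ℒ a P) (hc₀ : c₀ ≠ 0) (hPinf : Tendsto P atImInfty (𝓝 c₀)) (hP0 : P τ₀ = 0)
    (hPzero : ∀ τ : ℍ, P τ = 0 →
      (∃ γ : SL(2, ℤ), τ = γ • τ₀) ∧ analyticOrderAt (P ∘ ofComplex) (τ : ℂ) = 1)
    {γ₀ : SL(2, ℤ)} (hγ₀ : γ₀ • τ₀ = τ₀) {e : ℕ} (he : 0 < e)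
    (hu : IsPrimitiveRoot (denom γ₀ τ₀) e) (n₀ : ℕ)
    (hh : ∀ n : ℕ, n₀ ≤ n → ∃ h : ℍ → ℂ, IsMF 𝒮ℒ ((e : ℤ) * n) h ∧ h τ₀ ≠ 0)
    (c : Fin B.m → ℂ)
    (hrel : ∀ γ : SL(2, ℤ), ∑ i, c i * vec (B.d i) (B.b i) τ₀ γ = 0) : c = 0 := by
  classical
  funext i₀
  set u : ℂ := denom γ₀ τ₀ with hudef
  have hu0 : u ≠ 0 := denom_ne_zero γ₀ τ₀
  -- the right translation by `γ₀`
  set A : Module.End ℂ (SL(2, ℤ) → ℂ) := LinearMap.funLeft ℂ ℂ (fun γ => γ * γ₀) with hAdef
  set lam : Fin B.m → ℂ := fun i => u ^ (-B.d i) with hlam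
  set v : Fin B.m → SL(2, ℤ) → ℂ := fun i => c i • vec (B.d i) (B.b i) τ₀ with hv
  have hA : ∀ i, A (v i) = lam i • v i := by
    intro i
    funext γ
    simp only [hAdef, hv, hlam, LinearMap.funLeft_apply, Pi.smul_apply, smul_eq_mul]
    rw [vec_mul_of_smul_eq (B.d i) (B.b i) hγ₀ γ]
    ring
  have hsum : ∑ i, v i = 0 := by
    funext γ
    rw [Finset.sum_apply]
    simpa [hv] using hrel γ
  have hcl := sum_fiber_eq_zero A lam v hA hsum (lam i₀)
  -- the relation restricted to the class of `i₀`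
  set c' : Fin B.m → ℂ := fun i => if lam i = lam i₀ then c i else 0 with hc'
  have hrel' : ∀ γ : SL(2, ℤ), ∑ i, c' i * vec (B.d i) (B.b i) τ₀ γ = 0 := by
    intro γ
    have h1 := congrFun hcl γ
    rw [Finset.sum_apply, Finset.sum_filter, Pi.zero_apply] at h1
    rw [← h1]
    refine Finset.sum_congr rfl fun i _ => ?_
    by_cases hi : lam i = lam i₀ <;> simp [hc', hv, hi]
  -- divisibility inside the class
  have hdvd : ∀ i, lam i = lam i₀ → (e : ℤ) ∣ B.d i₀ - B.d i := by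
    intro i hi
    rw [← hu.zpow_eq_one_iff_dvd]
    simp only [hlam] at hi
    rw [sub_eq_add_neg, zpow_add₀ hu0, hi, ← zpow_add₀ hu0]
    simp
  -- choice of the weight
  set M : ℕ := n₀ + ∑ i, (B.d i₀ - B.d i).natAbs with hM
  set K : ℤ := B.d i₀ + e * M with hK
  have hex : ∀ i, ∃ h : ℍ → ℂ, IsMF 𝒮ℒ (K - B.d i) h ∧ (lam i = lam i₀ → h τ₀ ≠ 0) := by
    intro i
    by_cases hi : lam i = lam i₀
    · obtain ⟨t, ht⟩ := hdvd i hi
      have hle : (B.d i₀ - B.d i).natAbs ≤ ∑ j, (B.d i₀ - B.d j).natAbs :=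
        Finset.single_le_sum (f := fun j => (B.d i₀ - B.d j).natAbs) (fun _ _ => Nat.zero_le _)
          (Finset.mem_univ i)
      have htabs : t.natAbs ≤ (B.d i₀ - B.d i).natAbs := by
        rw [ht, Int.natAbs_mul]
        exact Nat.le_mul_of_pos_left _ (by simpa using he)
      have hnn : (n₀ : ℤ) ≤ M + t := by
        have h1 : -(t.natAbs : ℤ) ≤ t := by
          have := abs_nonneg t
          have h5 := neg_abs_le t
          rwa [Int.abs_eq_natAbs] at h5
        have h2 : (M : ℤ) = n₀ + ∑ j, ((B.d i₀ - B.d j).natAbs : ℤ) := by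
          rw [hM]; push_cast; rfl
        have h3 : (t.natAbs : ℤ) ≤ ∑ j, ((B.d i₀ - B.d j).natAbs : ℤ) := by
          exact_mod_cast htabs.trans hle
        linarith
      obtain ⟨n, hn⟩ : ∃ n : ℕ, (n : ℤ) = M + t :=
        ⟨(M + t).toNat, Int.toNat_of_nonneg (le_trans (Int.natCast_nonneg _) hnn)⟩
      obtain ⟨h, hh1, hh2⟩ := hh n (by exact_mod_cast hn ▸ hnn)
      refine ⟨h, hh1.congr_weight ?_, fun _ => hh2⟩
      rw [hn, hK, mul_add, ← ht]
      ring
    · exact ⟨0, IsMF.zero, fun h => absurd h hi⟩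
  choose h hh1 hh2 using hex
  have hzero := B.eq_zero_of_relation hΓ τ₀ hP hc₀ hPinf hP0 hPzero K h hh1 c'
    (fun i hi => hh2 i (by
      by_contra hne
      exact hi (by simp [hc', hne]))) hrel'
  have := congrFun hzero i₀
  simpa [hc'] using this

/-- Linear independence form of the relation statement. -/
theorem linearIndependent_vec_of_forall {m : ℕ} (d : Fin m → ℤ) (b : Fin m → ℍ → ℂ) (τ₀ : ℍ)
    (h : ∀ c : Fin m → ℂ, (∀ γ : SL(2, ℤ), ∑ i, c i * vec (d i) (b i) τ₀ γ = 0) → c = 0) :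
    LinearIndependent ℂ (fun i => vec (d i) (b i) τ₀) := by
  rw [Fintype.linearIndependent_iff]
  intro c hc i
  have := h c (fun γ => by
    have h1 := congrFun hc γ
    simpa [Finset.sum_apply] using h1)
  exact congrFun this i

end Fermat.Agent.S20FM
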