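import Fermat.Agent.S20FM.Exists
import Fermat.Agent.S23.Separating
import Fermat.Agent.S23.Lagrange

/-!
# Structure of a homogeneous free basis of `M_*(Γ₀(N))` over `M_*(SL(2,ℤ))`

(helper60, T20 FM-route.)  For `B : FreeBasis (G0 N)`:
* `B.ne_zero`, `B.nonneg`, `B.even`: the generators are nonzero, of even nonnegative weight;
* `B.finrank_eq`: `dim M_k(Γ₀(N)) = ∑ i, dim M_{k - d i}(SL(2,ℤ))`;
* `B.card_zero`, `B.card_two`: exactly one generator of weight `0`, and `dim M_2(Γ₀(N))`
  generators of weight `2`;
* **FM2** `B.m_eq`: the number of generators is the index `[SL(2,ℤ) : Γ₀(N)]`.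
-/

set_option autoImplicit false

open UpperHalfPlane ModularForm EisensteinSeries Filter Topology
open scoped MatrixGroups ModularForm Manifold

namespace Fermat.Agent.S20FM

open Fermat.Agent.S23 CongruenceSubgroup GradedAlg

variable {N : ℕ} [NeZero N]

omit [NeZero N] in
theorem FreeBasis.ne_zero (B : FreeBasis (G0 N)) (i : Fin B.m) : B.b i ≠ 0 := by
  classical
  intro h0
  have key := B.indep (B.d i) (fun j => if j = i then (1 : ℍ → ℂ) else 0) (fun j => by
      by_cases hji : j = i
      · subst hji
        simp only [if_true, sub_self]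
        exact IsMF.one
      · simp only [hji, if_false]
        exact IsMF.zero) (by
      rw [Finset.sum_eq_single i]
      · simp [h0]
      · intro j _ hji
        simp [hji]
      · intro h
        exact absurd (Finset.mem_univ i) h) i
  simp only [if_true] at key
  exact one_ne_zero (congrFun key UpperHalfPlane.I)

theorem FreeBasis.nonneg (B : FreeBasis (G0 N)) (i : Fin B.m) : 0 ≤ B.d i := by
  by_contra h
  exact B.ne_zero i (G0_isMF_neg (not_le.mp h) (B.isMF i))

theorem FreeBasis.even (B : FreeBasis (G0 N)) (i : Fin B.m) : Even (B.d i) := by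
  by_contra h
  exact B.ne_zero i (G0_isMF_odd (Int.not_even_iff_odd.mp h) (B.isMF i))

theorem FreeBasis.setupIndep (B : FreeBasis (G0 N)) : (setup N).Indep B.d B.b :=
  fun K r hr h => B.indep K r hr h

/-- Upper bound for the number of generators. -/
theorem FreeBasis.m_le_index (B : FreeBasis (G0 N)) : B.m ≤ (Gamma0 N).index :=
  card_le_index_of_indep B.isMF B.setupIndep B.nonneg B.even

/-! ### Dimensions -/

theorem FreeBasis.combMap_surjective (B : FreeBasis (G0 N)) (K : ℤ) :
    Function.Surjective (combMap B.isMF K) := by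
  rintro ⟨f, hf⟩
  obtain ⟨r, hr, hsum⟩ := B.gen K f hf
  exact ⟨fun i => ⟨r i, hr i⟩, Subtype.ext hsum.symm⟩

theorem FreeBasis.finrank_eq (B : FreeBasis (G0 N)) (K : ℤ) :
    Module.finrank ℂ (ModularForm (G0 N) K) =
      ∑ i, Module.finrank ℂ (ModularForm 𝒮ℒ (K - B.d i)) := by
  have e := LinearEquiv.ofBijective (combMap B.isMF K)
    ⟨combMap_injective B.isMF B.setupIndep K, B.combMap_surjective K⟩
  rw [← finrank_Msub, ← e.finrank_eq, Module.finrank_pi_fintype]
  exact Finset.sum_congr rfl fun i _ => finrank_Msub _ _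

theorem finrank_levelOne_zero : Module.finrank ℂ (ModularForm 𝒮ℒ 0) = 1 :=
  Module.rank_eq_one_iff_finrank_eq_one.mp ModularForm.levelOne_weight_zero_rank_one

theorem finrank_levelOne_neg {k : ℤ} (hk : k < 0) : Module.finrank ℂ (ModularForm 𝒮ℒ k) = 0 := by
  have := ModularForm.levelOne_neg_weight_rank_zero hk
  exact Module.finrank_eq_zero_of_rank_eq_zero this

theorem finrank_levelOne_two : Module.finrank ℂ (ModularForm 𝒮ℒ 2) = 0 :=
  Module.finrank_eq_zero_of_rank_eq_zero ModularForm.levelOne_weight_two_rank_zero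

/-- Weight zero forms on `Γ₀(N)` are constant. -/
theorem finrank_G0_zero : Module.finrank ℂ (ModularForm (G0 N) 0) = 1 := by
  rw [finrank_eq_one_iff_of_nonzero' (ModularForm.const 1 : ModularForm (G0 N) 0)]
  · intro w
    obtain ⟨c, hc⟩ := ModularForm.eq_const_of_weight_zero w
    refine ⟨c, ?_⟩
    ext τ
    rw [hc]
    simp
  · intro h
    have := congrArg (fun F : ModularForm (G0 N) 0 => F UpperHalfPlane.I) h
    simp at this

/-- Exactly one generator has weight `0`. -/
theorem FreeBasis.card_zero (B : FreeBasis (G0 N)) : Fintype.card {i // B.d i = 0} = 1 := by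
  classical
  have h := B.finrank_eq 0
  rw [finrank_G0_zero] at h
  have h2 : ∀ i, Module.finrank ℂ (ModularForm 𝒮ℒ (0 - B.d i)) = if B.d i = 0 then 1 else 0 := by
    intro i
    split_ifs with hi
    · rw [hi, sub_zero, finrank_levelOne_zero]
    · refine finrank_levelOne_neg ?_
      have := B.nonneg i
      omega
  rw [Finset.sum_congr rfl fun i _ => h2 i, Finset.sum_boole] at h
  rw [Fintype.card_subtype]
  exact_mod_cast h.symm

/-- The number of generators of weight `2` is `dim M_2(Γ₀(N))`. -/
theorem FreeBasis.card_two (B : FreeBasis (G0 N)) :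
    Fintype.card {i // B.d i = 2} = Module.finrank ℂ (ModularForm (G0 N) 2) := by
  classical
  have h := B.finrank_eq 2
  have h2 : ∀ i, Module.finrank ℂ (ModularForm 𝒮ℒ (2 - B.d i)) = if B.d i = 2 then 1 else 0 := by
    intro i
    split_ifs with hi
    · rw [hi, sub_self, finrank_levelOne_zero]
    · have h0 := B.nonneg i
      obtain ⟨e, he⟩ := B.even i
      by_cases h1 : B.d i = 0
      · rw [h1, sub_zero, finrank_levelOne_two]
      · refine finrank_levelOne_neg ?_
        omega
  rw [Finset.sum_congr rfl fun i _ => h2 i, Finset.sum_boole] at h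
  rw [Fintype.card_subtype, h]
  simp

end Fermat.Agent.S20FM
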